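import Mathlib

/-!
# S52, brick (Tr): frozen interface (helper166)

Manin's twist.  `k` a field, `A B : k`, `f = X^3 + A X + B`, `lam = f(t) ∈ RatFunc k`.
Twisted curve `lam * Y^2 = X^3 + A X + B` over `RatFunc k`, realised as the Mathlib curve
`Etw A B : y^2 = x^3 + A lam^2 x + B lam^3` via `x = lam * X`, `y = lam^2 * Y`.

All sub-bricks (PolyHeight, Quadratic, ManinCount, Specialize, Comp, Assembly) use these names.
-/

set_option autoImplicit false

namespace Fermat.Agent.S52.Tr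

open Polynomial

noncomputable section

variable {k : Type*} [Field k]

/-- height of a fraction `a / b` of polynomials -/
def hd (a b : k[X]) : ℕ := max a.natDegree b.natDegree

/-- degree (height) of a rational function: `max (deg num) (deg denom)` -/
def rdeg (r : RatFunc k) : ℕ := hd r.num r.denom

/-- the cubic `X^3 + A X + B` -/
def cubic (A B : k) : k[X] := X ^ 3 + C A * X + C B

/-- `lam = t^3 + A t + B` as a rational function -/
def lam (A B : k) : RatFunc k := algebraMap k[X] (RatFunc k) (cubic A B)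

/-- the short Weierstrass curve `y^2 = x^3 + A x + B` over a field -/
def shortCurve {F : Type*} [Field F] (A B : F) : WeierstrassCurve.Affine F :=
  { a₁ := 0, a₂ := 0, a₃ := 0, a₄ := A, a₆ := B }

/-- the twisted curve over `RatFunc k` -/
def Etw (A B : k) : WeierstrassCurve.Affine (RatFunc k) :=
  shortCurve (RatFunc.C A * lam A B ^ 2) (RatFunc.C B * lam A B ^ 3)

/-- the `X`-coordinate `x / lam` of an affine point of `Etw`; junk value `0` at the origin -/
def Xc (A B : k) : (Etw A B).Point → RatFunc k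
  | .zero => 0
  | .some x _ _ => x / lam A B

/-- the `Y`-coordinate `y / lam^2` of an affine point of `Etw`; junk value `0` at the origin -/
def Yc (A B : k) : (Etw A B).Point → RatFunc k
  | .zero => 0
  | .some _ y _ => y / lam A B ^ 2

/-- the degree of a point: `0` at the origin, `rdeg (x / lam)` at an affine point -/
def dpt (A B : k) : (Etw A B).Point → ℕ
  | .zero => 0
  | .some x _ _ => rdeg (x / lam A B)

/-- `Etw`-coordinates of the point with twisted coordinates `(X, Y)` -/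
def xOf (A B : k) (X : RatFunc k) : RatFunc k := lam A B * X
def yOf (A B : k) (Y : RatFunc k) : RatFunc k := lam A B ^ 2 * Y

/-- `lam * Y^2 = X^3 + A X + B`: the twisted equation -/
def TwEq (A B : k) (X Y : RatFunc k) : Prop :=
  lam A B * Y ^ 2 = X ^ 3 + RatFunc.C A * X + RatFunc.C B

end



open Polynomial

noncomputable section

variable {k : Type*} [Field k] (A B : k)

lemma cubic_monic : (cubic A B).Monic := by
  unfold cubic
  monicity!

lemma cubic_natDegree : (cubic A B).natDegree = 3 := by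
  unfold cubic
  compute_degree!

lemma cubic_ne_zero : cubic A B ≠ 0 := (cubic_monic A B).ne_zero

lemma lam_ne_zero : lam A B ≠ 0 := by
  unfold lam
  simpa using cubic_ne_zero A B

lemma lam_eq : lam A B = RatFunc.X ^ 3 + RatFunc.C A * RatFunc.X + RatFunc.C B := by
  simp [lam, cubic, RatFunc.algebraMap_X, RatFunc.algebraMap_C]

lemma Etw_Δ : (Etw A B).Δ = lam A B ^ 6 * RatFunc.C (-16 * (4 * A ^ 3 + 27 * B ^ 2)) := by
  simp only [Etw, shortCurve, WeierstrassCurve.Δ, WeierstrassCurve.b₂, WeierstrassCurve.b₄,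
    WeierstrassCurve.b₆, WeierstrassCurve.b₈, map_mul, map_add, map_neg, map_pow, map_ofNat]
  ring

lemma Etw_Δ_ne_zero (hΔ : 4 * A ^ 3 + 27 * B ^ 2 ≠ 0) (h2 : (2 : k) ≠ 0) : (Etw A B).Δ ≠ 0 := by
  rw [Etw_Δ]
  refine mul_ne_zero (pow_ne_zero _ (lam_ne_zero A B)) ?_
  rw [Ne, map_eq_zero]
  have h16 : (16 : k) ≠ 0 := by
    have : (16 : k) = 2 ^ 4 := by norm_num
    rw [this]; exact pow_ne_zero _ h2
  exact mul_ne_zero (neg_ne_zero.mpr h16) hΔ

lemma etw_equation_iff (X Y : RatFunc k) :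
    (Etw A B).Equation (xOf A B X) (yOf A B Y) ↔ TwEq A B X Y := by
  rw [WeierstrassCurve.Affine.equation_iff]
  simp only [Etw, shortCurve, xOf, yOf, TwEq]
  have hl := lam_ne_zero A B
  constructor
  · intro h
    have h3 : lam A B ^ 3 ≠ 0 := pow_ne_zero _ hl
    apply mul_left_cancel₀ h3
    linear_combination h
  · intro h
    linear_combination (lam A B ^ 3) * h

lemma etw_nonsingular (hΔ : 4 * A ^ 3 + 27 * B ^ 2 ≠ 0) (h2 : (2 : k) ≠ 0) {X Y : RatFunc k}
    (h : TwEq A B X Y) : (Etw A B).Nonsingular (xOf A B X) (yOf A B Y) :=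
  (WeierstrassCurve.Affine.equation_iff_nonsingular_of_Δ_ne_zero (Etw_Δ_ne_zero A B hΔ h2)).mp
    ((etw_equation_iff A B X Y).mpr h)

/-- the point of `Etw` with twisted coordinates `(X, Y)` -/
def mkPt (hΔ : 4 * A ^ 3 + 27 * B ^ 2 ≠ 0) (h2 : (2 : k) ≠ 0) (X Y : RatFunc k)
    (h : TwEq A B X Y) : (Etw A B).Point :=
  .some (xOf A B X) (yOf A B Y) (etw_nonsingular A B hΔ h2 h)

lemma twEq_X_one : TwEq A B RatFunc.X 1 := by
  unfold TwEq
  rw [lam_eq]; ring

/-- the generic point `Q = (t, 1)` (the identity map of `E`) -/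
def Qpt (hΔ : 4 * A ^ 3 + 27 * B ^ 2 ≠ 0) (h2 : (2 : k) ≠ 0) : (Etw A B).Point :=
  mkPt A B hΔ h2 RatFunc.X 1 (twEq_X_one A B)

end

section Frob

variable (ℓ : ℕ) [Fact ℓ.Prime] (A B : ZMod ℓ)

lemma lam_pow_card : lam A B ^ ℓ = (RatFunc.X ^ ℓ) ^ 3 + RatFunc.C A * RatFunc.X ^ ℓ + RatFunc.C B := by
  have : CharP (RatFunc (ZMod ℓ)) ℓ := charP_of_injective_algebraMap (algebraMap (ZMod ℓ) (RatFunc (ZMod ℓ))).injective ℓ
  rw [lam_eq, add_pow_char, add_pow_char, mul_pow, ← map_pow, ZMod.pow_card, ← map_pow, ZMod.pow_card]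
  ring

lemma lam_pow_card_pow (n : ℕ) :
    lam A B ^ (ℓ ^ n) = (RatFunc.X ^ (ℓ ^ n)) ^ 3 + RatFunc.C A * RatFunc.X ^ (ℓ ^ n) + RatFunc.C B := by
  induction n with
  | zero => simp [lam_eq]
  | succ n ih =>
    have : CharP (RatFunc (ZMod ℓ)) ℓ := charP_of_injective_algebraMap (algebraMap (ZMod ℓ) (RatFunc (ZMod ℓ))).injective ℓ
    rw [pow_succ, pow_mul, ih, add_pow_char, add_pow_char, mul_pow, ← map_pow, ZMod.pow_card,
      ← map_pow, ZMod.pow_card]
    ring

/-- twisted equation for the `n`-th Frobenius point `(t^(ℓ^n), lam^((ℓ^n-1)/2))`, `ℓ` odd -/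
lemma twEq_frob (hℓ : ℓ ≠ 2) (n : ℕ) :
    TwEq A B (RatFunc.X ^ (ℓ ^ n)) (lam A B ^ ((ℓ ^ n - 1) / 2)) := by
  unfold TwEq
  have hodd : Odd (ℓ ^ n) := ((Fact.out : ℓ.Prime).odd_of_ne_two hℓ).pow
  obtain ⟨m, hm⟩ := hodd
  have e : (ℓ ^ n - 1) / 2 = m := by omega
  rw [e, ← pow_mul, ← pow_succ', ← lam_pow_card_pow ℓ A B n, hm]
  congr 1
  ring

/-- the `n`-th Frobenius point; `frobPt 0 = Qpt`, `frobPt 1 = P1`, `frobPt 2 = P2` -/
noncomputable def frobPt (hΔ : 4 * A ^ 3 + 27 * B ^ 2 ≠ 0) (h2 : (2 : ZMod ℓ) ≠ 0) (hℓ : ℓ ≠ 2)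
    (n : ℕ) : (Etw A B).Point :=
  mkPt A B hΔ h2 (RatFunc.X ^ (ℓ ^ n)) (lam A B ^ ((ℓ ^ n - 1) / 2)) (twEq_frob ℓ A B hℓ n)

end Frob

end Fermat.Agent.S52.Tr
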