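import Mathlib
import Fermat.Agent.S05.VarChange
import Fermat.Agent.S52.Tr.Defs

/-!
# S52, brick (Tr), part (g): specialisation of Manin's twist

`Etw : y² = x³ + A λ² x + B λ³` over `k(t)` (`λ = t³ + A t + B`) is the twist of
`E : y² = x³ + A x + B`.  For a point `(x0, y0)` of `E` over an extension field `F` of `k`
the specialisation `sp` sends `(x, y) ∈ Etw(k(t))` to `(x(x0) / y0², y(x0) / y0³) ∈ E(F)`.
It is additive "generically" (off a finite set of `x0`), which is all that is needed to transport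
a relation `c₂ P₂ + c₁ P₁ + c₀ Q = 0` in `Etw(k(t))` to the relation
`c₂ Frob² + c₁ Frob + c₀ = 0` on `E(F)`.
-/

set_option autoImplicit false

open WeierstrassCurve WeierstrassCurve.Affine

namespace Fermat.Agent.S52.Tr.Specialize

/-- `W` is the short Weierstrass curve `y² = x³ + A x + B`. -/
structure IsShort {R : Type*} [CommRing R] (W : Affine R) (A B : R) : Prop where
  a₁ : W.a₁ = 0
  a₂ : W.a₂ = 0
  a₃ : W.a₃ = 0
  a₄ : W.a₄ = A
  a₆ : W.a₆ = B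

namespace IsShort

variable {R : Type*} [CommRing R] {W : Affine R} {A B : R}

theorem equation_iff (h : IsShort W A B) (x y : R) :
    W.Equation x y ↔ y ^ 2 = x ^ 3 + A * x + B := by
  rw [Affine.equation_iff, h.a₁, h.a₂, h.a₃, h.a₄, h.a₆]
  constructor <;> intro e <;> linear_combination e

theorem negY_eq (h : IsShort W A B) (x y : R) : W.negY x y = -y := by
  simp [Affine.negY, h.a₁, h.a₃]

theorem addX_eq (h : IsShort W A B) (x₁ x₂ ℓ : R) : W.addX x₁ x₂ ℓ = ℓ ^ 2 - x₁ - x₂ := by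
  simp [Affine.addX, h.a₁, h.a₂]

theorem addY_eq (h : IsShort W A B) (x₁ x₂ y₁ ℓ : R) :
    W.addY x₁ x₂ y₁ ℓ = -(ℓ * (ℓ ^ 2 - x₁ - x₂ - x₁) + y₁) := by
  simp [Affine.addY, Affine.negAddY, Affine.negY, Affine.addX, h.a₁, h.a₂, h.a₃]

theorem Δ_eq (h : IsShort W A B) : W.Δ = -16 * (4 * A ^ 3 + 27 * B ^ 2) := by
  simp only [WeierstrassCurve.Δ, WeierstrassCurve.b₂, WeierstrassCurve.b₄, WeierstrassCurve.b₆,
    WeierstrassCurve.b₈, h.a₁, h.a₂, h.a₃, h.a₄, h.a₆]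
  ring

end IsShort

/-! ## Reduction along a local subring -/

section Abstract

variable {K κ : Type*} [Field K] [Field κ]
variable (O : Subring K) (φ : O →+* κ)

/-- Elements with nonzero reduction are invertible in a local subring. -/
theorem exists_inv (hloc : ∀ g : O, φ g ≠ 0 → ((g : K))⁻¹ ∈ O) (g : O) (hg : φ g ≠ 0) :
    ∃ g' : O, (g' : K) = (g : K)⁻¹ ∧ φ g' = (φ g)⁻¹ := by
  refine ⟨⟨_, hloc g hg⟩, rfl, ?_⟩
  have hg0 : (g : K) ≠ 0 := by
    intro h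
    apply hg
    have : g = 0 := Subtype.ext h
    rw [this, map_zero]
  have h1 : g * (⟨_, hloc g hg⟩ : O) = 1 := by
    apply Subtype.ext
    simp [mul_inv_cancel₀ hg0]
  have h2 : φ g * φ (⟨_, hloc g hg⟩ : O) = 1 := by rw [← map_mul, h1, map_one]
  exact eq_inv_of_mul_eq_one_right h2

variable {O φ} [DecidableEq K] [DecidableEq κ]

/-- The slope of a chord reduces to the slope of the reduced chord. -/
theorem exists_slope_of_X_ne (hloc : ∀ g : O, φ g ≠ 0 → ((g : K))⁻¹ ∈ O)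
    (W : Affine K) (Wb : Affine κ) {x₁ y₁ x₂ y₂ : O} (hx : φ x₁ ≠ φ x₂) :
    ∃ ℓ : O, (ℓ : K) = W.slope (x₁ : K) x₂ y₁ y₂ ∧
      φ ℓ = Wb.slope (φ x₁) (φ x₂) (φ y₁) (φ y₂) := by
  have hxK : (x₁ : K) ≠ x₂ := by
    intro h
    exact hx (congrArg φ (Subtype.ext h))
  have hne : φ (x₁ - x₂) ≠ 0 := by rw [map_sub]; exact sub_ne_zero.mpr hx
  obtain ⟨g', hg', hφg'⟩ := exists_inv O φ hloc (x₁ - x₂) hne
  refine ⟨(y₁ - y₂) * g', ?_, ?_⟩
  · rw [Affine.slope_of_X_ne hxK]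
    push_cast
    rw [hg']
    push_cast
    rw [div_eq_mul_inv]
  · rw [Affine.slope_of_X_ne hx, map_mul, hφg', map_sub, map_sub, div_eq_mul_inv]

/-- The slope of a tangent reduces to the slope of the reduced tangent. -/
theorem exists_slope_double (hloc : ∀ g : O, φ g ≠ 0 → ((g : K))⁻¹ ∈ O)
    {W : Affine K} {Wb : Affine κ} {a4 a6 : O} (hW : IsShort W (a4 : K) (a6 : K))
    (hWb : IsShort Wb (φ a4) (φ a6)) {x₁ y₁ : O} (hy : φ y₁ + φ y₁ ≠ 0) :
    ∃ ℓ : O, (ℓ : K) = W.slope (x₁ : K) x₁ y₁ y₁ ∧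
      φ ℓ = Wb.slope (φ x₁) (φ x₁) (φ y₁) (φ y₁) := by
  have hne : φ (y₁ + y₁) ≠ 0 := by rw [map_add]; exact hy
  have hyK : (y₁ : K) + y₁ ≠ 0 := by
    intro h
    apply hne
    have : y₁ + y₁ = 0 := Subtype.ext (by push_cast; exact h)
    rw [this, map_zero]
  obtain ⟨g', hg', hφg'⟩ := exists_inv O φ hloc (y₁ + y₁) hne
  have h1 : (y₁ : K) ≠ W.negY x₁ y₁ := by
    rw [hW.negY_eq]
    intro h
    apply hyK
    linear_combination h
  have h2 : φ y₁ ≠ Wb.negY (φ x₁) (φ y₁) := by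
    rw [hWb.negY_eq]
    intro h
    apply hy
    linear_combination h
  refine ⟨(x₁ ^ 2 + x₁ ^ 2 + x₁ ^ 2 + a4) * g', ?_, ?_⟩
  · rw [Affine.slope_of_Y_ne rfl h1, hW.negY_eq, hW.a₁, hW.a₂, hW.a₄]
    push_cast
    rw [hg']
    push_cast
    rw [div_eq_mul_inv]
    ring
  · rw [Affine.slope_of_Y_ne rfl h2, hWb.negY_eq, hWb.a₁, hWb.a₂, hWb.a₄, map_mul, hφg']
    simp only [map_add, map_pow]
    rw [div_eq_mul_inv]
    ring

/-- Reduction commutes with a sum whose slope reduces to the slope of the reductions. -/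
theorem red_add_of_slope {W : Affine K} {Wb : Affine κ} {a4 a6 : O}
    (hW : IsShort W (a4 : K) (a6 : K)) (hWb : IsShort Wb (φ a4) (φ a6))
    {x₁ y₁ x₂ y₂ : O}
    (h₁ : W.Nonsingular (x₁ : K) y₁) (h₂ : W.Nonsingular (x₂ : K) y₂)
    (hb₁ : Wb.Nonsingular (φ x₁) (φ y₁)) (hb₂ : Wb.Nonsingular (φ x₂) (φ y₂))
    (hxy : ¬((x₁ : K) = x₂ ∧ (y₁ : K) = W.negY x₂ y₂))
    (hbxy : ¬(φ x₁ = φ x₂ ∧ φ y₁ = Wb.negY (φ x₂) (φ y₂)))
    (ℓ : O) (hℓ : (ℓ : K) = W.slope (x₁ : K) x₂ y₁ y₂)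
    (hbℓ : φ ℓ = Wb.slope (φ x₁) (φ x₂) (φ y₁) (φ y₂)) :
    ∃ (x₃ y₃ : O) (h₃ : W.Nonsingular (x₃ : K) y₃) (hb₃ : Wb.Nonsingular (φ x₃) (φ y₃)),
      Point.some _ _ h₁ + Point.some _ _ h₂ = Point.some _ _ h₃ ∧
      Point.some _ _ hb₁ + Point.some _ _ hb₂ = Point.some _ _ hb₃ := by
  have e3 : W.addX (x₁ : K) x₂ (W.slope (x₁ : K) x₂ y₁ y₂) = ((ℓ ^ 2 - x₁ - x₂ : O) : K) := by
    rw [hW.addX_eq, ← hℓ]; push_cast; ring
  have e4 : W.addY (x₁ : K) x₂ y₁ (W.slope (x₁ : K) x₂ y₁ y₂) =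
      ((-(ℓ * (ℓ ^ 2 - x₁ - x₂ - x₁) + y₁) : O) : K) := by
    rw [hW.addY_eq, ← hℓ]; push_cast; ring
  have eb3 : Wb.addX (φ x₁) (φ x₂) (Wb.slope (φ x₁) (φ x₂) (φ y₁) (φ y₂)) =
      φ (ℓ ^ 2 - x₁ - x₂) := by
    rw [hWb.addX_eq, ← hbℓ]; simp only [map_sub, map_pow]
  have eb4 : Wb.addY (φ x₁) (φ x₂) (φ y₁) (Wb.slope (φ x₁) (φ x₂) (φ y₁) (φ y₂)) =
      φ (-(ℓ * (ℓ ^ 2 - x₁ - x₂ - x₁) + y₁)) := by
    rw [hWb.addY_eq, ← hbℓ]; simp only [map_sub, map_pow, map_neg, map_add, map_mul]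
  have h₃ := Affine.nonsingular_add h₁ h₂ hxy
  have hb₃ := Affine.nonsingular_add hb₁ hb₂ hbxy
  rw [e3, e4] at h₃
  rw [eb3, eb4] at hb₃
  refine ⟨_, _, h₃, hb₃, ?_, ?_⟩
  · rw [Point.add_some hxy]
    simp only [Point.some.injEq]
    exact ⟨e3, e4⟩
  · rw [Point.add_some hbxy]
    simp only [Point.some.injEq]
    exact ⟨eb3, eb4⟩

end Abstract

/-! ## Rational functions regular at a point -/

section Reg

universe u

variable {k F : Type u} [Field k] [Field F] (f : k →+* F) (x0 : F)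

/-- The subring of rational functions whose denominator does not vanish at `x0`. -/
def regSub : Subring (RatFunc k) where
  carrier := {p | (RatFunc.denom p).eval₂ f x0 ≠ 0}
  mul_mem' := by
    intro a b ha hb h
    have := Polynomial.eval₂_eq_zero_of_dvd_of_eval₂_eq_zero f x0 (RatFunc.denom_mul_dvd a b) h
    rw [Polynomial.eval₂_mul] at this
    rcases mul_eq_zero.mp this with h | h
    exacts [ha h, hb h]
  one_mem' := by simp [RatFunc.denom_one]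
  add_mem' := by
    intro a b ha hb h
    have := Polynomial.eval₂_eq_zero_of_dvd_of_eval₂_eq_zero f x0 (RatFunc.denom_add_dvd a b) h
    rw [Polynomial.eval₂_mul] at this
    rcases mul_eq_zero.mp this with h | h
    exacts [ha h, hb h]
  zero_mem' := by simp [RatFunc.denom_zero]
  neg_mem' := by
    intro a ha h
    have e : -a = RatFunc.C (-1 : k) * a := by simp
    have hd : RatFunc.denom (-a) ∣ RatFunc.denom (RatFunc.C (-1 : k)) * RatFunc.denom a := by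
      rw [e]; exact RatFunc.denom_mul_dvd _ _
    have := Polynomial.eval₂_eq_zero_of_dvd_of_eval₂_eq_zero f x0 hd h
    rw [RatFunc.denom_C, one_mul] at this
    exact ha this

theorem mem_regSub_iff (p : RatFunc k) :
    p ∈ regSub f x0 ↔ (RatFunc.denom p).eval₂ f x0 ≠ 0 := Iff.rfl

/-- Evaluation at `x0` as a ring homomorphism on the regular subring. -/
noncomputable def evalHom : regSub f x0 →+* F where
  toFun p := RatFunc.eval f x0 (p : RatFunc k)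
  map_one' := RatFunc.eval_one f x0
  map_mul' p q := RatFunc.eval_mul f x0 p.2 q.2
  map_zero' := RatFunc.eval_zero f x0
  map_add' p q := RatFunc.eval_add f x0 p.2 q.2

theorem evalHom_apply (p : regSub f x0) : evalHom f x0 p = RatFunc.eval f x0 (p : RatFunc k) := rfl

theorem algebraMap_mem_regSub (p : Polynomial k) :
    algebraMap (Polynomial k) (RatFunc k) p ∈ regSub f x0 := by
  rw [mem_regSub_iff, RatFunc.denom_algebraMap]; simp

theorem C_mem_regSub (a : k) : RatFunc.C a ∈ regSub f x0 := by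
  rw [mem_regSub_iff, RatFunc.denom_C]; simp

theorem X_mem_regSub : (RatFunc.X : RatFunc k) ∈ regSub f x0 := by
  rw [mem_regSub_iff, RatFunc.denom_X]; simp

/-- The regular subring is local with maximal ideal the kernel of evaluation. -/
theorem regSub_local (g : regSub f x0) (hg : evalHom f x0 g ≠ 0) :
    ((g : RatFunc k))⁻¹ ∈ regSub f x0 := by
  have hg0 : (g : RatFunc k) ≠ 0 := by
    intro h
    apply hg
    rw [evalHom_apply, h, RatFunc.eval_zero]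
  rw [mem_regSub_iff]
  intro h
  have h1 := Polynomial.eval₂_eq_zero_of_dvd_of_eval₂_eq_zero f x0 (RatFunc.denom_inv_dvd hg0) h
  apply hg
  rw [evalHom_apply, RatFunc.eval, h1, zero_div]

/-- Regularity holds off a finite set. -/
theorem exists_finset_mem_regSub (p : RatFunc k) :
    ∃ T : Finset F, ∀ x0 : F, x0 ∉ T → p ∈ regSub f x0 := by
  classical
  refine ⟨((RatFunc.denom p).map f).roots.toFinset, fun x0 hx0 => ?_⟩
  rw [mem_regSub_iff, Polynomial.eval₂_eq_eval_map]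
  intro h
  apply hx0
  rw [Multiset.mem_toFinset, Polynomial.mem_roots]
  · exact h
  · exact (Polynomial.map_ne_zero_iff f.injective).mpr (RatFunc.denom_ne_zero p)

/-- A nonzero rational function is regular with nonzero value off a finite set. -/
theorem exists_finset_eval_ne_zero (p : RatFunc k) (hp : p ≠ 0) :
    ∃ T : Finset F, ∀ x0 : F, x0 ∉ T → p ∈ regSub f x0 ∧ RatFunc.eval f x0 p ≠ 0 := by
  classical
  obtain ⟨T₁, hT₁⟩ := exists_finset_mem_regSub f p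
  refine ⟨T₁ ∪ ((RatFunc.num p).map f).roots.toFinset, fun x0 hx0 => ?_⟩
  rw [Finset.mem_union, not_or] at hx0
  refine ⟨hT₁ x0 hx0.1, ?_⟩
  have hden := hT₁ x0 hx0.1
  rw [mem_regSub_iff] at hden
  rw [RatFunc.eval]
  refine div_ne_zero ?_ hden
  rw [Polynomial.eval₂_eq_eval_map]
  intro h
  apply hx0.2
  rw [Multiset.mem_toFinset, Polynomial.mem_roots]
  · exact h
  · exact (Polynomial.map_ne_zero_iff f.injective).mpr (RatFunc.num_ne_zero hp)

theorem eventually_of_finset {P : F → Prop} (T : Finset F) (h : ∀ x : F, x ∉ T → P x) :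
    ∀ᶠ x in Filter.cofinite, P x := by
  rw [Filter.eventually_cofinite]
  refine T.finite_toSet.subset (fun x hx => ?_)
  by_contra hxT
  exact hx (h x hxT)

theorem eventually_mem_regSub (p : RatFunc k) :
    ∀ᶠ x0 in Filter.cofinite, p ∈ regSub f x0 := by
  obtain ⟨T, hT⟩ := exists_finset_mem_regSub f p
  exact eventually_of_finset T hT

theorem eventually_eval_ne_zero (p : RatFunc k) (hp : p ≠ 0) :
    ∀ᶠ x0 in Filter.cofinite, p ∈ regSub f x0 ∧ RatFunc.eval f x0 p ≠ 0 := by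
  obtain ⟨T, hT⟩ := exists_finset_eval_ne_zero f p hp
  exact eventually_of_finset T hT

end Reg

/-! ## The twist and its specialisation -/

section Twist

universe u

open Fermat.Agent.S05.VarChange

variable {k F : Type u} [Field k] [Field F] (f : k →+* F)

/-- `λ = t³ + A t + B` as a rational function. -/
noncomputable def lam (A B : k) : RatFunc k :=
  RatFunc.X ^ 3 + RatFunc.C A * RatFunc.X + RatFunc.C B

/-- `t` as a regular function. -/
noncomputable def XR (x0 : F) : regSub f x0 := ⟨RatFunc.X, X_mem_regSub f x0⟩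

/-- constants as regular functions. -/
noncomputable def CR (x0 : F) (a : k) : regSub f x0 := ⟨RatFunc.C a, C_mem_regSub f x0 a⟩

/-- `λ` as a regular function. -/
noncomputable def lamR (x0 : F) (A B : k) : regSub f x0 :=
  XR f x0 ^ 3 + CR f x0 A * XR f x0 + CR f x0 B

theorem coe_lamR (x0 : F) (A B : k) : ((lamR f x0 A B : regSub f x0) : RatFunc k) = lam A B := rfl

theorem lam_mem_regSub (x0 : F) (A B : k) : lam A B ∈ regSub f x0 := (lamR f x0 A B).2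

@[simp] theorem evalHom_XR (x0 : F) : evalHom f x0 (XR f x0) = x0 := RatFunc.eval_X f x0

@[simp] theorem evalHom_CR (x0 : F) (a : k) : evalHom f x0 (CR f x0 a) = f a :=
  RatFunc.eval_C f x0

theorem evalHom_lamR (x0 : F) (A B : k) :
    evalHom f x0 (lamR f x0 A B) = x0 ^ 3 + f A * x0 + f B := by
  simp [lamR]

theorem eval_lam (x0 : F) (A B : k) : RatFunc.eval f x0 (lam A B) = x0 ^ 3 + f A * x0 + f B :=
  evalHom_lamR f x0 A B

open scoped Classical in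
/-- The specialisation map `Etw(k(t)) → E(F)` at the point `(x0, y0)`:
`(x, y) ↦ (x(x0) / y0², y(x0) / y0³)` (junk value `0` if this is not a point of `E`). -/
noncomputable def sp {Etw : Affine (RatFunc k)} (E : Affine F) (x0 y0 : F) :
    Etw.Point → E.Point
  | .zero => 0
  | .some x y _ =>
    if h : E.Nonsingular (y0⁻¹ ^ 2 * RatFunc.eval f x0 x) (y0⁻¹ ^ 3 * RatFunc.eval f x0 y) then
      .some _ _ h
    else 0

@[simp] theorem sp_zero {Etw : Affine (RatFunc k)} (E : Affine F) (x0 y0 : F) :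
    sp f (Etw := Etw) E x0 y0 0 = 0 := rfl

/-- The reduced twisted curve `y² = x³ + A λ₀² x + B λ₀³` with `λ₀ = y0²`. -/
def Wb (A B : k) (y0 : F) : Affine F := ⟨0, 0, 0, f A * (y0 ^ 2) ^ 2, f B * (y0 ^ 2) ^ 3⟩

variable {f} {A B : k} {Etw : Affine (RatFunc k)} {E : Affine F}

theorem rel_Wb (hE : IsShort E (f A) (f B)) {y0 : F} (hy0 : y0 ≠ 0) :
    Rel E (Wb f A B y0) y0⁻¹ 0 0 0 where
  hu := inv_ne_zero hy0
  h₁ := by simp [Wb, hE.a₁]
  h₂ := by simp [Wb, hE.a₂]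
  h₃ := by simp [Wb, hE.a₃]
  h₄ := by
    simp only [Wb, hE.a₁, hE.a₂, hE.a₃, hE.a₄]
    field_simp
    ring
  h₆ := by
    simp only [Wb, hE.a₁, hE.a₂, hE.a₃, hE.a₄, hE.a₆]
    field_simp
    ring

theorem isShort_Wb {x0 y0 : F} (hS : y0 ^ 2 = x0 ^ 3 + f A * x0 + f B) :
    IsShort (Wb f A B y0) (evalHom f x0 (CR f x0 A * lamR f x0 A B ^ 2))
      (evalHom f x0 (CR f x0 B * lamR f x0 A B ^ 3)) where
  a₁ := rfl
  a₂ := rfl
  a₃ := rfl
  a₄ := by simp only [map_mul, map_pow, evalHom_CR, evalHom_lamR, ← hS]; rfl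
  a₆ := by simp only [map_mul, map_pow, evalHom_CR, evalHom_lamR, ← hS]; rfl

theorem isShort_Etw' (hT : IsShort Etw (RatFunc.C A * lam A B ^ 2) (RatFunc.C B * lam A B ^ 3))
    (x0 : F) :
    IsShort Etw ((CR f x0 A * lamR f x0 A B ^ 2 : regSub f x0) : RatFunc k)
      ((CR f x0 B * lamR f x0 A B ^ 3 : regSub f x0) : RatFunc k) := hT

/-- The reduction of a regular point of the twist is a (nonsingular) point of the reduced twist. -/
theorem reduced_nonsingular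
    (hT : IsShort Etw (RatFunc.C A * lam A B ^ 2) (RatFunc.C B * lam A B ^ 3))
    (hE : IsShort E (f A) (f B)) (hΔ : E.Δ ≠ 0)
    {x0 y0 : F} (hS : y0 ^ 2 = x0 ^ 3 + f A * x0 + f B) (hy0 : y0 ≠ 0)
    {x y : regSub f x0} (h : Etw.Equation (x : RatFunc k) y) :
    (Wb f A B y0).Nonsingular (evalHom f x0 x) (evalHom f x0 y) := by
  have H := rel_Wb hE hy0
  rw [H.nonsingular_iff, ← Affine.equation_iff_nonsingular_of_Δ_ne_zero hΔ, ← H.equation_iff,
    (isShort_Wb hS).equation_iff]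
  rw [hT.equation_iff] at h
  have h' : y ^ 2 = x ^ 3 + (CR f x0 A * lamR f x0 A B ^ 2) * x +
      CR f x0 B * lamR f x0 A B ^ 3 := Subtype.ext h
  have := congrArg (evalHom f x0) h'
  simpa only [map_add, map_mul, map_pow] using this

theorem sp_some_eq_pointMap [DecidableEq F] {x0 y0 : F}
    (H : Rel E (Wb f A B y0) y0⁻¹ 0 0 0)
    {x y : RatFunc k} (h : Etw.Nonsingular x y)
    (hb : (Wb f A B y0).Nonsingular (RatFunc.eval f x0 x) (RatFunc.eval f x0 y)) :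
    sp f E x0 y0 (.some x y h) = H.pointMap (.some _ _ hb) := by
  have hn : E.Nonsingular (y0⁻¹ ^ 2 * RatFunc.eval f x0 x) (y0⁻¹ ^ 3 * RatFunc.eval f x0 y) := by
    have := (H.nonsingular_iff _ _).mp hb
    simpa using this
  rw [Rel.pointMap_some]
  simp only [sp, dif_pos hn, Point.some.injEq]
  constructor <;> ring

/-- Additivity of the specialisation on two affine points in general position at `x0`. -/
theorem sp_add_some [DecidableEq F] [DecidableEq (RatFunc k)]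
    (hT : IsShort Etw (RatFunc.C A * lam A B ^ 2) (RatFunc.C B * lam A B ^ 3))
    (hE : IsShort E (f A) (f B)) (hΔ : E.Δ ≠ 0)
    {x0 y0 : F} (hS : y0 ^ 2 = x0 ^ 3 + f A * x0 + f B) (hy0 : y0 ≠ 0)
    {x₁ y₁ x₂ y₂ : RatFunc k} (h₁ : Etw.Nonsingular x₁ y₁) (h₂ : Etw.Nonsingular x₂ y₂)
    (hx₁ : x₁ ∈ regSub f x0) (hy₁ : y₁ ∈ regSub f x0)
    (hx₂ : x₂ ∈ regSub f x0) (hy₂ : y₂ ∈ regSub f x0)
    (hgen : RatFunc.eval f x0 x₁ ≠ RatFunc.eval f x0 x₂ ∨
      (x₁ = x₂ ∧ y₁ = y₂ ∧ RatFunc.eval f x0 y₁ + RatFunc.eval f x0 y₁ ≠ 0) ∨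
      (x₁ = x₂ ∧ y₁ = -y₂)) :
    sp f E x0 y0 (Point.some x₁ y₁ h₁ + Point.some x₂ y₂ h₂) =
      sp f E x0 y0 (Point.some x₁ y₁ h₁) + sp f E x0 y0 (Point.some x₂ y₂ h₂) := by
  have H := rel_Wb hE hy0
  have hW := isShort_Etw' (f := f) hT x0
  have hWb := isShort_Wb (f := f) (A := A) (B := B) hS
  have hb₁ : (Wb f A B y0).Nonsingular (RatFunc.eval f x0 x₁) (RatFunc.eval f x0 y₁) :=
    reduced_nonsingular hT hE hΔ hS hy0 (x := ⟨x₁, hx₁⟩) (y := ⟨y₁, hy₁⟩) h₁.1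
  have hb₂ : (Wb f A B y0).Nonsingular (RatFunc.eval f x0 x₂) (RatFunc.eval f x0 y₂) :=
    reduced_nonsingular hT hE hΔ hS hy0 (x := ⟨x₂, hx₂⟩) (y := ⟨y₂, hy₂⟩) h₂.1
  rw [sp_some_eq_pointMap H h₁ hb₁, sp_some_eq_pointMap H h₂ hb₂, ← H.pointMap_add]
  have key : ∀ (hxy : ¬(x₁ = x₂ ∧ y₁ = Etw.negY x₂ y₂))
      (hbxy : ¬(RatFunc.eval f x0 x₁ = RatFunc.eval f x0 x₂ ∧
        RatFunc.eval f x0 y₁ = (Wb f A B y0).negY (RatFunc.eval f x0 x₂) (RatFunc.eval f x0 y₂)))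
      (ℓ : regSub f x0) (_ : (ℓ : RatFunc k) = Etw.slope x₁ x₂ y₁ y₂)
      (_ : evalHom f x0 ℓ = (Wb f A B y0).slope (RatFunc.eval f x0 x₁) (RatFunc.eval f x0 x₂)
        (RatFunc.eval f x0 y₁) (RatFunc.eval f x0 y₂)),
      sp f E x0 y0 (Point.some x₁ y₁ h₁ + Point.some x₂ y₂ h₂) =
        H.pointMap (Point.some _ _ hb₁ + Point.some _ _ hb₂) := by
    intro hxy hbxy ℓ hℓ hbℓ
    obtain ⟨x₃, y₃, h₃, hb₃, e, eb⟩ := red_add_of_slope (O := regSub f x0) (φ := evalHom f x0)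
      hW hWb (x₁ := ⟨x₁, hx₁⟩) (y₁ := ⟨y₁, hy₁⟩) (x₂ := ⟨x₂, hx₂⟩) (y₂ := ⟨y₂, hy₂⟩)
      h₁ h₂ hb₁ hb₂ hxy hbxy ℓ hℓ hbℓ
    rw [e]
    exact (sp_some_eq_pointMap H h₃ hb₃).trans (congrArg H.pointMap eb.symm)
  rcases hgen with hx | ⟨hx, hy, hyy⟩ | ⟨hx, hy⟩
  · obtain ⟨ℓ, hℓ, hbℓ⟩ := exists_slope_of_X_ne (O := regSub f x0) (φ := evalHom f x0)
      (regSub_local f x0) Etw (Wb f A B y0) (x₁ := ⟨x₁, hx₁⟩) (y₁ := ⟨y₁, hy₁⟩)
      (x₂ := ⟨x₂, hx₂⟩) (y₂ := ⟨y₂, hy₂⟩) hx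
    have hxK : x₁ ≠ x₂ := fun h => hx (by rw [h])
    exact key (fun h => hxK h.1) (fun h => hx h.1) ℓ hℓ hbℓ
  · subst hx hy
    obtain ⟨ℓ, hℓ, hbℓ⟩ := exists_slope_double (O := regSub f x0) (φ := evalHom f x0)
      (regSub_local f x0) hW hWb (x₁ := ⟨x₁, hx₁⟩) (y₁ := ⟨y₁, hy₁⟩) hyy
    refine key ?_ ?_ ℓ hℓ hbℓ
    · rintro ⟨-, h⟩
      rw [hT.negY_eq] at h
      apply hyy
      have h0 : y₁ + y₁ = 0 := by linear_combination h
      have h0' : (⟨y₁, hy₁⟩ : regSub f x0) + ⟨y₁, hy₁⟩ = 0 := Subtype.ext h0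
      have := congrArg (evalHom f x0) h0'
      rw [map_add, map_zero] at this
      exact this
    · rintro ⟨-, h⟩
      rw [hWb.negY_eq] at h
      apply hyy
      linear_combination h
  · subst hx
    have e1 : Point.some x₁ y₁ h₁ + Point.some x₁ y₂ h₂ = 0 :=
      Point.add_of_Y_eq rfl (by rw [hT.negY_eq]; exact hy)
    have hy' : RatFunc.eval f x0 y₁ = -RatFunc.eval f x0 y₂ := by
      have h0' : (⟨y₁, hy₁⟩ : regSub f x0) = -⟨y₂, hy₂⟩ := Subtype.ext hy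
      have := congrArg (evalHom f x0) h0'
      rw [map_neg] at this
      exact this
    have e2 : Point.some _ _ hb₁ + Point.some _ _ hb₂ = 0 :=
      Point.add_of_Y_eq rfl (by rw [hWb.negY_eq]; exact hy')
    rw [e1, e2]
    rfl

theorem lam_eq_algebraMap (A B : k) :
    lam A B = algebraMap (Polynomial k) (RatFunc k)
      (Polynomial.X ^ 3 + Polynomial.C A * Polynomial.X + Polynomial.C B) := by
  simp [lam]

variable (f) in
/-- The cubic does not vanish off a finite set. -/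
theorem eventually_cubic_ne_zero (A B : k) :
    ∀ᶠ x0 in Filter.cofinite, x0 ^ 3 + f A * x0 + f B ≠ 0 := by
  have hne : lam A B ≠ 0 := by
    rw [lam_eq_algebraMap]
    intro h
    have h' := (map_eq_zero_iff _ (IsFractionRing.injective (Polynomial k) (RatFunc k))).mp h
    have hm : (Polynomial.X ^ 3 + (Polynomial.C A * Polynomial.X + Polynomial.C B) :
        Polynomial k).Monic :=
      Polynomial.monic_X_pow_add (lt_of_le_of_lt (Polynomial.degree_linear_le) (by norm_num))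
    apply hm.ne_zero
    rw [← h']
    ring
  filter_upwards [eventually_eval_ne_zero f (lam A B) hne] with x0 h
  rw [← eval_lam f x0 A B]
  exact h.2

section Generic

variable [DecidableEq F] [DecidableEq (RatFunc k)]
  (hT : IsShort Etw (RatFunc.C A * lam A B ^ 2) (RatFunc.C B * lam A B ^ 3))
  (hE : IsShort E (f A) (f B)) (hΔ : E.Δ ≠ 0)

include hT hE hΔ

/-- **Generic additivity of the specialisation.** -/
theorem eventually_sp_add (R₁ R₂ : Etw.Point) :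
    ∀ᶠ x0 in Filter.cofinite, ∀ y0 : F, y0 ^ 2 = x0 ^ 3 + f A * x0 + f B →
      sp f E x0 y0 (R₁ + R₂) = sp f E x0 y0 R₁ + sp f E x0 y0 R₂ := by
  rcases R₁ with _ | ⟨x₁, y₁, h₁⟩
  · refine Filter.Eventually.of_forall (fun x0 y0 _ => ?_)
    change sp f E x0 y0 (0 + R₂) = sp f E x0 y0 0 + sp f E x0 y0 R₂
    rw [zero_add, sp_zero, zero_add]
  rcases R₂ with _ | ⟨x₂, y₂, h₂⟩
  · refine Filter.Eventually.of_forall (fun x0 y0 _ => ?_)
    change sp f E x0 y0 (Point.some x₁ y₁ h₁ + 0) =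
      sp f E x0 y0 (Point.some x₁ y₁ h₁) + sp f E x0 y0 0
    rw [add_zero, sp_zero, add_zero]
  have c := eventually_cubic_ne_zero f A B
  have r1 := eventually_mem_regSub f x₁
  have r2 := eventually_mem_regSub f y₁
  have r3 := eventually_mem_regSub f x₂
  have r4 := eventually_mem_regSub f y₂
  have hy0 : ∀ {x0 y0 : F}, x0 ^ 3 + f A * x0 + f B ≠ 0 →
      y0 ^ 2 = x0 ^ 3 + f A * x0 + f B → y0 ≠ 0 := by
    intro x0 y0 hc hS h
    apply hc
    rw [← hS, h]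
    ring
  by_cases hx : x₁ = x₂
  · by_cases hy : y₁ = -y₂
    · filter_upwards [c, r1, r2, r3, r4] with x0 hc hx1 hy1 hx2 hy2 y0 hS
      exact sp_add_some hT hE hΔ hS (hy0 hc hS) h₁ h₂ hx1 hy1 hx2 hy2 (Or.inr (Or.inr ⟨hx, hy⟩))
    · have hyy : y₁ = y₂ := Affine.Y_eq_of_Y_ne h₁.1 h₂.1 hx (by rw [hT.negY_eq]; exact hy)
      have h2y : y₁ + y₁ ≠ 0 := by
        intro h
        apply hy
        rw [← hyy]
        linear_combination h
      filter_upwards [c, r1, r2, r3, r4, eventually_eval_ne_zero f (y₁ + y₁) h2y] with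
        x0 hc hx1 hy1 hx2 hy2 hne y0 hS
      refine sp_add_some hT hE hΔ hS (hy0 hc hS) h₁ h₂ hx1 hy1 hx2 hy2
        (Or.inr (Or.inl ⟨hx, hyy, ?_⟩))
      rw [← RatFunc.eval_add f x0 hy1 hy1]
      exact hne.2
  · filter_upwards [c, r1, r2, r3, r4,
      eventually_eval_ne_zero f (x₁ - x₂) (sub_ne_zero.mpr hx)] with
      x0 hc hx1 hy1 hx2 hy2 hne y0 hS
    refine sp_add_some hT hE hΔ hS (hy0 hc hS) h₁ h₂ hx1 hy1 hx2 hy2 (Or.inl ?_)
    intro h
    apply hne.2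
    have e : evalHom f x0 (⟨x₁, hx1⟩ - ⟨x₂, hx2⟩) = 0 := by
      rw [map_sub]
      exact sub_eq_zero.mpr h
    exact e

theorem eventually_sp_neg (R : Etw.Point) :
    ∀ᶠ x0 in Filter.cofinite, ∀ y0 : F, y0 ^ 2 = x0 ^ 3 + f A * x0 + f B →
      sp f E x0 y0 (-R) = -sp f E x0 y0 R := by
  filter_upwards [eventually_sp_add hT hE hΔ R (-R)] with x0 h y0 hS
  have h' := h y0 hS
  rw [add_neg_cancel, sp_zero] at h'
  exact eq_neg_of_add_eq_zero_right h'.symm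

theorem eventually_sp_nsmul (R : Etw.Point) (n : ℕ) :
    ∀ᶠ x0 in Filter.cofinite, ∀ y0 : F, y0 ^ 2 = x0 ^ 3 + f A * x0 + f B →
      sp f E x0 y0 (n • R) = n • sp f E x0 y0 R := by
  induction n with
  | zero =>
    refine Filter.Eventually.of_forall (fun x0 y0 _ => ?_)
    rw [zero_nsmul, zero_nsmul, sp_zero]
  | succ n ih =>
    filter_upwards [ih, eventually_sp_add hT hE hΔ (n • R) R] with x0 h1 h2 y0 hS
    rw [succ_nsmul, h2 y0 hS, h1 y0 hS, succ_nsmul]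

theorem eventually_sp_zsmul (R : Etw.Point) (n : ℤ) :
    ∀ᶠ x0 in Filter.cofinite, ∀ y0 : F, y0 ^ 2 = x0 ^ 3 + f A * x0 + f B →
      sp f E x0 y0 (n • R) = n • sp f E x0 y0 R := by
  obtain ⟨m, rfl | rfl⟩ := n.eq_nat_or_neg
  · filter_upwards [eventually_sp_nsmul hT hE hΔ R m] with x0 h y0 hS
    rw [natCast_zsmul, natCast_zsmul, h y0 hS]
  · filter_upwards [eventually_sp_nsmul hT hE hΔ R m, eventually_sp_neg hT hE hΔ (m • R)] with
      x0 h1 h2 y0 hS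
    rw [neg_zsmul, neg_zsmul, natCast_zsmul, natCast_zsmul, h2 y0 hS, h1 y0 hS]

/-- Generic additivity along a three-term `ℤ`-linear combination. -/
theorem eventually_sp_lin3 (P₂ P₁ Q : Etw.Point) (c₂ c₁ c₀ : ℤ) :
    ∀ᶠ x0 in Filter.cofinite, ∀ y0 : F, y0 ^ 2 = x0 ^ 3 + f A * x0 + f B →
      sp f E x0 y0 (c₂ • P₂ + c₁ • P₁ + c₀ • Q) =
        c₂ • sp f E x0 y0 P₂ + c₁ • sp f E x0 y0 P₁ + c₀ • sp f E x0 y0 Q := by
  filter_upwards [eventually_sp_add hT hE hΔ (c₂ • P₂ + c₁ • P₁) (c₀ • Q),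
    eventually_sp_add hT hE hΔ (c₂ • P₂) (c₁ • P₁), eventually_sp_zsmul hT hE hΔ P₂ c₂,
    eventually_sp_zsmul hT hE hΔ P₁ c₁, eventually_sp_zsmul hT hE hΔ Q c₀] with
    x0 h1 h2 h3 h4 h5 y0 hS
  rw [h1 y0 hS, h2 y0 hS, h3 y0 hS, h4 y0 hS, h5 y0 hS]

end Generic

/-- The specialisation of a point with coordinates `(λ · X(t), λ² · Y(t))`, `X, Y` polynomials,
is `(X(x0), y0 · Y(x0))`. -/
theorem sp_some_of_poly {x0 y0 : F} (hS : y0 ^ 2 = x0 ^ 3 + f A * x0 + f B) (hy0 : y0 ≠ 0)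
    (Xp Yp : Polynomial k) {x y : RatFunc k} (h : Etw.Nonsingular x y)
    (hx : x = lam A B * algebraMap (Polynomial k) (RatFunc k) Xp)
    (hy : y = lam A B ^ 2 * algebraMap (Polynomial k) (RatFunc k) Yp)
    {X0 Y0 : F} (hX : Xp.eval₂ f x0 = X0) (hY : y0 * Yp.eval₂ f x0 = Y0)
    (h' : E.Nonsingular X0 Y0) :
    sp f E x0 y0 (Point.some x y h) = Point.some X0 Y0 h' := by
  have e1 : y0⁻¹ ^ 2 * RatFunc.eval f x0 x = X0 := by
    have : RatFunc.eval f x0 x = evalHom f x0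
        (lamR f x0 A B * ⟨_, algebraMap_mem_regSub f x0 Xp⟩) := by rw [hx]; rfl
    rw [this, map_mul, evalHom_lamR, ← hS, evalHom_apply, RatFunc.eval_algebraMap,
      Algebra.algebraMap_self, RingHom.id_apply, hX]
    field_simp
  have e2 : y0⁻¹ ^ 3 * RatFunc.eval f x0 y = Y0 := by
    have : RatFunc.eval f x0 y = evalHom f x0
        (lamR f x0 A B ^ 2 * ⟨_, algebraMap_mem_regSub f x0 Yp⟩) := by rw [hy]; rfl
    rw [this, map_mul, map_pow, evalHom_lamR, ← hS, evalHom_apply, RatFunc.eval_algebraMap,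
      Algebra.algebraMap_self, RingHom.id_apply, ← hY]
    field_simp
  have hn : E.Nonsingular (y0⁻¹ ^ 2 * RatFunc.eval f x0 x) (y0⁻¹ ^ 3 * RatFunc.eval f x0 y) := by
    rw [e1, e2]; exact h'
  simp only [sp, dif_pos hn, Point.some.injEq]
  exact ⟨e1, e2⟩

end Twist

/-! ## Generic vanishing implies vanishing -/

/-- An additive map on an infinite group which vanishes off a finite set vanishes. -/
theorem eq_zero_of_finite_support {G H : Type*} [AddGroup G] [Infinite G] [AddGroup H]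
    (Ψ : G →+ H) (hfin : {P : G | Ψ P ≠ 0}.Finite) (S : G) : Ψ S = 0 := by
  have h2 : {P : G | Ψ (S + P) ≠ 0}.Finite :=
    hfin.preimage (f := fun P => S + P) (add_right_injective S).injOn
  obtain ⟨P, hP⟩ := ((hfin.union h2).infinite_compl).nonempty
  simp only [Set.mem_compl_iff, Set.mem_union, Set.mem_ofPred_eq, not_or, not_not] at hP
  have := hP.2
  rw [map_add, hP.1, add_zero] at this
  exact this

section Points

variable {F : Type*} [Field F] {E : Affine F} {a b : F}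

/-- the coordinates of a point -/
def coords : E.Point → Option (F × F)
  | .zero => none
  | .some x y _ => some (x, y)

theorem coords_injective : Function.Injective (coords (E := E)) := by
  rintro (_ | ⟨x, y, h⟩) (_ | ⟨x', y', h'⟩) e
  · rfl
  · simp [coords] at e
  · simp [coords] at e
  · simp only [coords, Option.some.injEq, Prod.mk.injEq] at e
    obtain ⟨rfl, rfl⟩ := e
    rfl

/-- A set of points whose `x`-coordinates lie in a finite set is finite. -/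
theorem finite_of_X_mem (hE : IsShort E a b) {T : Set F} (hT : T.Finite) (s : Set E.Point)
    (hs : ∀ (x y : F) (h : E.Nonsingular x y), Point.some x y h ∈ s → x ∈ T) : s.Finite := by
  classical
  have hZ : (⋃ x ∈ T, (fun y => (x, y)) '' {y : F | y ^ 2 = x ^ 3 + a * x + b}).Finite := by
    refine hT.biUnion (fun x _ => Set.Finite.image _ ?_)
    refine (Polynomial.nthRoots 2 (x ^ 3 + a * x + b)).toFinset.finite_toSet.subset (fun y hy => ?_)
    simpa [Polynomial.mem_nthRoots] using hy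
  refine (((hZ.image some).insert none).preimage coords_injective.injOn).subset ?_
  rintro (_ | ⟨x, y, h⟩) hP
  · exact Set.mem_insert _ _
  · have hx := hs x y h hP
    have he := (hE.equation_iff x y).mp h.1
    refine Set.mem_insert_of_mem _ ⟨(x, y), ?_, rfl⟩
    exact Set.mem_biUnion hx ⟨y, he, rfl⟩

/-- An elliptic curve over an algebraically closed field has infinitely many points. -/
theorem infinite_point [IsAlgClosed F] (hE : IsShort E a b) (hΔ : E.Δ ≠ 0) : Infinite E.Point := by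
  have hy : ∀ x : F, ∃ y : F, y ^ 2 = x ^ 3 + a * x + b := fun x =>
    IsAlgClosed.exists_pow_nat_eq _ (by norm_num)
  choose y hy using hy
  have hn : ∀ x, E.Nonsingular x (y x) := fun x =>
    (Affine.equation_iff_nonsingular_of_Δ_ne_zero hΔ).mp ((hE.equation_iff _ _).mpr (hy x))
  refine Infinite.of_injective (fun x => Point.some x (y x) (hn x)) ?_
  intro x x' h
  simp only [Point.some.injEq] at h
  exact h.1

end Points

/-! ## The Frobenius relation on `E(F)` from a relation on the twist -/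

section Frobenius

universe u

variable {k F : Type u} [Field k] [Field F] [Algebra k F]
variable {W : Affine k} {A B : k} {Etw : Affine (RatFunc k)}

theorem isShort_baseChange (hW : IsShort W A B) :
    IsShort (W⁄F) (algebraMap k F A) (algebraMap k F B) where
  a₁ := by simp [WeierstrassCurve.baseChange, hW.a₁]
  a₂ := by simp [WeierstrassCurve.baseChange, hW.a₂]
  a₃ := by simp [WeierstrassCurve.baseChange, hW.a₃]
  a₄ := by simp [WeierstrassCurve.baseChange, hW.a₄]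
  a₆ := by simp [WeierstrassCurve.baseChange, hW.a₆]

theorem baseChange_Δ_ne_zero (hΔ : W.Δ ≠ 0) : (W⁄F).Δ ≠ 0 := by
  have : (W⁄F).Δ = algebraMap k F W.Δ := WeierstrassCurve.map_Δ W (algebraMap k F)
  rw [this]
  exact (map_ne_zero _).mpr hΔ

/-- The specialisation of the generic point `Q = (λ t, λ²)` at `S = (x0, y0)` is `S`. -/
theorem sp_Q (hW : IsShort W A B) {x y : RatFunc k} (h : Etw.Nonsingular x y)
    (hx : x = lam A B * RatFunc.X) (hy : y = lam A B ^ 2)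
    {x0 y0 : F} (hS : (W⁄F).Nonsingular x0 y0) (hy0 : y0 ≠ 0) :
    sp (algebraMap k F) (W⁄F) x0 y0 (Point.some x y h) = Point.some x0 y0 hS := by
  have hE := isShort_baseChange (F := F) hW
  have hS' := (hE.equation_iff x0 y0).mp hS.1
  refine sp_some_of_poly hS' hy0 Polynomial.X 1 h ?_ ?_ ?_ ?_ hS
  · rw [hx, RatFunc.algebraMap_X]
  · rw [hy, map_one, mul_one]
  · simp
  · simp

/-- The specialisation of the Frobenius point `(λ t^N, λ² λ^((N-1)/2))` at `S` is `ψ S`, for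
`ψ : x ↦ x ^ N`, `N` odd. -/
theorem sp_frob [DecidableEq F] (hW : IsShort W A B) {N : ℕ} (hN : Odd N) (ψ : F →ₐ[k] F)
    (hψ : ∀ z : F, ψ z = z ^ N) {x y : RatFunc k} (h : Etw.Nonsingular x y)
    (hx : x = lam A B * RatFunc.X ^ N) (hy : y = lam A B ^ 2 * lam A B ^ ((N - 1) / 2))
    {x0 y0 : F} (hS : (W⁄F).Nonsingular x0 y0) (hy0 : y0 ≠ 0) :
    sp (algebraMap k F) (W⁄F) x0 y0 (Point.some x y h) = Point.map ψ (Point.some x0 y0 hS) := by
  have hE := isShort_baseChange (F := F) hW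
  have hS' := (hE.equation_iff x0 y0).mp hS.1
  rw [Point.map_some]
  refine sp_some_of_poly hS' hy0 (Polynomial.X ^ N)
    ((Polynomial.X ^ 3 + Polynomial.C A * Polynomial.X + Polynomial.C B) ^ ((N - 1) / 2)) h
    ?_ ?_ ?_ ?_ _
  · rw [hx, map_pow, RatFunc.algebraMap_X]
  · rw [hy, map_pow, ← lam_eq_algebraMap]
  · simp [hψ]
  · obtain ⟨m, rfl⟩ := hN
    have e : (2 * m + 1 - 1) / 2 = m := by omega
    rw [e, hψ]
    simp only [Polynomial.eval₂_pow, Polynomial.eval₂_add, Polynomial.eval₂_mul,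
      Polynomial.eval₂_X, Polynomial.eval₂_C]
    rw [← hS']
    ring

variable [IsAlgClosed F] [DecidableEq F] [DecidableEq (RatFunc k)]

/-- **Specialisation of a relation on Manin's twist.**  A relation
`c₂ P₂ + c₁ P₁ + c₀ Q = 0` in `Etw(k(t))` between the generic point `Q` and the Frobenius
points `P₁`, `P₂` gives `c₂ φ² + c₁ φ + c₀ = 0` on `E(F)`, `F` algebraically closed. -/
theorem frob_relation_of_twist (hW : IsShort W A B) (hΔ : W.Δ ≠ 0)
    (hT : IsShort Etw (RatFunc.C A * lam A B ^ 2) (RatFunc.C B * lam A B ^ 3))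
    {q : ℕ} (hq : Odd q) (φ : F →ₐ[k] F) (hφ : ∀ z : F, φ z = z ^ q)
    {xQ yQ x₁ y₁ x₂ y₂ : RatFunc k} (hQ : Etw.Nonsingular xQ yQ)
    (h₁ : Etw.Nonsingular x₁ y₁) (h₂ : Etw.Nonsingular x₂ y₂)
    (exQ : xQ = lam A B * RatFunc.X) (eyQ : yQ = lam A B ^ 2)
    (ex₁ : x₁ = lam A B * RatFunc.X ^ q) (ey₁ : y₁ = lam A B ^ 2 * lam A B ^ ((q - 1) / 2))
    (ex₂ : x₂ = lam A B * RatFunc.X ^ (q ^ 2))
    (ey₂ : y₂ = lam A B ^ 2 * lam A B ^ ((q ^ 2 - 1) / 2))
    (c₂ c₁ c₀ : ℤ)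
    (hrel : c₂ • Point.some x₂ y₂ h₂ + c₁ • Point.some x₁ y₁ h₁ + c₀ • Point.some xQ yQ hQ = 0)
    (S : (W⁄F).Point) :
    c₂ • Point.map φ (Point.map φ S) + c₁ • Point.map φ S + c₀ • S = 0 := by
  have hE := isShort_baseChange (F := F) hW
  have hΔE : (W⁄F).Δ ≠ 0 := baseChange_Δ_ne_zero hΔ
  have := infinite_point hE hΔE
  let Ψ : (W⁄F).Point →+ (W⁄F).Point := AddMonoidHom.mk'
    (fun P => c₂ • Point.map φ (Point.map φ P) + c₁ • Point.map φ P + c₀ • P)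
    (by intro P P'; simp only [map_add, smul_add]; abel)
  have hΨ : ∀ P, Ψ P = c₂ • Point.map φ (Point.map φ P) + c₁ • Point.map φ P + c₀ • P :=
    fun P => rfl
  rw [← hΨ]
  refine eq_zero_of_finite_support Ψ ?_ S
  have ev := (eventually_sp_lin3 hT hE hΔE (Point.some x₂ y₂ h₂) (Point.some x₁ y₁ h₁)
    (Point.some xQ yQ hQ) c₂ c₁ c₀).and (eventually_cubic_ne_zero (algebraMap k F) A B)
  rw [Filter.eventually_cofinite] at ev
  refine finite_of_X_mem hE ev _ ?_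
  intro x0 y0 h hP
  by_contra hx0
  simp only [Set.mem_ofPred_eq, not_not] at hx0
  obtain ⟨hlin, hc⟩ := hx0
  apply hP
  have hS' := (hE.equation_iff x0 y0).mp h.1
  have hy0 : y0 ≠ 0 := by
    intro h0
    apply hc
    rw [← hS', h0]
    ring
  have key := hlin y0 hS'
  have hφ2 : ∀ z : F, (φ.comp φ) z = z ^ (q ^ 2) := by
    intro z
    rw [AlgHom.comp_apply, hφ, hφ, ← pow_mul, pow_two]
  rw [hrel, sp_zero, sp_Q hW hQ exQ eyQ h hy0, sp_frob hW hq φ hφ h₁ ex₁ ey₁ h hy0,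
    sp_frob hW hq.pow (φ.comp φ) hφ2 h₂ ex₂ ey₂ h hy0, ← Point.map_map] at key
  rw [hΨ]
  exact key.symm

end Frobenius

/-! ## The frozen interface of `Tr/Defs.lean` -/

section Frozen

theorem lam_eq_frozen {k : Type*} [Field k] (A B : k) : Tr.lam A B = lam A B := Tr.lam_eq A B

theorem isShort_shortCurve {F : Type*} [Field F] (A B : F) : IsShort (Tr.shortCurve A B) A B :=
  ⟨rfl, rfl, rfl, rfl, rfl⟩

theorem isShort_Etw {k : Type*} [Field k] (A B : k) :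
    IsShort (Tr.Etw A B) (RatFunc.C A * lam A B ^ 2) (RatFunc.C B * lam A B ^ 3) := by
  rw [← lam_eq_frozen]
  exact isShort_shortCurve _ _

theorem shortCurve_Δ_ne_zero {F : Type*} [Field F] (A B : F) (hΔ : 4 * A ^ 3 + 27 * B ^ 2 ≠ 0)
    (h2 : (2 : F) ≠ 0) : (Tr.shortCurve A B).Δ ≠ 0 := by
  rw [(isShort_shortCurve A B).Δ_eq]
  have h16 : (16 : F) ≠ 0 := by
    have : (16 : F) = 2 ^ 4 := by norm_num
    rw [this]; exact pow_ne_zero _ h2
  exact mul_ne_zero (neg_ne_zero.mpr h16) hΔ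

variable (ℓ : ℕ) [Fact ℓ.Prime] (A B : ZMod ℓ)
variable {F : Type} [Field F] [Algebra (ZMod ℓ) F] [IsAlgClosed F] [DecidableEq F]
  [DecidableEq (RatFunc (ZMod ℓ))]

/-- **(Tr)(g), general coefficients.**  A relation `c₂ P₂ + c₁ P₁ + c₀ Q = 0` between the
Frobenius points and the generic point of Manin's twist over `𝔽_ℓ(t)` gives
`c₂ φ² + c₁ φ + c₀ = 0` on `E(F)` for every algebraically closed `F ⊇ 𝔽_ℓ`, `φ` the
`ℓ`-power Frobenius. -/
theorem frob_relation_of_frobPt (hΔ : 4 * A ^ 3 + 27 * B ^ 2 ≠ 0) (h2 : (2 : ZMod ℓ) ≠ 0)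
    (hℓ : ℓ ≠ 2) (φ : F →ₐ[ZMod ℓ] F) (hφ : ∀ z : F, φ z = z ^ ℓ) (c₂ c₁ c₀ : ℤ)
    (hrel : c₂ • Tr.frobPt ℓ A B hΔ h2 hℓ 2 + c₁ • Tr.frobPt ℓ A B hΔ h2 hℓ 1 +
      c₀ • Tr.Qpt A B hΔ h2 = 0)
    (S : ((Tr.shortCurve A B)⁄F).Point) :
    c₂ • Point.map φ (Point.map φ S) + c₁ • Point.map φ S + c₀ • S = 0 := by
  have hodd : Odd ℓ := (Fact.out : ℓ.Prime).odd_of_ne_two hℓ
  refine frob_relation_of_twist (isShort_shortCurve A B) (shortCurve_Δ_ne_zero A B hΔ h2)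
    (isShort_Etw A B) hodd φ hφ
    (xQ := Tr.xOf A B RatFunc.X) (yQ := Tr.yOf A B 1)
    (x₁ := Tr.xOf A B (RatFunc.X ^ (ℓ ^ 1))) (y₁ := Tr.yOf A B (Tr.lam A B ^ ((ℓ ^ 1 - 1) / 2)))
    (x₂ := Tr.xOf A B (RatFunc.X ^ (ℓ ^ 2))) (y₂ := Tr.yOf A B (Tr.lam A B ^ ((ℓ ^ 2 - 1) / 2)))
    (Tr.etw_nonsingular A B hΔ h2 (Tr.twEq_X_one A B))
    (Tr.etw_nonsingular A B hΔ h2 (Tr.twEq_frob ℓ A B hℓ 1))
    (Tr.etw_nonsingular A B hΔ h2 (Tr.twEq_frob ℓ A B hℓ 2))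
    ?_ ?_ ?_ ?_ ?_ ?_ c₂ c₁ c₀ hrel S
  · rw [Tr.xOf, lam_eq_frozen]
  · rw [Tr.yOf, lam_eq_frozen, mul_one]
  · rw [Tr.xOf, lam_eq_frozen, pow_one]
  · rw [Tr.yOf, lam_eq_frozen, pow_one]
  · rw [Tr.xOf, lam_eq_frozen]
  · rw [Tr.yOf, lam_eq_frozen]

/-- **(Tr)(g).**  `P₂ - a P₁ + ℓ Q = 0` on Manin's twist gives `φ² - a φ + ℓ = 0` on `E(F)`. -/
theorem frob_relation_of_frobPt_sub (hΔ : 4 * A ^ 3 + 27 * B ^ 2 ≠ 0) (h2 : (2 : ZMod ℓ) ≠ 0)
    (hℓ : ℓ ≠ 2) (φ : F →ₐ[ZMod ℓ] F) (hφ : ∀ z : F, φ z = z ^ ℓ) (a : ℤ)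
    (hrel : Tr.frobPt ℓ A B hΔ h2 hℓ 2 - a • Tr.frobPt ℓ A B hΔ h2 hℓ 1 +
      (ℓ : ℤ) • Tr.Qpt A B hΔ h2 = 0)
    (S : ((Tr.shortCurve A B)⁄F).Point) :
    Point.map φ (Point.map φ S) - a • Point.map φ S + (ℓ : ℤ) • S = 0 := by
  have h := frob_relation_of_frobPt ℓ A B hΔ h2 hℓ φ hφ 1 (-a) ℓ
    (by rw [one_smul, neg_smul, ← sub_eq_add_neg]; exact hrel) S
  rw [one_smul, neg_smul, ← sub_eq_add_neg] at h
  exact h

/-- **(Tr)(g), doubled form.**  `2 (P₂ - a P₁ + ℓ Q) = 0` on Manin's twist gives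
`2 (φ² - a φ + ℓ) = 0` on `E(F)`. -/
theorem frob_relation_of_frobPt_add_self (hΔ : 4 * A ^ 3 + 27 * B ^ 2 ≠ 0)
    (h2 : (2 : ZMod ℓ) ≠ 0) (hℓ : ℓ ≠ 2) (φ : F →ₐ[ZMod ℓ] F) (hφ : ∀ z : F, φ z = z ^ ℓ)
    (a : ℤ)
    (hrel : (Tr.frobPt ℓ A B hΔ h2 hℓ 2 - a • Tr.frobPt ℓ A B hΔ h2 hℓ 1 +
        (ℓ : ℤ) • Tr.Qpt A B hΔ h2) +
      (Tr.frobPt ℓ A B hΔ h2 hℓ 2 - a • Tr.frobPt ℓ A B hΔ h2 hℓ 1 +
        (ℓ : ℤ) • Tr.Qpt A B hΔ h2) = 0)
    (S : ((Tr.shortCurve A B)⁄F).Point) :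
    (Point.map φ (Point.map φ S) - a • Point.map φ S + (ℓ : ℤ) • S) +
      (Point.map φ (Point.map φ S) - a • Point.map φ S + (ℓ : ℤ) • S) = 0 := by
  have e : ∀ {G : Type} [AddCommGroup G] (X Y Z : G),
      (2 : ℤ) • X + (2 * (-a)) • Y + (2 * (ℓ : ℤ)) • Z =
        (X - a • Y + (ℓ : ℤ) • Z) + (X - a • Y + (ℓ : ℤ) • Z) := by
    intro G _ X Y Z
    module
  have h := frob_relation_of_frobPt ℓ A B hΔ h2 hℓ φ hφ 2 (2 * (-a)) (2 * ℓ)
    (by rw [e]; exact hrel) S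
  rw [e] at h
  exact h

omit [IsAlgClosed F] [DecidableEq F] [DecidableEq (RatFunc (ZMod ℓ))] in
/-- The `ℓ`-power Frobenius `FiniteField.frobeniusAlgHom (ZMod ℓ) F` is `z ↦ z ^ ℓ`. -/
theorem frobeniusAlgHom_apply_zmod (z : F) :
    FiniteField.frobeniusAlgHom (ZMod ℓ) F z = z ^ ℓ := by
  rw [FiniteField.coe_frobeniusAlgHom, ZMod.card]

end Frozen

end Fermat.Agent.S52.Tr.Specialize
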