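import Fermat.Agent.S52.Tr.Final
import Fermat.Agent.S52.Tr.Specialize

/-!
# S52, brick (Tr): step (g) in the shape `Final.SpecStatement`, and `TrStatement` (helper54)

`specStatement ℓ K` : `Final.SpecStatement ℓ K` for every algebraically closed field `K` (in
`Type`) over `ZMod ℓ`, from `Specialize.frob_relation_of_frobPt_sub`.
`trStatement ℓ K hℓ` : hence `Consumer.TrStatement ℓ K`, i.e. `φ² - a φ + ℓ = 0` on `E(K)` for
every short curve `E` over `ZMod ℓ` with nonzero discriminant, `a` the Prelude's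
`traceOfFrobenius` (`ℓ` odd).
-/

set_option autoImplicit false

namespace Fermat.Agent.S52.Tr.SpecFinal

open WeierstrassCurve
open Fermat.Agent.S52.Tr

variable (ℓ : ℕ) [Fact ℓ.Prime] (K : Type) [Field K] [DecidableEq K] [Algebra (ZMod ℓ) K]
  [IsAlgClosed K]

/-- Step (g) of brick (Tr) in the shape consumed by `Final`. -/
theorem specStatement : Final.SpecStatement ℓ K := by
  intro _ A B hΔ h2 hℓ a hrel P
  have h := Specialize.frob_relation_of_frobPt_sub ℓ A B hΔ h2 hℓ
    (FiniteField.frobeniusAlgHom (ZMod ℓ) K) (Specialize.frobeniusAlgHom_apply_zmod ℓ) a hrel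
    ((Consumer.pointCast (Consumer.baseChange_shortCurve ℓ K A B)).symm P)
  have h' := congrArg (Consumer.pointCast (Consumer.baseChange_shortCurve ℓ K A B)) h
  rw [map_add, map_sub, map_zsmul, map_zsmul, map_zero] at h'
  rw [Consumer.frobK_apply ℓ K A B (Consumer.frobK ℓ K A B P), Consumer.frobK_apply ℓ K A B P,
    AddEquiv.symm_apply_apply]
  rw [AddEquiv.apply_symm_apply] at h'
  exact h'

/-- **Brick (Tr)**: `φ² - a φ + ℓ = 0` on `E(K)`, `K` algebraically closed over `ZMod ℓ`,
`ℓ` odd, for every short Weierstrass curve `E` over `ZMod ℓ` with nonzero discriminant. -/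
theorem trStatement (hℓ : ℓ ≠ 2) : Consumer.TrStatement ℓ K :=
  Final.trStatement_of_spec ℓ K hℓ (specStatement ℓ K)

/-- **Brick (Tr)** on `shortBar` with the coordinatewise Frobenius. -/
theorem trStatement' (hℓ : ℓ ≠ 2) : Consumer.TrStatement' ℓ K :=
  Final.trStatement'_of_spec ℓ K hℓ (specStatement ℓ K)

/-- **Brick (Tr)** over the algebraic closure of `ZMod ℓ`. -/
theorem trStatement_algebraicClosure [DecidableEq (AlgebraicClosure (ZMod ℓ))] (hℓ : ℓ ≠ 2) :
    Consumer.TrStatement ℓ (AlgebraicClosure (ZMod ℓ)) :=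
  trStatement ℓ (AlgebraicClosure (ZMod ℓ)) hℓ

end Fermat.Agent.S52.Tr.SpecFinal
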