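import Mathlib
import Fermat.Prelude.Def_FLTPrelim_Modularity
import Fermat.Agent.S52.Tr.Defs

/-!
# S52, brick (Tr), glue (h1): general Weierstrass form → short Weierstrass form

Over a field in which `2` and `3` are invertible, the points of a Weierstrass curve `W` with
`W.Δ ≠ 0` are in explicit bijection with the points of the short curve
`y² = x³ - 27 c₄ x - 54 c₆`, via `(x, y) ↦ (36 x + 3 b₂, 108 (2 y + a₁ x + a₃))`.
Consequently the Prelude's `apOfModel` of an integral model at a good prime `ℓ ≥ 5` is the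
`traceOfFrobenius` of that short curve over `ZMod ℓ`.

The short curve is `Fermat.Agent.S52.Tr.shortCurve` of `Tr/Defs.lean`.
-/

set_option autoImplicit false

namespace Fermat.Agent.S52.Tr.ShortForm

open WeierstrassCurve

variable {F : Type*} [Field F]

@[simp] lemma shortCurve_a₁ (A B : F) : (shortCurve A B).a₁ = 0 := rfl
@[simp] lemma shortCurve_a₂ (A B : F) : (shortCurve A B).a₂ = 0 := rfl
@[simp] lemma shortCurve_a₃ (A B : F) : (shortCurve A B).a₃ = 0 := rfl
@[simp] lemma shortCurve_a₄ (A B : F) : (shortCurve A B).a₄ = A := rfl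
@[simp] lemma shortCurve_a₆ (A B : F) : (shortCurve A B).a₆ = B := rfl

lemma shortCurve_Δ (A B : F) : (shortCurve A B).Δ = -16 * (4 * A ^ 3 + 27 * B ^ 2) := by
  simp only [WeierstrassCurve.Δ, WeierstrassCurve.b₂, WeierstrassCurve.b₄, WeierstrassCurve.b₆,
    WeierstrassCurve.b₈, shortCurve_a₁, shortCurve_a₂, shortCurve_a₃, shortCurve_a₄,
    shortCurve_a₆]
  ring

lemma shortCurve_Δ_ne_zero {A B : F} (h2 : (2 : F) ≠ 0) (hΔ : 4 * A ^ 3 + 27 * B ^ 2 ≠ 0) :
    (shortCurve A B).Δ ≠ 0 := by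
  rw [shortCurve_Δ]
  have h16 : (16 : F) ≠ 0 := by
    have : (16 : F) = 2 ^ 4 := by norm_num
    rw [this]; exact pow_ne_zero _ h2
  exact mul_ne_zero (neg_ne_zero.mpr h16) hΔ

lemma shortCurve_equation_iff (A B x y : F) :
    (shortCurve A B).Equation x y ↔ y ^ 2 = x ^ 3 + A * x + B := by
  rw [WeierstrassCurve.Affine.equation_iff]
  simp only [shortCurve_a₁, shortCurve_a₂, shortCurve_a₃, shortCurve_a₄, shortCurve_a₆]
  constructor <;> intro h <;> linear_combination h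

lemma shortCurve_map {K : Type*} [Field K] (f : F →+* K) (A B : F) :
    (shortCurve A B).map f = shortCurve (f A) (f B) := by
  ext <;> simp [shortCurve]

/-- The short Weierstrass curve attached to a general Weierstrass curve. -/
noncomputable def shortOf (W : WeierstrassCurve F) : WeierstrassCurve.Affine F :=
  shortCurve (-27 * W.c₄) (-54 * W.c₆)

lemma shortOf_disc (W : WeierstrassCurve F) :
    4 * (-27 * W.c₄) ^ 3 + 27 * (-54 * W.c₆) ^ 2 = -(2 ^ 8 * 3 ^ 12) * W.Δ := by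
  simp only [WeierstrassCurve.Δ, WeierstrassCurve.b₂, WeierstrassCurve.b₄, WeierstrassCurve.b₆,
    WeierstrassCurve.b₈, WeierstrassCurve.c₄, WeierstrassCurve.c₆]
  ring

lemma shortOf_disc_ne_zero (W : WeierstrassCurve F) (h2 : (2 : F) ≠ 0) (h3 : (3 : F) ≠ 0)
    (hΔ : W.Δ ≠ 0) : 4 * (-27 * W.c₄) ^ 3 + 27 * (-54 * W.c₆) ^ 2 ≠ 0 := by
  rw [shortOf_disc]
  exact mul_ne_zero (neg_ne_zero.mpr (mul_ne_zero (pow_ne_zero _ h2) (pow_ne_zero _ h3))) hΔ

lemma shortOf_Δ (W : WeierstrassCurve F) : (shortOf W).Δ = 2 ^ 12 * 3 ^ 12 * W.Δ := by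
  rw [shortOf, shortCurve_Δ, shortOf_disc]; ring

lemma shortOf_Δ_ne_zero (W : WeierstrassCurve F) (h2 : (2 : F) ≠ 0) (h3 : (3 : F) ≠ 0)
    (hΔ : W.Δ ≠ 0) : (shortOf W).Δ ≠ 0 := by
  rw [shortOf_Δ]
  exact mul_ne_zero (mul_ne_zero (pow_ne_zero _ h2) (pow_ne_zero _ h3)) hΔ

lemma shortOf_equation_iff (W : WeierstrassCurve F) (h2 : (2 : F) ≠ 0) (h3 : (3 : F) ≠ 0)
    (x y : F) :
    (shortOf W).Equation (36 * x + 3 * W.b₂) (108 * (2 * y + W.a₁ * x + W.a₃)) ↔
      W.toAffine.Equation x y := by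
  rw [shortOf, shortCurve_equation_iff, WeierstrassCurve.Affine.equation_iff]
  simp only [WeierstrassCurve.b₂, WeierstrassCurve.b₄, WeierstrassCurve.b₆,
    WeierstrassCurve.c₄, WeierstrassCurve.c₆]
  have h : (2 : F) ^ 6 * 3 ^ 6 ≠ 0 := mul_ne_zero (pow_ne_zero _ h2) (pow_ne_zero _ h3)
  constructor
  · intro e
    have : (2 : F) ^ 6 * 3 ^ 6 * (y ^ 2 + W.a₁ * x * y + W.a₃ * y
        - (x ^ 3 + W.a₂ * x ^ 2 + W.a₄ * x + W.a₆)) = 0 := by linear_combination e
    have h0 := (mul_eq_zero.mp this).resolve_left h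
    linear_combination h0
  · intro e
    linear_combination (2 : F) ^ 6 * 3 ^ 6 * e

section Bij

variable (W : WeierstrassCurve F) (h2 : (2 : F) ≠ 0) (h3 : (3 : F) ≠ 0) (hΔ : W.Δ ≠ 0)

include h2 h3 hΔ in
lemma shortOf_nonsingular {x y : F} (h : W.toAffine.Nonsingular x y) :
    (shortOf W).Nonsingular (36 * x + 3 * W.b₂) (108 * (2 * y + W.a₁ * x + W.a₃)) :=
  (WeierstrassCurve.Affine.equation_iff_nonsingular_of_Δ_ne_zero
    (shortOf_Δ_ne_zero W h2 h3 hΔ)).mp ((shortOf_equation_iff W h2 h3 x y).mpr h.1)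

include h2 h3 hΔ in
lemma nonsingular_of_shortOf {X Y : F} (h : (shortOf W).Nonsingular X Y) :
    W.toAffine.Nonsingular ((X - 3 * W.b₂) / 36)
      ((Y / 108 - W.a₁ * ((X - 3 * W.b₂) / 36) - W.a₃) / 2) := by
  have h36 : (36 : F) ≠ 0 := by
    have : (36 : F) = 2 ^ 2 * 3 ^ 2 := by norm_num
    rw [this]; exact mul_ne_zero (pow_ne_zero _ h2) (pow_ne_zero _ h3)
  have h108 : (108 : F) ≠ 0 := by
    have : (108 : F) = 2 ^ 2 * 3 ^ 3 := by norm_num
    rw [this]; exact mul_ne_zero (pow_ne_zero _ h2) (pow_ne_zero _ h3)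
  refine (WeierstrassCurve.Affine.equation_iff_nonsingular_of_Δ_ne_zero hΔ).mp ?_
  refine (shortOf_equation_iff W h2 h3 _ _).mp ?_
  have e1 : 36 * ((X - 3 * W.b₂) / 36) + 3 * W.b₂ = X := by field_simp; ring
  have e2 : 108 * (2 * ((Y / 108 - W.a₁ * ((X - 3 * W.b₂) / 36) - W.a₃) / 2)
      + W.a₁ * ((X - 3 * W.b₂) / 36) + W.a₃) = Y := by field_simp; ring
  rw [e1, e2]
  exact h.1

/-- The explicit bijection between the points of `W` and of its short form. -/
noncomputable def pointEquiv : W.toAffine.Point ≃ (shortOf W).Point where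
  toFun P := match P with
    | .zero => .zero
    | .some x y h => .some (36 * x + 3 * W.b₂) (108 * (2 * y + W.a₁ * x + W.a₃))
        (shortOf_nonsingular W h2 h3 hΔ h)
  invFun P := match P with
    | .zero => .zero
    | .some X Y h => .some ((X - 3 * W.b₂) / 36)
        ((Y / 108 - W.a₁ * ((X - 3 * W.b₂) / 36) - W.a₃) / 2)
        (nonsingular_of_shortOf W h2 h3 hΔ h)
  left_inv P := by
    have h36 : (36 : F) ≠ 0 := by
      have : (36 : F) = 2 ^ 2 * 3 ^ 2 := by norm_num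
      rw [this]; exact mul_ne_zero (pow_ne_zero _ h2) (pow_ne_zero _ h3)
    have h108 : (108 : F) ≠ 0 := by
      have : (108 : F) = 2 ^ 2 * 3 ^ 3 := by norm_num
      rw [this]; exact mul_ne_zero (pow_ne_zero _ h2) (pow_ne_zero _ h3)
    rcases P with _ | ⟨x, y, h⟩
    · rfl
    · simp only [WeierstrassCurve.Affine.Point.some.injEq]
      have e1 : (36 * x + 3 * W.b₂ - 3 * W.b₂) / 36 = x := by field_simp; ring
      refine ⟨e1, ?_⟩
      rw [e1]
      field_simp
      ring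
  right_inv P := by
    have h36 : (36 : F) ≠ 0 := by
      have : (36 : F) = 2 ^ 2 * 3 ^ 2 := by norm_num
      rw [this]; exact mul_ne_zero (pow_ne_zero _ h2) (pow_ne_zero _ h3)
    have h108 : (108 : F) ≠ 0 := by
      have : (108 : F) = 2 ^ 2 * 3 ^ 3 := by norm_num
      rw [this]; exact mul_ne_zero (pow_ne_zero _ h2) (pow_ne_zero _ h3)
    rcases P with _ | ⟨X, Y, h⟩
    · rfl
    · simp only [WeierstrassCurve.Affine.Point.some.injEq]
      constructor
      · field_simp; ring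
      · field_simp; ring

include h2 h3 hΔ in
lemma card_shortOf : (shortOf W).card = W.card := by
  unfold WeierstrassCurve.card
  exact (Nat.card_congr (pointEquiv W h2 h3 hΔ)).symm

include h2 h3 hΔ in
lemma traceOfFrobenius_shortOf : (shortOf W).traceOfFrobenius = W.traceOfFrobenius := by
  unfold WeierstrassCurve.traceOfFrobenius
  rw [card_shortOf W h2 h3 hΔ]

end Bij

section Integral

variable (ℓ : ℕ) [Fact ℓ.Prime]

lemma two_ne_zero_of_five_le (hℓ : 5 ≤ ℓ) : (2 : ZMod ℓ) ≠ 0 := by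
  intro h
  have h' : ((2 : ℕ) : ZMod ℓ) = 0 := by exact_mod_cast h
  rw [ZMod.natCast_eq_zero_iff] at h'
  have := Nat.le_of_dvd (by norm_num) h'
  omega

lemma three_ne_zero_of_five_le (hℓ : 5 ≤ ℓ) : (3 : ZMod ℓ) ≠ 0 := by
  intro h
  have h' : ((3 : ℕ) : ZMod ℓ) = 0 := by exact_mod_cast h
  rw [ZMod.natCast_eq_zero_iff] at h'
  have := Nat.le_of_dvd (by norm_num) h'
  omega

/-- The short Weierstrass curve over `ZMod ℓ` attached to an integral model. -/
noncomputable def shortMod (W : WeierstrassCurve ℤ) : WeierstrassCurve.Affine (ZMod ℓ) :=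
  shortCurve (-27 * (W.c₄ : ZMod ℓ)) (-54 * (W.c₆ : ZMod ℓ))

lemma shortMod_eq (W : WeierstrassCurve ℤ) : shortMod ℓ W = shortOf (W.reductionMod ℓ) := by
  unfold shortMod shortOf WeierstrassCurve.reductionMod
  rw [WeierstrassCurve.map_c₄, WeierstrassCurve.map_c₆]
  rfl

lemma reductionMod_Δ_ne_zero (W : WeierstrassCurve ℤ) (hW : W.IsGoodPrimeFor ℓ) :
    (W.reductionMod ℓ).Δ ≠ 0 := by
  unfold WeierstrassCurve.reductionMod
  rw [WeierstrassCurve.map_Δ]
  intro h
  exact hW ((ZMod.intCast_zmod_eq_zero_iff_dvd _ _).mp h)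

/-- The discriminant condition for the short curve of a model with good reduction at `ℓ ≥ 5`. -/
lemma shortMod_disc_ne_zero (W : WeierstrassCurve ℤ) (hℓ : 5 ≤ ℓ) (hW : W.IsGoodPrimeFor ℓ) :
    4 * (-27 * (W.c₄ : ZMod ℓ)) ^ 3 + 27 * (-54 * (W.c₆ : ZMod ℓ)) ^ 2 ≠ 0 := by
  have h := shortOf_disc_ne_zero (W.reductionMod ℓ) (two_ne_zero_of_five_le ℓ hℓ)
    (three_ne_zero_of_five_le ℓ hℓ) (reductionMod_Δ_ne_zero ℓ W hW)
  unfold WeierstrassCurve.reductionMod at h
  rwa [WeierstrassCurve.map_c₄, WeierstrassCurve.map_c₆] at h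

/-- `a_ℓ` of an integral model with good reduction at `ℓ ≥ 5` is the trace of Frobenius of the
short curve `y² = x³ - 27 c₄ x - 54 c₆` over `ZMod ℓ`. -/
theorem apOfModel_eq (W : WeierstrassCurve ℤ) (hℓ : 5 ≤ ℓ) (hW : W.IsGoodPrimeFor ℓ) :
    W.apOfModel ℓ = (shortMod ℓ W).traceOfFrobenius := by
  unfold WeierstrassCurve.apOfModel
  rw [shortMod_eq]
  exact (traceOfFrobenius_shortOf (W.reductionMod ℓ) (two_ne_zero_of_five_le ℓ hℓ)
    (three_ne_zero_of_five_le ℓ hℓ) (reductionMod_Δ_ne_zero ℓ W hW)).symm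

end Integral

end Fermat.Agent.S52.Tr.ShortForm
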