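import Mathlib
import Fermat.Prelude.Def_FLTPrelim_Modularity
import Fermat.Agent.S52.Tr.Defs
import Fermat.Agent.S52.Tr.ShortForm

/-!
# S52, brick (Tr), glue (h2): the final interface of (Tr) and its consumer

* `TrStatement ℓ K` : for every short curve `E : y² = x³ + A x + B` over `ZMod ℓ` with
  `4 A³ + 27 B² ≠ 0`, the Frobenius `φ` of `E(K)` (Mathlib's `Point.map` along
  `FiniteField.frobeniusAlgHom (ZMod ℓ) K`) satisfies `φ² - a φ + ℓ = 0`, where
  `a = E.traceOfFrobenius` (Prelude).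
* `TrStatement' ℓ K` : the same statement on the curve `shortBar ℓ K A B :=
  shortCurve (algebraMap A) (algebraMap B)` over `K` with the coordinatewise Frobenius `frobK`
  (`frobK_some : frobK (x, y) = (x ^ ℓ, y ^ ℓ)`).  `trStatement_iff` : the two are equivalent.
* `five_dvd_of_equivariant` : abstract consumer.
* `five_dvd_trace_sub`, `five_dvd_ap_sub` : a Frobenius-equivariant map, additive on `5`-torsion
  and not identically zero on it, between the `K`-points of two short curves forces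
  `5 ∣ a' - a`.
-/

set_option autoImplicit false

namespace Fermat.Agent.S52.Tr.Consumer

open WeierstrassCurve

section Abstract

/-- Abstract consumer of the characteristic equations of two Frobenius endomorphisms. -/
theorem five_dvd_of_equivariant {G G' : Type*} [AddCommGroup G] [AddCommGroup G']
    (φ : G →+ G) (φ' : G' →+ G') (a a' l : ℤ)
    (h : ∀ P : G, φ (φ P) - a • φ P + l • P = 0)
    (h' : ∀ P : G', φ' (φ' P) - a' • φ' P + l • P = 0)
    (hφ' : Function.Injective φ')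
    (θ : G → G')
    (hθ_add : ∀ P Q : G, (5 : ℕ) • P = 0 → (5 : ℕ) • Q = 0 → θ (P + Q) = θ P + θ Q)
    (hθ_frob : ∀ P : G, (5 : ℕ) • P = 0 → θ (φ P) = φ' (θ P))
    (P₀ : G) (h5 : (5 : ℕ) • P₀ = 0) (hP₀ : θ P₀ ≠ 0) : (5 : ℤ) ∣ a' - a := by
  classical
  -- the `5`-torsion subgroup and the restriction of `θ` to it
  let T : AddSubgroup G :=
    { carrier := {P | (5 : ℕ) • P = 0}
      add_mem' := fun {x y} hx hy => by
        change (5 : ℕ) • (x + y) = 0
        rw [smul_add, show (5 : ℕ) • x = 0 from hx, show (5 : ℕ) • y = 0 from hy, add_zero]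
      zero_mem' := smul_zero _
      neg_mem' := fun {x} hx => by
        change (5 : ℕ) • (-x) = 0
        rw [smul_neg, show (5 : ℕ) • x = 0 from hx, neg_zero] }
  have hT : ∀ P : G, P ∈ T ↔ (5 : ℕ) • P = 0 := fun P => Iff.rfl
  let θT : T →+ G' := AddMonoidHom.mk' (fun P => θ P.1) (fun P Q => hθ_add P.1 Q.1 P.2 Q.2)
  have hθT : ∀ P : T, θT P = θ P.1 := fun P => rfl
  have hφT : ∀ P : G, P ∈ T → φ P ∈ T := fun P hP => by
    rw [hT] at hP ⊢
    rw [← map_nsmul, hP, map_zero]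
  have hP₀T : P₀ ∈ T := h5
  have hQ : φ P₀ ∈ T := hφT _ hP₀T
  have hR : φ (φ P₀) ∈ T := hφT _ hQ
  -- the relation inside `T`
  have key : (⟨φ (φ P₀), hR⟩ : T) = a • (⟨φ P₀, hQ⟩ : T) - l • (⟨P₀, hP₀T⟩ : T) := by
    apply Subtype.ext
    simp only [AddSubgroup.coe_sub, AddSubgroup.coe_zsmul]
    have := h P₀
    rw [← sub_eq_zero]
    rw [← this]
    abel
  have key2 := congrArg θT key
  rw [map_sub, map_zsmul, map_zsmul, hθT, hθT, hθT] at key2
  simp only at key2
  rw [hθ_frob _ hQ, hθ_frob _ h5] at key2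
  -- compare with the characteristic equation on the other side
  have h2 := h' (θ P₀)
  have h3 : (a' - a) • φ' (θ P₀) = 0 := by
    rw [key2] at h2
    have e : (a' - a) • φ' (θ P₀)
        = -(a • φ' (θ P₀) - l • θ P₀ - a' • φ' (θ P₀) + l • θ P₀) := by
      rw [sub_smul]; abel
    rw [e, h2, neg_zero]
  have h4 : (5 : ℤ) • φ' (θ P₀) = 0 := by
    have e : (5 : ℤ) • φ' (θ P₀) = φ' ((5 : ℕ) • θ P₀) := by
      rw [map_nsmul]; norm_cast
    rw [e]
    have : (5 : ℕ) • θ P₀ = θT ((5 : ℕ) • (⟨P₀, hP₀T⟩ : T)) := by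
      rw [map_nsmul, hθT]
    rw [this]
    have : (5 : ℕ) • (⟨P₀, hP₀T⟩ : T) = 0 := by
      apply Subtype.ext
      simpa using h5
    rw [this, map_zero, map_zero]
  have h6 : φ' (θ P₀) ≠ 0 := fun h0 => hP₀ (hφ' (by rw [h0, map_zero]))
  by_contra hdvd
  have hcop : IsCoprime (5 : ℤ) (a' - a) := by
    rw [Int.isCoprime_iff_gcd_eq_one]
    have hp : Prime (5 : ℤ) := by
      rw [Int.prime_iff_natAbs_prime]; norm_num
    have := (Int.isCoprime_iff_gcd_eq_one).mp ((hp.coprime_iff_not_dvd).mpr hdvd)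
    exact this
  obtain ⟨u, v, huv⟩ := hcop
  apply h6
  calc φ' (θ P₀) = (1 : ℤ) • φ' (θ P₀) := (one_smul _ _).symm
    _ = (u * 5 + v * (a' - a)) • φ' (θ P₀) := by rw [huv]
    _ = 0 := by rw [add_smul, mul_smul, mul_smul, h4, h3, smul_zero, smul_zero, add_zero]

/-- Abstract consumer, level-structure shape: two injective homomorphisms from `(ZMod 5)²` and a
common "matrix" `M` of the two Frobenius endomorphisms. -/
theorem five_dvd_of_level {G G' : Type*} [AddCommGroup G] [AddCommGroup G']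
    (φ : G →+ G) (φ' : G' →+ G') (a a' l : ℤ)
    (h : ∀ P : G, φ (φ P) - a • φ P + l • P = 0)
    (h' : ∀ P : G', φ' (φ' P) - a' • φ' P + l • P = 0)
    (hφ : Function.Injective φ)
    (ι : ZMod 5 × ZMod 5 →+ G) (ι' : ZMod 5 × ZMod 5 →+ G')
    (hι : Function.Injective ι) (hι' : Function.Injective ι')
    (M : ZMod 5 × ZMod 5 → ZMod 5 × ZMod 5)
    (hM : ∀ c, φ (ι c) = ι (M c)) (hM' : ∀ c, φ' (ι' c) = ι' (M c)) : (5 : ℤ) ∣ a' - a := by
  have : Fact (Nat.Prime 5) := ⟨by norm_num⟩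
  have e1 : ∀ c, M (M c) - a • M c + l • c = 0 := fun c => by
    apply hι
    rw [map_add, map_sub, map_zsmul, map_zsmul, map_zero, ← hM, ← hM]
    exact h (ι c)
  have e2 : ∀ c, M (M c) - a' • M c + l • c = 0 := fun c => by
    apply hι'
    rw [map_add, map_sub, map_zsmul, map_zsmul, map_zero, ← hM', ← hM']
    exact h' (ι' c)
  have e3 : ∀ c, (a' - a) • M c = 0 := fun c => by
    have e : (a' - a) • M c
        = (M (M c) - a • M c + l • c) - (M (M c) - a' • M c + l • c) := by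
      rw [sub_smul]; abel
    rw [e, e1, e2, sub_zero]
  have hM0 : M (1, 0) ≠ 0 := by
    intro h0
    have h1 : φ (ι (1, 0)) = 0 := by rw [hM, h0, map_zero]
    have h2 : ι (1, 0) = 0 := hφ (by rw [h1, map_zero])
    have h3 : ((1 : ZMod 5), (0 : ZMod 5)) = 0 := hι (by rw [h2, map_zero])
    have h4 : (1 : ZMod 5) = 0 := congrArg Prod.fst h3
    exact one_ne_zero h4
  have key : ((a' - a : ℤ) : ZMod 5) = 0 := by
    by_contra hne
    apply hM0
    have e4 := e3 (1, 0)
    rw [← Int.cast_smul_eq_zsmul (ZMod 5) (a' - a) (M (1, 0))] at e4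
    exact (smul_eq_zero.mp e4).resolve_left hne
  exact (ZMod.intCast_zmod_eq_zero_iff_dvd _ 5).mp key

end Abstract

section Cast

variable {F : Type*} [Field F] [DecidableEq F]

/-- Transport of points along an equality of curves. -/
noncomputable def pointCast {W W' : WeierstrassCurve.Affine F} (h : W = W') :
    W.Point ≃+ W'.Point := by
  subst h; exact AddEquiv.refl _

lemma pointCast_zero {W W' : WeierstrassCurve.Affine F} (h : W = W') :
    pointCast h (0 : W.Point) = 0 := map_zero _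

lemma pointCast_some {W W' : WeierstrassCurve.Affine F} (h : W = W') {x y : F}
    (hn : W.Nonsingular x y) :
    pointCast h (.some x y hn) = .some x y (h ▸ hn) := by
  subst h; rfl

lemma pointCast_symm_some {W W' : WeierstrassCurve.Affine F} (h : W = W') {x y : F}
    (hn : W'.Nonsingular x y) :
    (pointCast h).symm (.some x y hn) = .some x y (h ▸ hn) := by
  subst h; rfl

end Cast

section Concrete

variable (ℓ : ℕ) [Fact ℓ.Prime] (K : Type*) [Field K] [DecidableEq K] [Algebra (ZMod ℓ) K]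

/-- Mathlib's Frobenius endomorphism of the `K`-points of a curve defined over `ZMod ℓ`. -/
noncomputable def frobBC (E : WeierstrassCurve.Affine (ZMod ℓ)) :
    (E.baseChange K).Point →+ (E.baseChange K).Point :=
  WeierstrassCurve.Affine.Point.map (W' := E) (FiniteField.frobeniusAlgHom (ZMod ℓ) K)

lemma frobBC_injective (E : WeierstrassCurve.Affine (ZMod ℓ)) :
    Function.Injective (frobBC ℓ K E) :=
  WeierstrassCurve.Affine.Point.map_injective _

/-- **Final interface of brick (Tr)**: `φ² - a φ + ℓ = 0` on `E(K)` for every short Weierstrass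
curve `E` over `ZMod ℓ` with nonzero discriminant; `a` is the Prelude's `traceOfFrobenius`. -/
def TrStatement : Prop :=
  ∀ A B : ZMod ℓ, 4 * A ^ 3 + 27 * B ^ 2 ≠ 0 →
    ∀ P : ((shortCurve A B).baseChange K).Point,
      frobBC ℓ K (shortCurve A B) (frobBC ℓ K (shortCurve A B) P)
        - (shortCurve A B).traceOfFrobenius • frobBC ℓ K (shortCurve A B) P + (ℓ : ℤ) • P = 0

/-- The curve `y² = x³ + A x + B`, `A B : ZMod ℓ`, as a short curve over `K`. -/
noncomputable def shortBar (A B : ZMod ℓ) : WeierstrassCurve.Affine K :=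
  shortCurve (algebraMap (ZMod ℓ) K A) (algebraMap (ZMod ℓ) K B)

omit [DecidableEq K] in
lemma baseChange_shortCurve (A B : ZMod ℓ) : (shortCurve A B).baseChange K = shortBar ℓ K A B :=
  ShortForm.shortCurve_map (algebraMap (ZMod ℓ) K) A B

/-- The coordinatewise Frobenius `(x, y) ↦ (x ^ ℓ, y ^ ℓ)` on the `K`-points of `shortBar`. -/
noncomputable def frobK (A B : ZMod ℓ) : (shortBar ℓ K A B).Point →+ (shortBar ℓ K A B).Point :=
  ((pointCast (baseChange_shortCurve ℓ K A B)).toAddMonoidHom.comp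
    (frobBC ℓ K (shortCurve A B))).comp
    (pointCast (baseChange_shortCurve ℓ K A B)).symm.toAddMonoidHom

lemma frobK_apply (A B : ZMod ℓ) (P : (shortBar ℓ K A B).Point) :
    frobK ℓ K A B P = pointCast (baseChange_shortCurve ℓ K A B)
      (frobBC ℓ K (shortCurve A B) ((pointCast (baseChange_shortCurve ℓ K A B)).symm P)) := rfl

lemma frobK_pointCast (A B : ZMod ℓ) (P : ((shortCurve A B).baseChange K).Point) :
    frobK ℓ K A B (pointCast (baseChange_shortCurve ℓ K A B) P) =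
      pointCast (baseChange_shortCurve ℓ K A B) (frobBC ℓ K (shortCurve A B) P) := by
  rw [frobK_apply, AddEquiv.symm_apply_apply]

lemma frobK_injective (A B : ZMod ℓ) : Function.Injective (frobK ℓ K A B) := by
  intro P Q h
  rw [frobK_apply, frobK_apply] at h
  exact (pointCast (baseChange_shortCurve ℓ K A B)).symm.injective
    (frobBC_injective ℓ K _ ((pointCast (baseChange_shortCurve ℓ K A B)).injective h))

omit [DecidableEq K] in
lemma shortBar_nonsingular_pow {A B : ZMod ℓ} {x y : K}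
    (h : (shortBar ℓ K A B).Nonsingular x y) : (shortBar ℓ K A B).Nonsingular (x ^ ℓ) (y ^ ℓ) := by
  have h1 : ((shortCurve A B).baseChange K).Nonsingular x y := (baseChange_shortCurve ℓ K A B) ▸ h
  have h2 := (WeierstrassCurve.Affine.baseChange_nonsingular (shortCurve A B)
    (FiniteField.frobeniusAlgHom (ZMod ℓ) K).injective x y).mpr h1
  rw [FiniteField.coe_frobeniusAlgHom, ZMod.card] at h2
  exact (baseChange_shortCurve ℓ K A B) ▸ h2

lemma frobK_zero (A B : ZMod ℓ) : frobK ℓ K A B 0 = 0 := map_zero _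

lemma frobK_some (A B : ZMod ℓ) {x y : K} (h : (shortBar ℓ K A B).Nonsingular x y) :
    frobK ℓ K A B (.some x y h) = .some (x ^ ℓ) (y ^ ℓ) (shortBar_nonsingular_pow ℓ K h) := by
  rw [frobK_apply, pointCast_symm_some]
  unfold frobBC
  rw [WeierstrassCurve.Affine.Point.map_some, pointCast_some]
  simp only [WeierstrassCurve.Affine.Point.some.injEq]
  rw [FiniteField.coe_frobeniusAlgHom, ZMod.card]
  exact ⟨rfl, rfl⟩

/-- (Tr) on `shortBar` with the coordinatewise Frobenius. -/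
def TrStatement' : Prop :=
  ∀ A B : ZMod ℓ, 4 * A ^ 3 + 27 * B ^ 2 ≠ 0 →
    ∀ P : (shortBar ℓ K A B).Point,
      frobK ℓ K A B (frobK ℓ K A B P)
        - (shortCurve A B).traceOfFrobenius • frobK ℓ K A B P + (ℓ : ℤ) • P = 0

theorem trStatement_iff : TrStatement ℓ K ↔ TrStatement' ℓ K := by
  constructor
  · intro hTr A B hΔ P
    have h := hTr A B hΔ ((pointCast (baseChange_shortCurve ℓ K A B)).symm P)
    have h' := congrArg (pointCast (baseChange_shortCurve ℓ K A B)) h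
    rw [map_add, map_sub, map_zsmul, map_zsmul, map_zero, AddEquiv.apply_symm_apply,
      ← frobK_pointCast, ← frobK_pointCast, AddEquiv.apply_symm_apply] at h'
    exact h'
  · intro hTr A B hΔ P
    have h := hTr A B hΔ (pointCast (baseChange_shortCurve ℓ K A B) P)
    rw [frobK_pointCast, frobK_pointCast] at h
    apply (pointCast (baseChange_shortCurve ℓ K A B)).injective
    rw [map_add, map_sub, map_zsmul, map_zsmul, map_zero]
    exact h

/-- **Consumer of (Tr)**, short curves over `ZMod ℓ`. -/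
theorem five_dvd_trace_sub (hTr : TrStatement ℓ K) (A B A' B' : ZMod ℓ)
    (hΔ : 4 * A ^ 3 + 27 * B ^ 2 ≠ 0) (hΔ' : 4 * A' ^ 3 + 27 * B' ^ 2 ≠ 0)
    (θ : (shortBar ℓ K A B).Point → (shortBar ℓ K A' B').Point)
    (hθ_add : ∀ P Q, (5 : ℕ) • P = 0 → (5 : ℕ) • Q = 0 → θ (P + Q) = θ P + θ Q)
    (hθ_frob : ∀ P, (5 : ℕ) • P = 0 → θ (frobK ℓ K A B P) = frobK ℓ K A' B' (θ P))
    (P₀ : (shortBar ℓ K A B).Point) (h5 : (5 : ℕ) • P₀ = 0) (hP₀ : θ P₀ ≠ 0) :
    (5 : ℤ) ∣ (shortCurve A' B').traceOfFrobenius - (shortCurve A B).traceOfFrobenius := by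
  have hTr' := (trStatement_iff ℓ K).mp hTr
  exact five_dvd_of_equivariant (frobK ℓ K A B) (frobK ℓ K A' B')
    (shortCurve A B).traceOfFrobenius (shortCurve A' B').traceOfFrobenius (ℓ : ℤ)
    (hTr' A B hΔ) (hTr' A' B' hΔ') (frobK_injective ℓ K A' B') θ hθ_add hθ_frob P₀ h5 hP₀

/-- **Consumer of (Tr)**, integral models with good reduction at `ℓ ≥ 5`. -/
theorem five_dvd_ap_sub (hTr : TrStatement ℓ K) (hℓ : 5 ≤ ℓ) (W W' : WeierstrassCurve ℤ)
    (hW : W.IsGoodPrimeFor ℓ) (hW' : W'.IsGoodPrimeFor ℓ)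
    (θ : (shortBar ℓ K (-27 * (W.c₄ : ZMod ℓ)) (-54 * (W.c₆ : ZMod ℓ))).Point →
      (shortBar ℓ K (-27 * (W'.c₄ : ZMod ℓ)) (-54 * (W'.c₆ : ZMod ℓ))).Point)
    (hθ_add : ∀ P Q, (5 : ℕ) • P = 0 → (5 : ℕ) • Q = 0 → θ (P + Q) = θ P + θ Q)
    (hθ_frob : ∀ P, (5 : ℕ) • P = 0 →
      θ (frobK ℓ K (-27 * (W.c₄ : ZMod ℓ)) (-54 * (W.c₆ : ZMod ℓ)) P) =
        frobK ℓ K (-27 * (W'.c₄ : ZMod ℓ)) (-54 * (W'.c₆ : ZMod ℓ)) (θ P))
    (P₀ : (shortBar ℓ K (-27 * (W.c₄ : ZMod ℓ)) (-54 * (W.c₆ : ZMod ℓ))).Point)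
    (h5 : (5 : ℕ) • P₀ = 0) (hP₀ : θ P₀ ≠ 0) :
    (5 : ℤ) ∣ W'.apOfModel ℓ - W.apOfModel ℓ := by
  rw [ShortForm.apOfModel_eq ℓ W hℓ hW, ShortForm.apOfModel_eq ℓ W' hℓ hW']
  exact five_dvd_trace_sub ℓ K hTr _ _ _ _ (ShortForm.shortMod_disc_ne_zero ℓ W hℓ hW)
    (ShortForm.shortMod_disc_ne_zero ℓ W' hℓ hW') θ hθ_add hθ_frob P₀ h5 hP₀

/-- **Consumer of (Tr)**, level-structure shape (short curves over `ZMod ℓ`): two injective
homomorphisms `ι, ι'` from `(ZMod 5)²` to the `K`-points and a common matrix `M` of the two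
Frobenius maps `(x, y) ↦ (x ^ ℓ, y ^ ℓ)`. -/
theorem five_dvd_trace_sub_of_level (hTr : TrStatement ℓ K) (A B A' B' : ZMod ℓ)
    (hΔ : 4 * A ^ 3 + 27 * B ^ 2 ≠ 0) (hΔ' : 4 * A' ^ 3 + 27 * B' ^ 2 ≠ 0)
    (ι : ZMod 5 × ZMod 5 →+ (shortBar ℓ K A B).Point)
    (ι' : ZMod 5 × ZMod 5 →+ (shortBar ℓ K A' B').Point)
    (hι : Function.Injective ι) (hι' : Function.Injective ι')
    (M : ZMod 5 × ZMod 5 → ZMod 5 × ZMod 5)
    (hM : ∀ c, frobK ℓ K A B (ι c) = ι (M c)) (hM' : ∀ c, frobK ℓ K A' B' (ι' c) = ι' (M c)) :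
    (5 : ℤ) ∣ (shortCurve A' B').traceOfFrobenius - (shortCurve A B).traceOfFrobenius := by
  have hTr' := (trStatement_iff ℓ K).mp hTr
  exact five_dvd_of_level (frobK ℓ K A B) (frobK ℓ K A' B')
    (shortCurve A B).traceOfFrobenius (shortCurve A' B').traceOfFrobenius (ℓ : ℤ)
    (hTr' A B hΔ) (hTr' A' B' hΔ') (frobK_injective ℓ K A B) ι ι' hι hι' M hM hM'

/-- The same in terms of the numbers of points over `ZMod ℓ` (the shape of the field `cong` of
`Glue.FamilyBricks`). -/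
theorem five_dvd_card_sub_of_level (hTr : TrStatement ℓ K) (A B A' B' : ZMod ℓ)
    (hΔ : 4 * A ^ 3 + 27 * B ^ 2 ≠ 0) (hΔ' : 4 * A' ^ 3 + 27 * B' ^ 2 ≠ 0)
    (ι : ZMod 5 × ZMod 5 →+ (shortBar ℓ K A B).Point)
    (ι' : ZMod 5 × ZMod 5 →+ (shortBar ℓ K A' B').Point)
    (hι : Function.Injective ι) (hι' : Function.Injective ι')
    (M : ZMod 5 × ZMod 5 → ZMod 5 × ZMod 5)
    (hM : ∀ c, frobK ℓ K A B (ι c) = ι (M c)) (hM' : ∀ c, frobK ℓ K A' B' (ι' c) = ι' (M c)) :
    (5 : ℤ) ∣ (Nat.card (shortCurve A' B').Point : ℤ) - (Nat.card (shortCurve A B).Point : ℤ) := by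
  have h := five_dvd_trace_sub_of_level ℓ K hTr A B A' B' hΔ hΔ' ι ι' hι hι' M hM hM'
  unfold WeierstrassCurve.traceOfFrobenius WeierstrassCurve.card at h
  have e : (Nat.card (shortCurve A' B').Point : ℤ) - (Nat.card (shortCurve A B).Point : ℤ)
      = -(((Nat.card (ZMod ℓ) : ℤ) + 1 - (Nat.card (shortCurve A' B').toAffine.Point : ℤ))
        - ((Nat.card (ZMod ℓ) : ℤ) + 1 - (Nat.card (shortCurve A B).toAffine.Point : ℤ))) := by
    ring
  rw [e]
  exact (dvd_neg).mpr h

omit [DecidableEq K] in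
/-- The `shortBar` of an integral model has the integer-cast coefficients. -/
lemma shortBar_intCast (c d : ℤ) :
    shortBar ℓ K (-27 * (c : ZMod ℓ)) (-54 * (d : ZMod ℓ)) =
      shortCurve (-27 * (c : K)) (-54 * (d : K)) := by
  unfold shortBar
  simp only [map_mul, map_neg, map_ofNat, map_intCast]

end Concrete

end Fermat.Agent.S52.Tr.Consumer
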