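import Mathlib
import Fermat.Agent.S52.Tr.Defs

/-!
# S52, brick (Tr): degree of a composition of rational functions (helper126)

`subst g : RatFunc k →ₐ[k] RatFunc k` is the substitution `r ↦ r(g)` (for nonconstant `g`;
the identity, as a junk value, when `g` is constant), and
`rdeg (subst g r) = rdeg r * rdeg g`.

The proof is the tower law for `k(r(g)) ⊆ k(g) ⊆ k(X)` together with
`RatFunc.finrank_eq_max_natDegree : [k(X) : k(f)] = max (deg num) (deg denom)`.
-/

set_option autoImplicit false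

namespace Fermat.Agent.S52.Tr.RatDeg

open Polynomial IntermediateField

noncomputable section

variable {k : Type*} [Field k]

/-- `rdeg r = [k(X) : k(r)]` (both sides are `0` for constant `r`). -/
theorem rdeg_eq_finrank (r : RatFunc k) :
    rdeg r = Module.finrank k⟮r⟯ (RatFunc k) :=
  (RatFunc.finrank_eq_max_natDegree r).symm

theorem aeval_injective_of_not_const {g : RatFunc k} (hg : ¬ ∃ c, g = RatFunc.C c) :
    Function.Injective (Polynomial.aeval (R := k) g) :=
  transcendental_iff_injective.mp (RatFunc.transcendental_of_ne_C g hg)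

open Classical in
/-- Substitution `r ↦ r(g)` as a `k`-algebra endomorphism of `RatFunc k`; the identity (junk
value) when `g` is constant. -/
def subst (g : RatFunc k) : RatFunc k →ₐ[k] RatFunc k :=
  if hg : ∃ c, g = RatFunc.C c then AlgHom.id k (RatFunc k)
  else RatFunc.liftAlgHom (Polynomial.aeval g)
    (nonZeroDivisors_le_comap_nonZeroDivisors_of_injective _ (aeval_injective_of_not_const hg))

theorem subst_of_const {g : RatFunc k} (hg : ∃ c, g = RatFunc.C c) :
    subst g = AlgHom.id k (RatFunc k) := by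
  unfold subst
  rw [dif_pos hg]

theorem subst_of_not_const {g : RatFunc k} (hg : ¬ ∃ c, g = RatFunc.C c) :
    subst g = RatFunc.liftAlgHom (Polynomial.aeval g)
      (nonZeroDivisors_le_comap_nonZeroDivisors_of_injective _
        (aeval_injective_of_not_const hg)) := by
  unfold subst
  rw [dif_neg hg]

theorem subst_div {g : RatFunc k} (hg : ¬ ∃ c, g = RatFunc.C c) (p q : k[X]) :
    subst g (algebraMap k[X] (RatFunc k) p / algebraMap k[X] (RatFunc k) q)
      = Polynomial.aeval g p / Polynomial.aeval g q := by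
  rw [subst_of_not_const hg]
  exact RatFunc.liftAlgHom_apply_div _ _ p q

/-- `subst g` on polynomials is evaluation at `g`. -/
theorem subst_algebraMap {g : RatFunc k} (hg : ¬ ∃ c, g = RatFunc.C c) (p : k[X]) :
    subst g (algebraMap k[X] (RatFunc k) p) = Polynomial.aeval g p := by
  have h := subst_div hg p 1
  simpa using h

@[simp]
theorem subst_C (g : RatFunc k) (c : k) : subst g (RatFunc.C c) = RatFunc.C c := by
  rw [← RatFunc.algebraMap_eq_C]
  exact (subst g).commutes c

theorem subst_X {g : RatFunc k} (hg : ¬ ∃ c, g = RatFunc.C c) : subst g RatFunc.X = g := by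
  rw [← RatFunc.algebraMap_X, subst_algebraMap hg, Polynomial.aeval_X]

/-- `r(g) = num(g) / denom(g)`. -/
theorem subst_apply {g : RatFunc k} (hg : ¬ ∃ c, g = RatFunc.C c) (r : RatFunc k) :
    subst g r = Polynomial.aeval g r.num / Polynomial.aeval g r.denom := by
  conv_lhs => rw [← RatFunc.num_div_denom r]
  exact subst_div hg _ _

theorem subst_injective (g : RatFunc k) : Function.Injective (subst g) :=
  (subst g).toRingHom.injective

/-- The image of `k(r)` under `subst g` is `k(r(g))`. -/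
theorem map_subst_adjoin (g r : RatFunc k) :
    (k⟮r⟯).map (subst g) = k⟮subst g r⟯ := by
  rw [IntermediateField.adjoin_map, Set.image_singleton]

/-- The image of `subst g` is `k(g)`. -/
theorem map_subst_top {g : RatFunc k} (hg : ¬ ∃ c, g = RatFunc.C c) :
    (⊤ : IntermediateField k (RatFunc k)).map (subst g) = k⟮g⟯ := by
  rw [← RatFunc.adjoin_X, map_subst_adjoin, subst_X hg]

theorem fieldRange_subst {g : RatFunc k} (hg : ¬ ∃ c, g = RatFunc.C c) :
    (subst g).fieldRange = k⟮g⟯ := by
  rw [AlgHom.fieldRange_eq_map, map_subst_top hg]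

theorem subst_mem_adjoin {g : RatFunc k} (hg : ¬ ∃ c, g = RatFunc.C c) (r : RatFunc k) :
    subst g r ∈ k⟮g⟯ := by
  rw [← fieldRange_subst hg]
  exact ⟨r, rfl⟩

/-- **Degree of a composition**: `deg (r ∘ g) = deg r * deg g` for nonconstant `g`. -/
theorem rdeg_subst {g : RatFunc k} (hg : ¬ ∃ c, g = RatFunc.C c) (r : RatFunc k) :
    rdeg (subst g r) = rdeg r * rdeg g := by
  have hle : k⟮subst g r⟯ ≤ k⟮g⟯ := by
    rw [← map_subst_adjoin, ← map_subst_top hg]
    exact IntermediateField.map_mono _ le_top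
  have h1 := IntermediateField.relfinrank_mul_finrank_top hle
  have h2 : IntermediateField.relfinrank k⟮subst g r⟯ k⟮g⟯
      = Module.finrank k⟮r⟯ (RatFunc k) := by
    rw [← map_subst_adjoin, ← map_subst_top hg, IntermediateField.relfinrank_map_map,
      IntermediateField.relfinrank_top_right]
  rw [rdeg_eq_finrank, rdeg_eq_finrank r, rdeg_eq_finrank g, ← h1, h2]

/-! ### Basic facts on `rdeg` -/

theorem rdeg_eq_zero_iff (r : RatFunc k) : rdeg r = 0 ↔ ∃ c, r = RatFunc.C c := by
  unfold rdeg hd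
  rw [Nat.max_eq_zero_iff, ← RatFunc.eq_C_iff]

theorem rdeg_pos_iff (r : RatFunc k) : 0 < rdeg r ↔ ¬ ∃ c, r = RatFunc.C c := by
  rw [Nat.pos_iff_ne_zero, Ne, rdeg_eq_zero_iff]

@[simp]
theorem rdeg_C (c : k) : rdeg (RatFunc.C c) = 0 :=
  (rdeg_eq_zero_iff _).mpr ⟨c, rfl⟩

@[simp]
theorem rdeg_X : rdeg (RatFunc.X : RatFunc k) = 1 := by
  unfold rdeg hd
  rw [RatFunc.num_X, RatFunc.denom_X]
  simp

theorem X_not_const : ¬ ∃ c : k, (RatFunc.X : RatFunc k) = RatFunc.C c := by
  rw [← rdeg_eq_zero_iff, rdeg_X]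
  exact one_ne_zero

/-- `subst g r` is nonconstant when `r` and `g` are. -/
theorem subst_not_const {g r : RatFunc k} (hg : ¬ ∃ c, g = RatFunc.C c)
    (hr : ¬ ∃ c, r = RatFunc.C c) : ¬ ∃ c, subst g r = RatFunc.C c := by
  rw [← rdeg_pos_iff] at hg hr ⊢
  rw [rdeg_subst ((rdeg_pos_iff g).mp hg)]
  exact Nat.mul_pos hr hg

/-! ### Every `k`-algebra endomorphism of `RatFunc k` is a substitution -/

theorem algHom_X_not_const (σ : RatFunc k →ₐ[k] RatFunc k) :
    ¬ ∃ c, σ RatFunc.X = RatFunc.C c := by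
  rintro ⟨c, hc⟩
  have h : σ RatFunc.X = σ (RatFunc.C c) := by
    rw [hc, ← RatFunc.algebraMap_eq_C, AlgHom.commutes]
  exact X_not_const ⟨c, σ.toRingHom.injective h⟩

theorem algHom_algebraMap (σ : RatFunc k →ₐ[k] RatFunc k) (p : k[X]) :
    σ (algebraMap k[X] (RatFunc k) p) = Polynomial.aeval (σ RatFunc.X) p := by
  have h : (σ.comp (IsScalarTower.toAlgHom k k[X] (RatFunc k))) = Polynomial.aeval (σ RatFunc.X) := by
    apply Polynomial.algHom_ext
    simp [RatFunc.algebraMap_X]
  exact congrArg (fun f : k[X] →ₐ[k] RatFunc k => f p) h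

/-- Every `k`-algebra endomorphism `σ` of `RatFunc k` is `subst (σ X)`. -/
theorem algHom_eq_subst (σ : RatFunc k →ₐ[k] RatFunc k) : σ = subst (σ RatFunc.X) := by
  apply AlgHom.ext
  intro r
  rw [subst_apply (algHom_X_not_const σ), ← algHom_algebraMap, ← algHom_algebraMap, ← map_div₀,
    RatFunc.num_div_denom]

/-- Degree of `σ r` for an arbitrary `k`-algebra endomorphism `σ` of `RatFunc k`. -/
theorem rdeg_algHom (σ : RatFunc k →ₐ[k] RatFunc k) (r : RatFunc k) :
    rdeg (σ r) = rdeg r * rdeg (σ RatFunc.X) := by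
  conv_lhs => rw [algHom_eq_subst σ]
  exact rdeg_subst (algHom_X_not_const σ) r

/-- Substitution is compatible with composition. -/
theorem subst_subst {g h : RatFunc k} (hh : ¬ ∃ c, h = RatFunc.C c) (r : RatFunc k) :
    subst g (subst h r) = subst (subst g h) r := by
  have e := algHom_eq_subst ((subst g).comp (subst h))
  rw [AlgHom.comp_apply, subst_X hh] at e
  exact congrArg (fun f : RatFunc k →ₐ[k] RatFunc k => f r) e

@[simp]
theorem subst_X_right (r : RatFunc k) : subst RatFunc.X r = r := by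
  have e := algHom_eq_subst (AlgHom.id k (RatFunc k))
  rw [AlgHom.id_apply] at e
  exact (congrArg (fun f : RatFunc k →ₐ[k] RatFunc k => f r) e).symm

/-! ### More values of `rdeg` -/

theorem rdeg_algebraMap (p : k[X]) : rdeg (algebraMap k[X] (RatFunc k) p) = p.natDegree := by
  unfold rdeg hd
  rw [RatFunc.num_algebraMap, RatFunc.denom_algebraMap]
  simp

@[simp]
theorem rdeg_X_pow (n : ℕ) : rdeg ((RatFunc.X : RatFunc k) ^ n) = n := by
  rw [← RatFunc.algebraMap_X, ← map_pow, rdeg_algebraMap, Polynomial.natDegree_X_pow]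

theorem rdeg_pow (r : RatFunc k) (n : ℕ) : rdeg (r ^ n) = n * rdeg r := by
  by_cases hr : ∃ c, r = RatFunc.C c
  · obtain ⟨c, rfl⟩ := hr
    rw [← map_pow, rdeg_C, rdeg_C, mul_zero]
  · have h : r ^ n = subst r (RatFunc.X ^ n) := by rw [map_pow, subst_X hr]
    rw [h, rdeg_subst hr, rdeg_X_pow]

theorem rdeg_congr_adjoin {r s : RatFunc k} (h : k⟮r⟯ = k⟮s⟯) : rdeg r = rdeg s := by
  rw [rdeg_eq_finrank, rdeg_eq_finrank, h]

theorem rdeg_inv (r : RatFunc k) : rdeg r⁻¹ = rdeg r := by
  apply rdeg_congr_adjoin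
  apply le_antisymm
  · rw [IntermediateField.adjoin_simple_le_iff]
    exact inv_mem (IntermediateField.mem_adjoin_simple_self k r)
  · rw [IntermediateField.adjoin_simple_le_iff]
    have h := inv_mem (IntermediateField.mem_adjoin_simple_self k r⁻¹)
    rwa [inv_inv] at h

/-- `rdeg` is invariant under affine changes `r ↦ a r + b`, `a ≠ 0`. -/
theorem rdeg_C_mul_add_C {a : k} (ha : a ≠ 0) (b : k) (r : RatFunc k) :
    rdeg (RatFunc.C a * r + RatFunc.C b) = rdeg r := by
  have hCa : (RatFunc.C a : RatFunc k) ∈ k⟮r⟯ := by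
    rw [← RatFunc.algebraMap_eq_C]; exact IntermediateField.algebraMap_mem _ a
  have hCb : (RatFunc.C b : RatFunc k) ∈ k⟮r⟯ := by
    rw [← RatFunc.algebraMap_eq_C]; exact IntermediateField.algebraMap_mem _ b
  have hCa' : (RatFunc.C a : RatFunc k) ∈ k⟮RatFunc.C a * r + RatFunc.C b⟯ := by
    rw [← RatFunc.algebraMap_eq_C]; exact IntermediateField.algebraMap_mem _ a
  have hCb' : (RatFunc.C b : RatFunc k) ∈ k⟮RatFunc.C a * r + RatFunc.C b⟯ := by
    rw [← RatFunc.algebraMap_eq_C]; exact IntermediateField.algebraMap_mem _ b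
  have hCa0 : (RatFunc.C a : RatFunc k) ≠ 0 := by
    rw [Ne, map_eq_zero]; exact ha
  apply rdeg_congr_adjoin
  apply le_antisymm
  · rw [IntermediateField.adjoin_simple_le_iff]
    exact add_mem (mul_mem hCa (IntermediateField.mem_adjoin_simple_self k r)) hCb
  · rw [IntermediateField.adjoin_simple_le_iff]
    have h1 := IntermediateField.mem_adjoin_simple_self k (RatFunc.C a * r + RatFunc.C b)
    have h3 : (RatFunc.C a)⁻¹ * ((RatFunc.C a * r + RatFunc.C b) - RatFunc.C b)
        ∈ k⟮RatFunc.C a * r + RatFunc.C b⟯ := mul_mem (inv_mem hCa') (sub_mem h1 hCb')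
    have h4 : (RatFunc.C a)⁻¹ * ((RatFunc.C a * r + RatFunc.C b) - RatFunc.C b) = r := by
      rw [add_sub_cancel_right, ← mul_assoc, inv_mul_cancel₀ hCa0, one_mul]
    rwa [h4] at h3

theorem rdeg_add_C (r : RatFunc k) (b : k) : rdeg (r + RatFunc.C b) = rdeg r := by
  have h := rdeg_C_mul_add_C (one_ne_zero (α := k)) b r
  rwa [map_one, one_mul] at h

theorem rdeg_C_mul {a : k} (ha : a ≠ 0) (r : RatFunc k) : rdeg (RatFunc.C a * r) = rdeg r := by
  have h := rdeg_C_mul_add_C ha 0 r
  rwa [map_zero, add_zero] at h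

theorem rdeg_neg (r : RatFunc k) : rdeg (-r) = rdeg r := by
  have h := rdeg_C_mul (neg_ne_zero.mpr (one_ne_zero (α := k))) r
  rwa [map_neg, map_one, neg_one_mul] at h

end

end Fermat.Agent.S52.Tr.RatDeg
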