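import Mathlib
import Fermat.Agent.S52.Tr.Defs
import Fermat.Agent.S52.Tr.RatDeg
import Fermat.Agent.S05.VarChange

/-!
# S52, brick (Tr), part (c): composition of points of the Manin twist (helper114)

`comp A B S : (Etw A B).Point →+ (Etw A B).Point` is "composition with the endomorphism `S`":
in twisted coordinates `(X, Y) ↦ (X ∘ X_S, Y_S * (Y ∘ X_S))` (the zero map when `dpt S = 0`).

Main results (`hΔ : 4 A^3 + 27 B^2 ≠ 0`, `h2 : 2 ≠ 0`, instance `[DecidableEq (RatFunc k)]`):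
* `comp_mkPt` : the formula, for ANY `σ : RatFunc k →ₐ[k] RatFunc k` with `σ X = Xc S`
* `dpt_comp` : `dpt (comp S R) = dpt R * dpt S` (all `S R`)
* `comp_Qpt'` : `dpt S ≠ 0 → comp S Qpt = S`
* `comp_assoc'` : `dpt S ≠ 0 → dpt T ≠ 0 → comp S (comp T R) = comp (comp S T) R`
* `comp_of_dpt_eq_zero` : `dpt Z = 0 → dpt S ≠ 0 → comp S Z = Z`
* `comp_frobPt_frobPt` : `comp (frobPt 1) (frobPt n) = frobPt (n + 1)`
* `comp_frobPt_one'` : `dpt S ≠ 0 → comp S (frobPt 1) = comp (frobPt 1) S`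
* `dpt_Qpt`, `dpt_frobPt` : degrees `1` and `ℓ ^ n`
-/

set_option autoImplicit false

namespace Fermat.Agent.S52.Tr.Comp

open Polynomial WeierstrassCurve WeierstrassCurve.Affine
open Fermat.Agent.S52.Tr
open Fermat.Agent.S05

noncomputable section

/-! ## 1. Points under a ring homomorphism of fields -/

section MapPt

variable {F K : Type*} [Field F] [Field K] [DecidableEq F] [DecidableEq K]

/-- the group homomorphism on points induced by a ring homomorphism of fields -/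
def mapPt (W : Affine F) (f : F →+* K) : W.Point →+ (W.map f).toAffine.Point where
  toFun P := match P with
    | .zero => 0
    | .some x y h => .some (f x) (f y) ((W.map_nonsingular f.injective x y).mpr h)
  map_zero' := rfl
  map_add' := by
    rintro (_ | ⟨x₁, y₁, h₁⟩) (_ | ⟨x₂, y₂, h₂⟩)
    any_goals rfl
    by_cases hxy : x₁ = x₂ ∧ y₁ = W.negY x₂ y₂
    · rw [Point.add_of_Y_eq hxy.left hxy.right,
        Point.add_of_Y_eq (congr_arg _ hxy.left) <| by rw [hxy.right, map_negY]]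
    · simpa only [Point.add_some hxy, ← map_addX, ← map_addY, ← map_slope] using
        (Point.add_some fun h ↦ hxy ⟨f.injective h.1, f.injective (W.map_negY f .. ▸ h).2⟩).symm

lemma mapPt_some (W : Affine F) (f : F →+* K) {x y : F} (h : W.Nonsingular x y) :
    mapPt W f (.some x y h) = .some (f x) (f y) ((W.map_nonsingular f.injective x y).mpr h) :=
  rfl

end MapPt

/-! ## 2. Substitution in rational functions -/

section Sub

variable {k : Type*} [Field k]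

/-- substitution `r ↦ r ∘ g` for a non-constant rational function `g` -/
def sub (g : RatFunc k) (hg : ¬∃ c, g = RatFunc.C c) : RatFunc k →ₐ[k] RatFunc k :=
  (IntermediateField.val _).comp
    (RatFunc.algEquivOfTranscendental g (g.transcendental_of_ne_C hg)).toAlgHom

@[simp] lemma sub_X (g : RatFunc k) (hg : ¬∃ c, g = RatFunc.C c) : sub g hg RatFunc.X = g := by
  simp [sub, RatFunc.algEquivOfTranscendental_X]

lemma algHom_C (σ : RatFunc k →ₐ[k] RatFunc k) (c : k) : σ (RatFunc.C c) = RatFunc.C c := by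
  rw [← RatFunc.algebraMap_eq_C]; exact σ.commutes c

/-- a `k`-algebra endomorphism of `k(t)` is determined by the image of `t` -/
lemma algHom_ext_X {σ τ : RatFunc k →ₐ[k] RatFunc k} (h : σ RatFunc.X = τ RatFunc.X) : σ = τ := by
  have h1 : σ.comp (IsScalarTower.toAlgHom k k[X] (RatFunc k)) =
      τ.comp (IsScalarTower.toAlgHom k k[X] (RatFunc k)) := by
    apply Polynomial.algHom_ext
    simpa [RatFunc.algebraMap_X] using h
  have h2 : ∀ p : k[X], σ (algebraMap k[X] (RatFunc k) p) = τ (algebraMap k[X] (RatFunc k) p) :=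
    fun p => DFunLike.congr_fun h1 p
  ext r
  rw [← RatFunc.num_div_denom r, map_div₀, map_div₀, h2, h2]

lemma sub_congr {g g' : RatFunc k} (hg : ¬∃ c, g = RatFunc.C c) (e : g = g')
    (hg' : ¬∃ c, g' = RatFunc.C c) : sub g hg = sub g' hg' := by
  subst e; rfl

lemma rdeg_eq_zero_iff (r : RatFunc k) : rdeg r = 0 ↔ ∃ c, r = RatFunc.C c := by
  constructor
  · intro h
    unfold rdeg hd at h
    have hn : r.num.natDegree = 0 := by omega
    have hd : r.denom.natDegree = 0 := by omega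
    obtain ⟨a, ha⟩ := Polynomial.natDegree_eq_zero.mp hn
    obtain ⟨b, hb⟩ := Polynomial.natDegree_eq_zero.mp hd
    refine ⟨a / b, ?_⟩
    conv_lhs => rw [← RatFunc.num_div_denom r, ← ha, ← hb]
    rw [RatFunc.algebraMap_C, RatFunc.algebraMap_C, map_div₀]
  · rintro ⟨c, rfl⟩
    simp [rdeg, hd]

end Sub

/-! ## 3. Twisted coordinates -/

section Tw

variable {k : Type*} [Field k] (A B : k)

lemma xOf_div (x : RatFunc k) : xOf A B (x / lam A B) = x := by
  have hl := lam_ne_zero A B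
  unfold xOf; field_simp

lemma yOf_div (y : RatFunc k) : yOf A B (y / lam A B ^ 2) = y := by
  have hl := lam_ne_zero A B
  unfold yOf; field_simp

lemma twEq_of_equation {x y : RatFunc k} (h : (Etw A B).Equation x y) :
    TwEq A B (x / lam A B) (y / lam A B ^ 2) := by
  rw [← etw_equation_iff, xOf_div, yOf_div]; exact h

variable (hΔ : 4 * A ^ 3 + 27 * B ^ 2 ≠ 0) (h2 : (2 : k) ≠ 0)

lemma mkPt_congr {X Y X' Y' : RatFunc k} (h : TwEq A B X Y) (h' : TwEq A B X' Y')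
    (eX : X = X') (eY : Y = Y') : mkPt A B hΔ h2 X Y h = mkPt A B hΔ h2 X' Y' h' := by
  subst eX eY; rfl

@[simp] lemma Xc_mkPt {X Y : RatFunc k} (h : TwEq A B X Y) : Xc A B (mkPt A B hΔ h2 X Y h) = X := by
  have hl := lam_ne_zero A B
  show xOf A B X / lam A B = X
  unfold xOf; field_simp

@[simp] lemma Yc_mkPt {X Y : RatFunc k} (h : TwEq A B X Y) : Yc A B (mkPt A B hΔ h2 X Y h) = Y := by
  have hl := lam_ne_zero A B
  show yOf A B Y / lam A B ^ 2 = Y
  unfold yOf; field_simp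

@[simp] lemma dpt_mkPt {X Y : RatFunc k} (h : TwEq A B X Y) :
    dpt A B (mkPt A B hΔ h2 X Y h) = rdeg X := by
  have e : Xc A B (mkPt A B hΔ h2 X Y h) = X := Xc_mkPt A B hΔ h2 h
  show rdeg (xOf A B X / lam A B) = rdeg X
  rw [show xOf A B X / lam A B = X from e]

lemma mkPt_ne_zero {X Y : RatFunc k} (h : TwEq A B X Y) : mkPt A B hΔ h2 X Y h ≠ 0 :=
  Point.some_ne_zero _

lemma twEq_Xc_Yc {S : (Etw A B).Point} (hS : S ≠ 0) : TwEq A B (Xc A B S) (Yc A B S) := by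
  rcases S with _ | ⟨x, y, h⟩
  · exact absurd rfl hS
  · exact twEq_of_equation A B h.1

lemma mkPt_Xc_Yc {S : (Etw A B).Point} (hS : S ≠ 0) (h : TwEq A B (Xc A B S) (Yc A B S)) :
    mkPt A B hΔ h2 (Xc A B S) (Yc A B S) h = S := by
  rcases S with _ | ⟨x, y, hxy⟩
  · exact absurd rfl hS
  · show Point.some _ _ _ = Point.some _ _ _
    rw [Point.some.injEq]
    exact ⟨xOf_div A B x, yOf_div A B y⟩

lemma eq_zero_or_eq_mkPt (R : (Etw A B).Point) :
    R = 0 ∨ ∃ (X Y : RatFunc k) (h : TwEq A B X Y), R = mkPt A B hΔ h2 X Y h := by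
  by_cases hR : R = 0
  · exact Or.inl hR
  · exact Or.inr ⟨_, _, twEq_Xc_Yc A B hR, (mkPt_Xc_Yc A B hΔ h2 hR _).symm⟩

lemma dpt_ne_zero_iff (S : (Etw A B).Point) :
    dpt A B S ≠ 0 ↔ ¬∃ c, Xc A B S = RatFunc.C c := by
  rcases S with _ | ⟨x, y, h⟩
  · constructor
    · intro h; exact absurd rfl h
    · intro h; exact absurd ⟨0, by simp [Xc]⟩ h
  · exact not_congr (rdeg_eq_zero_iff _)

lemma ne_zero_of_nonconst {S : (Etw A B).Point} (hS : ¬∃ c, Xc A B S = RatFunc.C c) : S ≠ 0 := by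
  rintro rfl
  exact hS ⟨0, by simp [Xc]⟩

lemma twEq_of_nonconst {S : (Etw A B).Point} (hS : ¬∃ c, Xc A B S = RatFunc.C c) :
    TwEq A B (Xc A B S) (Yc A B S) :=
  twEq_Xc_Yc A B (ne_zero_of_nonconst A B hS)

lemma aeval_cubic (X : RatFunc k) :
    Polynomial.aeval X (cubic A B) = X ^ 3 + RatFunc.C A * X + RatFunc.C B := by
  simp [cubic, RatFunc.algebraMap_eq_C]

lemma Yc_ne_zero_of_nonconst {S : (Etw A B).Point} (hS : ¬∃ c, Xc A B S = RatFunc.C c) :
    Yc A B S ≠ 0 := by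
  intro h0
  have h := twEq_of_nonconst A B hS
  unfold TwEq at h
  rw [h0] at h
  have htr := (Xc A B S).transcendental_of_ne_C hS
  apply htr
  refine ⟨cubic A B, cubic_ne_zero A B, ?_⟩
  rw [aeval_cubic, ← h]; ring

lemma map_lam (σ : RatFunc k →ₐ[k] RatFunc k) :
    σ (lam A B) = (σ RatFunc.X) ^ 3 + RatFunc.C A * σ RatFunc.X + RatFunc.C B := by
  rw [lam_eq]
  simp only [map_add, map_mul, map_pow, algHom_C]

lemma map_lam_of {S : (Etw A B).Point} (hS : ¬∃ c, Xc A B S = RatFunc.C c)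
    (σ : RatFunc k →ₐ[k] RatFunc k) (hσ : σ RatFunc.X = Xc A B S) :
    σ (lam A B) = lam A B * Yc A B S ^ 2 := by
  rw [map_lam, hσ]; exact (twEq_of_nonconst A B hS).symm

lemma twEq_map (σ : RatFunc k →ₐ[k] RatFunc k) {Y₀ : RatFunc k}
    (hlam : σ (lam A B) = lam A B * Y₀ ^ 2) {X Y : RatFunc k} (h : TwEq A B X Y) :
    TwEq A B (σ X) (Y₀ * σ Y) := by
  unfold TwEq at h ⊢
  have := congrArg σ h
  simp only [map_add, map_mul, map_pow, algHom_C, hlam] at this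
  rw [← this]; ring

lemma rel_of (σ : RatFunc k →ₐ[k] RatFunc k) {Y₀ : RatFunc k} (hY : Y₀ ≠ 0)
    (hlam : σ (lam A B) = lam A B * Y₀ ^ 2) :
    VarChange.Rel (Etw A B) ((Etw A B).map (σ : RatFunc k →+* RatFunc k)).toAffine Y₀⁻¹ 0 0 0 where
  hu := inv_ne_zero hY
  h₁ := by simp [Etw, shortCurve]
  h₂ := by simp [Etw, shortCurve]
  h₃ := by simp [Etw, shortCurve]
  h₄ := by
    simp only [Etw, shortCurve, WeierstrassCurve.map_a₄, RingHom.coe_coe, map_mul, map_pow,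
      algHom_C, hlam]
    field_simp
    ring
  h₆ := by
    simp only [Etw, shortCurve, WeierstrassCurve.map_a₆, RingHom.coe_coe, map_mul, map_pow,
      algHom_C, hlam]
    field_simp
    ring

end Tw

/-! ## 4. Composition -/

section CompDef

variable {k : Type*} [Field k] [DecidableEq (RatFunc k)] (A B : k)

/-- the composition map attached to a `k`-endomorphism `σ` of `k(t)` with `σ lam = lam * Y₀ ^ 2`:
`(x, y) ↦ (σ x / Y₀ ^ 2, σ y / Y₀ ^ 3)`, i.e. `(X, Y) ↦ (σ X, Y₀ * σ Y)` in twisted coordinates -/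
def compAux (σ : RatFunc k →ₐ[k] RatFunc k) {Y₀ : RatFunc k} (hY : Y₀ ≠ 0)
    (hlam : σ (lam A B) = lam A B * Y₀ ^ 2) : (Etw A B).Point →+ (Etw A B).Point :=
  (rel_of A B σ hY hlam).pointHom.comp (mapPt (Etw A B) (σ : RatFunc k →+* RatFunc k))

variable (hΔ : 4 * A ^ 3 + 27 * B ^ 2 ≠ 0) (h2 : (2 : k) ≠ 0)

lemma compAux_mkPt (σ : RatFunc k →ₐ[k] RatFunc k) {Y₀ : RatFunc k} (hY : Y₀ ≠ 0)
    (hlam : σ (lam A B) = lam A B * Y₀ ^ 2) {X Y : RatFunc k} (h : TwEq A B X Y) :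
    compAux A B σ hY hlam (mkPt A B hΔ h2 X Y h) =
      mkPt A B hΔ h2 (σ X) (Y₀ * σ Y) (twEq_map A B σ hlam h) := by
  have hl := lam_ne_zero A B
  show Point.some _ _ _ = Point.some _ _ _
  rw [Point.some.injEq]
  constructor
  · simp only [xOf, RingHom.coe_coe, map_mul, hlam]
    field_simp
    ring
  · simp only [yOf, xOf, RingHom.coe_coe, map_mul, map_pow, hlam]
    field_simp
    ring

open scoped Classical in
/-- composition with the point `S` (an endomorphism of the curve): in twisted coordinates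
`(X, Y) ↦ (X ∘ X_S, Y_S * (Y ∘ X_S))`; the zero map if `X_S` is constant or `S = 0` -/
def comp (S : (Etw A B).Point) : (Etw A B).Point →+ (Etw A B).Point :=
  if hS : ∃ c, Xc A B S = RatFunc.C c then 0
  else compAux A B (sub (Xc A B S) hS) (Yc_ne_zero_of_nonconst A B hS)
    (map_lam_of A B hS _ (sub_X _ _))

lemma comp_of_const {S : (Etw A B).Point} (hS : ∃ c, Xc A B S = RatFunc.C c) :
    comp A B S = 0 := by
  unfold comp; exact dif_pos hS

lemma comp_of_nonconst {S : (Etw A B).Point} (hS : ¬∃ c, Xc A B S = RatFunc.C c) :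
    comp A B S = compAux A B (sub (Xc A B S) hS) (Yc_ne_zero_of_nonconst A B hS)
      (map_lam_of A B hS _ (sub_X _ _)) := by
  unfold comp; exact dif_neg hS

/-- **the formula for `comp`** in twisted coordinates, for any `k`-endomorphism `σ` of `k(t)`
with `σ t = X_S` (there is exactly one). -/
theorem comp_mkPt {S : (Etw A B).Point} (hS : ¬∃ c, Xc A B S = RatFunc.C c)
    (σ : RatFunc k →ₐ[k] RatFunc k) (hσ : σ RatFunc.X = Xc A B S) {X Y : RatFunc k}
    (h : TwEq A B X Y) :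
    comp A B S (mkPt A B hΔ h2 X Y h) =
      mkPt A B hΔ h2 (σ X) (Yc A B S * σ Y) (twEq_map A B σ (map_lam_of A B hS σ hσ) h) := by
  have e : σ = sub (Xc A B S) hS := algHom_ext_X (by rw [hσ, sub_X])
  subst e
  rw [comp_of_nonconst A B hS]
  exact compAux_mkPt A B hΔ h2 _ _ _ h

end CompDef

/-! ## 5. Identities -/

section Identities

variable {k : Type*} [Field k] [DecidableEq (RatFunc k)] (A B : k)
variable (hΔ : 4 * A ^ 3 + 27 * B ^ 2 ≠ 0) (h2 : (2 : k) ≠ 0)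

/-- `comp S Q = S`: the generic point is the identity endomorphism -/
theorem comp_Qpt {S : (Etw A B).Point} (hS : ¬∃ c, Xc A B S = RatFunc.C c) :
    comp A B S (Qpt A B hΔ h2) = S := by
  unfold Qpt
  rw [comp_mkPt A B hΔ h2 hS (sub (Xc A B S) hS) (sub_X _ _)]
  have hS0 := ne_zero_of_nonconst A B hS
  conv_rhs => rw [← mkPt_Xc_Yc A B hΔ h2 hS0 (twEq_of_nonconst A B hS)]
  exact mkPt_congr A B hΔ h2 _ _ (sub_X _ _) (by rw [map_one, mul_one])

omit [DecidableEq (RatFunc k)] in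
lemma nonconst_map (σ : RatFunc k →ₐ[k] RatFunc k) {X : RatFunc k}
    (hX : ¬∃ c, X = RatFunc.C c) : ¬∃ c, σ X = RatFunc.C c := by
  rintro ⟨c, hc⟩
  apply hX
  refine ⟨c, σ.toRingHom.injective ?_⟩
  simpa [algHom_C] using hc

/-- the twisted coordinates of `comp S T` -/
lemma comp_eq_mkPt {S T : (Etw A B).Point} (hS : ¬∃ c, Xc A B S = RatFunc.C c) (hT : T ≠ 0)
    (σ : RatFunc k →ₐ[k] RatFunc k) (hσ : σ RatFunc.X = Xc A B S) :
    comp A B S T = mkPt A B hΔ h2 (σ (Xc A B T)) (Yc A B S * σ (Yc A B T))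
      (twEq_map A B σ (map_lam_of A B hS σ hσ) (twEq_Xc_Yc A B hT)) := by
  conv_lhs => rw [← mkPt_Xc_Yc A B hΔ h2 hT (twEq_Xc_Yc A B hT)]
  exact comp_mkPt A B hΔ h2 hS σ hσ _

include hΔ h2 in
lemma Xc_comp {S T : (Etw A B).Point} (hS : ¬∃ c, Xc A B S = RatFunc.C c) (hT : T ≠ 0)
    (σ : RatFunc k →ₐ[k] RatFunc k) (hσ : σ RatFunc.X = Xc A B S) :
    Xc A B (comp A B S T) = σ (Xc A B T) := by
  rw [comp_eq_mkPt A B hΔ h2 hS hT σ hσ, Xc_mkPt]

include hΔ h2 in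
lemma Yc_comp {S T : (Etw A B).Point} (hS : ¬∃ c, Xc A B S = RatFunc.C c) (hT : T ≠ 0)
    (σ : RatFunc k →ₐ[k] RatFunc k) (hσ : σ RatFunc.X = Xc A B S) :
    Yc A B (comp A B S T) = Yc A B S * σ (Yc A B T) := by
  rw [comp_eq_mkPt A B hΔ h2 hS hT σ hσ, Yc_mkPt]

include hΔ h2 in
lemma nonconst_comp {S T : (Etw A B).Point} (hS : ¬∃ c, Xc A B S = RatFunc.C c)
    (hT : ¬∃ c, Xc A B T = RatFunc.C c) : ¬∃ c, Xc A B (comp A B S T) = RatFunc.C c := by
  rw [Xc_comp A B hΔ h2 hS (ne_zero_of_nonconst A B hT) (sub (Xc A B S) hS) (sub_X _ _)]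
  exact nonconst_map _ hT

include hΔ h2 in
/-- associativity: `comp S (comp T R) = comp (comp S T) R` -/
theorem comp_assoc {S T : (Etw A B).Point} (hS : ¬∃ c, Xc A B S = RatFunc.C c)
    (hT : ¬∃ c, Xc A B T = RatFunc.C c) (R : (Etw A B).Point) :
    comp A B S (comp A B T R) = comp A B (comp A B S T) R := by
  rcases eq_zero_or_eq_mkPt A B hΔ h2 R with rfl | ⟨X, Y, h, rfl⟩
  · simp
  have hT0 := ne_zero_of_nonconst A B hT
  have hU := nonconst_comp A B hΔ h2 hS hT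
  have eX := Xc_comp A B hΔ h2 hS hT0 (sub (Xc A B S) hS) (sub_X _ _)
  have eY := Yc_comp A B hΔ h2 hS hT0 (sub (Xc A B S) hS) (sub_X _ _)
  rw [comp_mkPt A B hΔ h2 hT (sub (Xc A B T) hT) (sub_X _ _),
    comp_mkPt A B hΔ h2 hS (sub (Xc A B S) hS) (sub_X _ _),
    comp_mkPt A B hΔ h2 hU ((sub (Xc A B S) hS).comp (sub (Xc A B T) hT))
      (by rw [AlgHom.comp_apply, sub_X, eX])]
  apply mkPt_congr
  · rfl
  · rw [eY, AlgHom.comp_apply, map_mul, mul_assoc]

/-- a point with constant `X`-coordinate has `Y = 0` (`lam` has odd degree) -/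
lemma Yc_eq_zero_of_const {Z : (Etw A B).Point} (hZ : ∃ c, Xc A B Z = RatFunc.C c) :
    Yc A B Z = 0 := by
  by_cases hZ0 : Z = 0
  · subst hZ0; rfl
  obtain ⟨c, hc⟩ := hZ
  have h := twEq_Xc_Yc A B hZ0
  unfold TwEq at h
  rw [hc] at h
  by_contra hY
  have e : RatFunc.C c ^ 3 + RatFunc.C A * RatFunc.C c + RatFunc.C B
      = RatFunc.C (c ^ 3 + A * c + B) := by simp
  rw [e] at h
  have hlam : (lam A B).intDegree = 3 := by
    unfold lam
    rw [RatFunc.intDegree_polynomial, cubic_natDegree]; rfl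
  have h1 : (lam A B * Yc A B Z ^ 2).intDegree = 3 + ((Yc A B Z).intDegree + (Yc A B Z).intDegree) := by
    rw [RatFunc.intDegree_mul (lam_ne_zero A B) (pow_ne_zero _ hY), hlam, pow_two,
      RatFunc.intDegree_mul hY hY]
  rw [h, RatFunc.intDegree_C] at h1
  omega

include hΔ h2 in
/-- points of degree `0` are fixed by every composition -/
theorem comp_of_const_right {S Z : (Etw A B).Point} (hS : ¬∃ c, Xc A B S = RatFunc.C c)
    (hZ : ∃ c, Xc A B Z = RatFunc.C c) : comp A B S Z = Z := by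
  by_cases hZ0 : Z = 0
  · subst hZ0; simp
  have hY := Yc_eq_zero_of_const A B hZ
  obtain ⟨c, hc⟩ := hZ
  rw [comp_eq_mkPt A B hΔ h2 hS hZ0 (sub (Xc A B S) hS) (sub_X _ _)]
  conv_rhs => rw [← mkPt_Xc_Yc A B hΔ h2 hZ0 (twEq_Xc_Yc A B hZ0)]
  apply mkPt_congr
  · rw [hc, algHom_C]
  · rw [hY, map_zero, mul_zero]

end Identities

/-! ## 6. Frobenius points -/

section Frob

variable (ℓ : ℕ) [Fact ℓ.Prime] [DecidableEq (RatFunc (ZMod ℓ))] (A B : ZMod ℓ)
variable (hΔ : 4 * A ^ 3 + 27 * B ^ 2 ≠ 0) (h2 : (2 : ZMod ℓ) ≠ 0) (hℓ : ℓ ≠ 2)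

/-- Frobenius of `F_ℓ(t)` as an `F_ℓ`-algebra endomorphism: it is the substitution `t ↦ t ^ ℓ` -/
def frobAlg : RatFunc (ZMod ℓ) →ₐ[ZMod ℓ] RatFunc (ZMod ℓ) :=
  FiniteField.frobeniusAlgHom (ZMod ℓ) (RatFunc (ZMod ℓ))

omit [DecidableEq (RatFunc (ZMod ℓ))] in
lemma frobAlg_apply (r : RatFunc (ZMod ℓ)) : frobAlg ℓ r = r ^ ℓ := by
  simp [frobAlg, ZMod.card]

omit [DecidableEq (RatFunc (ZMod ℓ))] in
lemma frobPt_eq (n : ℕ) : frobPt ℓ A B hΔ h2 hℓ n =
    mkPt A B hΔ h2 (RatFunc.X ^ (ℓ ^ n)) (lam A B ^ ((ℓ ^ n - 1) / 2)) (twEq_frob ℓ A B hℓ n) :=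
  rfl

omit [DecidableEq (RatFunc (ZMod ℓ))] in
lemma Xc_frobPt (n : ℕ) : Xc A B (frobPt ℓ A B hΔ h2 hℓ n) = RatFunc.X ^ (ℓ ^ n) :=
  Xc_mkPt A B hΔ h2 _

omit [DecidableEq (RatFunc (ZMod ℓ))] in
lemma Yc_frobPt (n : ℕ) : Yc A B (frobPt ℓ A B hΔ h2 hℓ n) = lam A B ^ ((ℓ ^ n - 1) / 2) :=
  Yc_mkPt A B hΔ h2 _

lemma X_pow_nonconst {k : Type*} [Field k] {m : ℕ} (hm : m ≠ 0) :
    ¬∃ c : k, (RatFunc.X : RatFunc k) ^ m = RatFunc.C c := by
  rintro ⟨c, hc⟩
  have h : ((RatFunc.X : RatFunc k) ^ m).intDegree = m := by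
    rw [← RatFunc.algebraMap_X, ← map_pow, RatFunc.intDegree_polynomial, natDegree_X_pow]
  rw [hc, RatFunc.intDegree_C] at h
  exact hm (by exact_mod_cast h.symm)

omit [DecidableEq (RatFunc (ZMod ℓ))] in
lemma nonconst_frobPt (n : ℕ) : ¬∃ c, Xc A B (frobPt ℓ A B hΔ h2 hℓ n) = RatFunc.C c := by
  rw [Xc_frobPt]
  exact X_pow_nonconst (pow_ne_zero _ (Fact.out : ℓ.Prime).ne_zero)

/-- `Fr (frobPt n) = frobPt (n + 1)` for `Fr := comp (frobPt 1)` -/
theorem comp_frobPt_frobPt (n : ℕ) :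
    comp A B (frobPt ℓ A B hΔ h2 hℓ 1) (frobPt ℓ A B hΔ h2 hℓ n) =
      frobPt ℓ A B hΔ h2 hℓ (n + 1) := by
  have hS := nonconst_frobPt ℓ A B hΔ h2 hℓ 1
  rw [frobPt_eq ℓ A B hΔ h2 hℓ n, comp_mkPt A B hΔ h2 hS (frobAlg ℓ)
    (by rw [frobAlg_apply, Xc_frobPt, pow_one]), frobPt_eq ℓ A B hΔ h2 hℓ (n + 1)]
  apply mkPt_congr
  · rw [frobAlg_apply, ← pow_mul, ← pow_succ]
  · rw [Yc_frobPt, frobAlg_apply, ← pow_mul, ← pow_add]
    congr 1
    obtain ⟨a, ha⟩ := ((Fact.out : ℓ.Prime).odd_of_ne_two hℓ).pow (n := n)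
    obtain ⟨b, hb⟩ := (Fact.out : ℓ.Prime).odd_of_ne_two hℓ
    have e1 : ℓ ^ (n + 1) = 2 * (b + a * ℓ) + 1 := by rw [pow_succ, ha]; linarith [hb]
    have e2 : (ℓ ^ n - 1) / 2 = a := by omega
    have e3 : (ℓ - 1) / 2 = b := by omega
    have e4 : (ℓ ^ (n + 1) - 1) / 2 = b + a * ℓ := by omega
    rw [pow_one, e2, e3, e4]

/-- `comp S P1 = Fr S`: every composition commutes with Frobenius -/
theorem comp_frobPt_one {S : (Etw A B).Point} (hS : ¬∃ c, Xc A B S = RatFunc.C c) :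
    comp A B S (frobPt ℓ A B hΔ h2 hℓ 1) = comp A B (frobPt ℓ A B hΔ h2 hℓ 1) S := by
  have hF := nonconst_frobPt ℓ A B hΔ h2 hℓ 1
  have hS0 := ne_zero_of_nonconst A B hS
  rw [comp_eq_mkPt A B hΔ h2 hS (ne_zero_of_nonconst A B hF) (sub (Xc A B S) hS) (sub_X _ _),
    comp_eq_mkPt A B hΔ h2 hF hS0 (frobAlg ℓ) (by rw [frobAlg_apply, Xc_frobPt, pow_one])]
  apply mkPt_congr
  · rw [Xc_frobPt, pow_one, map_pow, sub_X, frobAlg_apply]
  · rw [Yc_frobPt, map_pow, map_lam_of A B hS _ (sub_X _ _), frobAlg_apply, pow_one]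
    obtain ⟨b, hb⟩ := (Fact.out : ℓ.Prime).odd_of_ne_two hℓ
    have e3 : (ℓ - 1) / 2 = b := by omega
    have e5 : Yc A B S ^ ℓ = Yc A B S ^ (2 * b + 1) := by rw [← hb]
    rw [e3, e5]
    ring

end Frob

/-! ## 7. Degrees -/

section Degree

variable {k : Type*} [Field k] [DecidableEq (RatFunc k)] (A B : k)
variable (hΔ : 4 * A ^ 3 + 27 * B ^ 2 ≠ 0) (h2 : (2 : k) ≠ 0)

omit [DecidableEq (RatFunc k)] in
lemma dpt_eq_rdeg_Xc (S : (Etw A B).Point) : dpt A B S = rdeg (Xc A B S) := by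
  rcases S with _ | ⟨x, y, h⟩
  · show 0 = rdeg (0 : RatFunc k)
    simp [rdeg, hd]
  · rfl

include hΔ h2 in
/-- multiplicativity of the degree under composition, from the multiplicativity of `rdeg` under
substitution (for any `k`-endomorphisms with prescribed image of `t`) -/
theorem dpt_comp_of
    (hsub : ∀ (σ : RatFunc k →ₐ[k] RatFunc k) (r : RatFunc k),
      rdeg (σ r) = rdeg r * rdeg (σ RatFunc.X))
    (S R : (Etw A B).Point) : dpt A B (comp A B S R) = dpt A B R * dpt A B S := by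
  by_cases hS : ∃ c, Xc A B S = RatFunc.C c
  · have h0 : dpt A B S = 0 := by
      by_contra h
      exact (dpt_ne_zero_iff A B S).mp h hS
    rw [comp_of_const A B hS, h0, mul_zero]; rfl
  rcases eq_zero_or_eq_mkPt A B hΔ h2 R with rfl | ⟨X, Y, h, rfl⟩
  · rw [map_zero]
    show 0 = 0 * _
    rw [zero_mul]
  rw [comp_mkPt A B hΔ h2 hS (sub (Xc A B S) hS) (sub_X _ _), dpt_mkPt, dpt_mkPt, hsub, sub_X,
    dpt_eq_rdeg_Xc]

omit [DecidableEq (RatFunc k)] in
lemma rdeg_algebraMap (p : k[X]) : rdeg (algebraMap k[X] (RatFunc k) p) = p.natDegree := by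
  simp [rdeg, hd]

omit [DecidableEq (RatFunc k)] in
lemma rdeg_X_pow (m : ℕ) : rdeg ((RatFunc.X : RatFunc k) ^ m) = m := by
  rw [← RatFunc.algebraMap_X, ← map_pow, rdeg_algebraMap, natDegree_X_pow]

omit [DecidableEq (RatFunc k)] in
lemma dpt_Qpt : dpt A B (Qpt A B hΔ h2) = 1 := by
  unfold Qpt
  rw [dpt_mkPt]
  exact RatDeg.rdeg_X

include hΔ h2 in
/-- **multiplicativity of the degree**: `dpt (comp S R) = dpt R * dpt S`, for all `S`, `R` -/
theorem dpt_comp (S R : (Etw A B).Point) : dpt A B (comp A B S R) = dpt A B R * dpt A B S :=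
  dpt_comp_of A B hΔ h2 RatDeg.rdeg_algHom S R

/-! ### the same statements with hypotheses on `dpt` -/

theorem comp_of_dpt_eq_zero_left {S : (Etw A B).Point} (hS : dpt A B S = 0) : comp A B S = 0 :=
  comp_of_const A B (by
    by_contra h
    exact (dpt_ne_zero_iff A B S).mpr h hS)

theorem comp_Qpt' {S : (Etw A B).Point} (hS : dpt A B S ≠ 0) :
    comp A B S (Qpt A B hΔ h2) = S :=
  comp_Qpt A B hΔ h2 ((dpt_ne_zero_iff A B S).mp hS)

include hΔ h2 in
theorem comp_assoc' {S T : (Etw A B).Point} (hS : dpt A B S ≠ 0) (hT : dpt A B T ≠ 0)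
    (R : (Etw A B).Point) : comp A B S (comp A B T R) = comp A B (comp A B S T) R :=
  comp_assoc A B hΔ h2 ((dpt_ne_zero_iff A B S).mp hS) ((dpt_ne_zero_iff A B T).mp hT) R

include hΔ h2 in
theorem comp_of_dpt_eq_zero {S Z : (Etw A B).Point} (hZ : dpt A B Z = 0) (hS : dpt A B S ≠ 0) :
    comp A B S Z = Z :=
  comp_of_const_right A B hΔ h2 ((dpt_ne_zero_iff A B S).mp hS) (by
    by_contra h
    exact (dpt_ne_zero_iff A B Z).mpr h hZ)

end Degree

section FrobDegree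

variable (ℓ : ℕ) [Fact ℓ.Prime] [DecidableEq (RatFunc (ZMod ℓ))] (A B : ZMod ℓ)
variable (hΔ : 4 * A ^ 3 + 27 * B ^ 2 ≠ 0) (h2 : (2 : ZMod ℓ) ≠ 0) (hℓ : ℓ ≠ 2)

omit [DecidableEq (RatFunc (ZMod ℓ))] in
lemma dpt_frobPt (n : ℕ) : dpt A B (frobPt ℓ A B hΔ h2 hℓ n) = ℓ ^ n := by
  rw [frobPt_eq, dpt_mkPt, rdeg_X_pow]

theorem comp_frobPt_one' {S : (Etw A B).Point} (hS : dpt A B S ≠ 0) :
    comp A B S (frobPt ℓ A B hΔ h2 hℓ 1) = comp A B (frobPt ℓ A B hΔ h2 hℓ 1) S :=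
  comp_frobPt_one ℓ A B hΔ h2 hℓ ((dpt_ne_zero_iff A B S).mp hS)

end FrobDegree

end

end Fermat.Agent.S52.Tr.Comp
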