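import Fermat.Agent.S52.Tr.Defs
import Fermat.Agent.S05.VarChange

/-!
# S52, brick (Tr), part (c) core (helper166): composition on the twisted curve

For a `k`-algebra endomorphism `σ` of `RatFunc k` and `Y ≠ 0` with `σ lam = lam * Y ^ 2`
(think `σ = (t ↦ X_S)`, `(X_S, Y) = S` a point of the twisted curve):
`compσ : Etw.Point →+ Etw.Point`, `(X', Y') ↦ (σ X', Y * σ Y')` in twisted coordinates.
Additivity is free: `mapHom` (points along a ring hom) followed by the landed
`S05.VarChange.Rel.pointHom` with `u = 1 / Y`.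
-/

set_option autoImplicit false

namespace Fermat.Agent.S52.Tr.CompCore

open Polynomial WeierstrassCurve
open Fermat.Agent.S52.Tr

noncomputable section

/-! ### Points along an injective ring hom -/

section MapHom

variable {F K : Type*} [Field F] [Field K] [DecidableEq F] [DecidableEq K]

/-- The group hom on points induced by a ring hom of fields (the curve is mapped too). -/
def mapHom (W : WeierstrassCurve.Affine F) (f : F →+* K) :
    W.Point →+ (W.map f).toAffine.Point where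
  toFun P := match P with
    | .zero => 0
    | .some x y h => .some (f x) (f y) ((W.map_nonsingular f.injective x y).mpr h)
  map_zero' := rfl
  map_add' := by
    rintro (_ | ⟨x₁, y₁, h₁⟩) (_ | ⟨x₂, y₂, h₂⟩)
    any_goals rfl
    by_cases hxy : x₁ = x₂ ∧ y₁ = W.negY x₂ y₂
    · rw [Affine.Point.add_of_Y_eq hxy.left hxy.right,
        Affine.Point.add_of_Y_eq (congr_arg _ hxy.left) (by rw [hxy.right, Affine.map_negY])]
    · simpa only [Affine.Point.add_some hxy, ← Affine.map_addX, ← Affine.map_addY,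
        ← Affine.map_slope] using
        (Affine.Point.add_some fun h ↦
          hxy ⟨f.injective h.1, f.injective (W.map_negY f .. ▸ h).2⟩).symm

@[simp] lemma mapHom_zero (W : WeierstrassCurve.Affine F) (f : F →+* K) :
    mapHom W f (0 : W.Point) = 0 := rfl

lemma mapHom_some (W : WeierstrassCurve.Affine F) (f : F →+* K) {x y : F}
    (h : W.Nonsingular x y) :
    mapHom W f (.some x y h) = .some (f x) (f y) ((W.map_nonsingular f.injective x y).mpr h) :=
  rfl

end MapHom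

/-! ### Twisted coordinates of points -/

section Coords

variable {k : Type*} [Field k] (A B : k)

lemma some_congr {F : Type*} [Field F] {W : WeierstrassCurve.Affine F} {x y x' y' : F}
    (h : W.Nonsingular x y) (h' : W.Nonsingular x' y') (hx : x = x') (hy : y = y') :
    Affine.Point.some x y h = Affine.Point.some x' y' h' := by
  subst hx hy; rfl

lemma twEq_of_nonsingular {x y : RatFunc k} (h : (Etw A B).Nonsingular x y) :
    TwEq A B (x / lam A B) (y / lam A B ^ 2) := by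
  have hl := lam_ne_zero A B
  have h2 : (Etw A B).Equation (xOf A B (x / lam A B)) (yOf A B (y / lam A B ^ 2)) := by
    have e1 : xOf A B (x / lam A B) = x := by unfold xOf; field_simp
    have e2 : yOf A B (y / lam A B ^ 2) = y := by unfold yOf; field_simp
    rw [e1, e2]; exact h.1
  exact (etw_equation_iff A B _ _).mp h2

lemma mkPt_Xc_Yc (hΔ : 4 * A ^ 3 + 27 * B ^ 2 ≠ 0) (h2 : (2 : k) ≠ 0) {x y : RatFunc k}
    (h : (Etw A B).Nonsingular x y) :
    mkPt A B hΔ h2 (x / lam A B) (y / lam A B ^ 2) (twEq_of_nonsingular A B h)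
      = Affine.Point.some x y h := by
  have hl := lam_ne_zero A B
  unfold mkPt
  apply some_congr
  · unfold xOf; field_simp
  · unfold yOf; field_simp

lemma Xc_mkPt (hΔ : 4 * A ^ 3 + 27 * B ^ 2 ≠ 0) (h2 : (2 : k) ≠ 0) {X Y : RatFunc k}
    (h : TwEq A B X Y) : Xc A B (mkPt A B hΔ h2 X Y h) = X := by
  have hl := lam_ne_zero A B
  simp only [mkPt, Xc, xOf]
  field_simp

lemma Yc_mkPt (hΔ : 4 * A ^ 3 + 27 * B ^ 2 ≠ 0) (h2 : (2 : k) ≠ 0) {X Y : RatFunc k}
    (h : TwEq A B X Y) : Yc A B (mkPt A B hΔ h2 X Y h) = Y := by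
  have hl := lam_ne_zero A B
  simp only [mkPt, Yc, yOf]
  field_simp

lemma dpt_mkPt (hΔ : 4 * A ^ 3 + 27 * B ^ 2 ≠ 0) (h2 : (2 : k) ≠ 0) {X Y : RatFunc k}
    (h : TwEq A B X Y) : dpt A B (mkPt A B hΔ h2 X Y h) = rdeg X := by
  have hl := lam_ne_zero A B
  simp only [mkPt, dpt, xOf]
  congr 1
  field_simp

lemma mkPt_ne_zero (hΔ : 4 * A ^ 3 + 27 * B ^ 2 ≠ 0) (h2 : (2 : k) ≠ 0) {X Y : RatFunc k}
    (h : TwEq A B X Y) : mkPt A B hΔ h2 X Y h ≠ 0 :=
  Affine.Point.some_ne_zero _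

lemma mkPt_congr (hΔ : 4 * A ^ 3 + 27 * B ^ 2 ≠ 0) (h2 : (2 : k) ≠ 0) {X Y X' Y' : RatFunc k}
    (h : TwEq A B X Y) (h' : TwEq A B X' Y') (hX : X = X') (hY : Y = Y') :
    mkPt A B hΔ h2 X Y h = mkPt A B hΔ h2 X' Y' h' := by
  subst hX hY; rfl

/-- every nonzero point is `mkPt` of its twisted coordinates -/
lemma exists_mkPt (hΔ : 4 * A ^ 3 + 27 * B ^ 2 ≠ 0) (h2 : (2 : k) ≠ 0) (P : (Etw A B).Point)
    (hP : P ≠ 0) : ∃ (X Y : RatFunc k) (h : TwEq A B X Y), P = mkPt A B hΔ h2 X Y h := by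
  rcases P with _ | ⟨x, y, h⟩
  · exact absurd rfl hP
  · exact ⟨_, _, twEq_of_nonsingular A B h, (mkPt_Xc_Yc A B hΔ h2 h).symm⟩

/-- if `X` is transcendental and `(X, Y)` is on the twisted curve then `Y ≠ 0` -/
lemma Y_ne_zero_of_transcendental {X Y : RatFunc k} (hX : Transcendental k X)
    (hS : TwEq A B X Y) : Y ≠ 0 := by
  rintro rfl
  apply hX
  refine ⟨cubic A B, cubic_ne_zero A B, ?_⟩
  unfold TwEq at hS
  simp only [cubic, map_add, map_mul, map_pow, Polynomial.aeval_X, Polynomial.aeval_C]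
  have : (algebraMap k (RatFunc k)) = RatFunc.C := rfl
  rw [this]
  linear_combination -hS

end Coords

/-! ### The composition hom -/

section Comp

variable {k : Type*} [Field k] [DecidableEq (RatFunc k)] (A B : k)

omit [DecidableEq (RatFunc k)] in
lemma algHom_C (σ : RatFunc k →ₐ[k] RatFunc k) (c : k) : σ (RatFunc.C c) = RatFunc.C c := by
  have := σ.commutes c
  rwa [RatFunc.algebraMap_eq_C] at this

omit [DecidableEq (RatFunc k)] in
open Fermat.Agent.S05.VarChange in
/-- `Etw` and its image under `σ` differ by the twist `u = 1 / Y`. -/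
lemma rel_σ (σ : RatFunc k →ₐ[k] RatFunc k) {Y : RatFunc k} (hY : Y ≠ 0)
    (hσ : σ (lam A B) = lam A B * Y ^ 2) :
    Rel (Etw A B) ((Etw A B).map (σ : RatFunc k →+* RatFunc k)).toAffine Y⁻¹ 0 0 0 := by
  refine ⟨inv_ne_zero hY, ?_, ?_, ?_, ?_, ?_⟩
  · simp [Etw, shortCurve, WeierstrassCurve.map]
  · simp [Etw, shortCurve, WeierstrassCurve.map]
  · simp [Etw, shortCurve, WeierstrassCurve.map]
  · simp only [Etw, shortCurve, WeierstrassCurve.map, RingHom.coe_coe, map_mul, map_pow,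
      algHom_C, hσ]
    field_simp
    ring
  · simp only [Etw, shortCurve, WeierstrassCurve.map, RingHom.coe_coe, map_mul, map_pow,
      algHom_C, hσ]
    field_simp
    ring

/-- composition with the "map" `σ` twisted by `Y`: `(X', Y') ↦ (σ X', Y * σ Y')`. -/
def compσ (σ : RatFunc k →ₐ[k] RatFunc k) {Y : RatFunc k} (hY : Y ≠ 0)
    (hσ : σ (lam A B) = lam A B * Y ^ 2) : (Etw A B).Point →+ (Etw A B).Point :=
  (rel_σ A B σ hY hσ).pointHom.comp (mapHom (Etw A B) (σ : RatFunc k →+* RatFunc k))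

omit [DecidableEq (RatFunc k)] in
lemma twEq_compσ (σ : RatFunc k →ₐ[k] RatFunc k) {Y : RatFunc k}
    (hσ : σ (lam A B) = lam A B * Y ^ 2) {X' Y' : RatFunc k} (h' : TwEq A B X' Y') :
    TwEq A B (σ X') (Y * σ Y') := by
  unfold TwEq at h' ⊢
  have e := congrArg σ h'
  simp only [map_mul, map_pow, map_add, algHom_C, hσ] at e
  linear_combination e

lemma compσ_zero (σ : RatFunc k →ₐ[k] RatFunc k) {Y : RatFunc k} (hY : Y ≠ 0)
    (hσ : σ (lam A B) = lam A B * Y ^ 2) : compσ A B σ hY hσ 0 = 0 := map_zero _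

lemma compσ_mkPt (hΔ : 4 * A ^ 3 + 27 * B ^ 2 ≠ 0) (h2 : (2 : k) ≠ 0)
    (σ : RatFunc k →ₐ[k] RatFunc k) {Y : RatFunc k} (hY : Y ≠ 0)
    (hσ : σ (lam A B) = lam A B * Y ^ 2) {X' Y' : RatFunc k} (h' : TwEq A B X' Y') :
    compσ A B σ hY hσ (mkPt A B hΔ h2 X' Y' h')
      = mkPt A B hΔ h2 (σ X') (Y * σ Y') (twEq_compσ A B σ hσ h') := by
  have hl := lam_ne_zero A B
  have e : ∀ P, (rel_σ A B σ hY hσ).pointHom P = (rel_σ A B σ hY hσ).pointMap P :=
    fun _ => rfl
  simp only [compσ, AddMonoidHom.comp_apply, mkPt, mapHom_some]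
  rw [e, Fermat.Agent.S05.VarChange.Rel.pointMap_some]
  apply some_congr
  · simp only [xOf, RingHom.coe_coe, map_mul, hσ]
    field_simp
    ring
  · simp only [yOf, RingHom.coe_coe, map_mul, map_pow, hσ]
    field_simp
    ring

/-- `dpt` of a composite, in terms of `rdeg (σ X')` -/
lemma dpt_compσ_mkPt (hΔ : 4 * A ^ 3 + 27 * B ^ 2 ≠ 0) (h2 : (2 : k) ≠ 0)
    (σ : RatFunc k →ₐ[k] RatFunc k) {Y : RatFunc k} (hY : Y ≠ 0)
    (hσ : σ (lam A B) = lam A B * Y ^ 2) {X' Y' : RatFunc k} (h' : TwEq A B X' Y') :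
    dpt A B (compσ A B σ hY hσ (mkPt A B hΔ h2 X' Y' h')) = rdeg (σ X') := by
  rw [compσ_mkPt, dpt_mkPt]

end Comp

/-! ### Points with constant `X` -/

section Const

variable {k : Type*} [Field k] (A B : k)

/-- a point of the twisted curve with constant `X`-coordinate has `Y = 0` -/
lemma Y_eq_zero_of_X_const {c : k} {Y : RatFunc k} (h : TwEq A B (RatFunc.C c) Y) : Y = 0 := by
  by_contra hY
  unfold TwEq at h
  have hl := lam_ne_zero A B
  have e : lam A B * Y ^ 2 = RatFunc.C (c ^ 3 + A * c + B) := by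
    rw [h]; simp only [map_add, map_mul, map_pow]
  have hne : lam A B * Y ^ 2 ≠ 0 := mul_ne_zero hl (pow_ne_zero _ hY)
  have h1 : RatFunc.intDegree (lam A B * Y ^ 2) = 3 + 2 * RatFunc.intDegree Y := by
    rw [RatFunc.intDegree_mul hl (pow_ne_zero _ hY), pow_two, RatFunc.intDegree_mul hY hY]
    have : RatFunc.intDegree (lam A B) = 3 := by
      unfold lam
      rw [RatFunc.intDegree_polynomial, cubic_natDegree]; rfl
    rw [this]; ring
  rw [e, RatFunc.intDegree_C] at h1
  omega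

variable [DecidableEq (RatFunc k)]

/-- a point with `Y = 0` is `2`-torsion -/
lemma mkPt_Y_zero_add_self (hΔ : 4 * A ^ 3 + 27 * B ^ 2 ≠ 0) (h2 : (2 : k) ≠ 0) {X : RatFunc k}
    (h : TwEq A B X 0) : mkPt A B hΔ h2 X 0 h + mkPt A B hΔ h2 X 0 h = 0 := by
  unfold mkPt
  apply Affine.Point.add_of_Y_eq rfl
  simp [Affine.negY, Etw, shortCurve, yOf]

end Const

end

end Fermat.Agent.S52.Tr.CompCore
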