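/-
S52, brick (Tr), part (d): MANIN COUNT — pure polynomial core (helper58).

For an odd prime `l`, `f = X^3 + A X + B` over `ZMod l` with `4A^3 + 27B^2 ≠ 0`, `h = l / 2`,
  `num s = f * (f^h + s)^2 - (X^l + X) * (X^l - X)^2`,   `den = (X^l - X)^2`,
every reduced fraction `a / b = num s / den` (`s = ±1`) has
  `natDegree a = 1 + n0 + 2 * n_s`,  `natDegree b = n0 + 2 * n_s`,
where `n0 = #{c | f(c) = 0}` and `n_s = #{c | f(c)^h = s}`.
For `s = 1` this is `#E(F_l)` (x-coordinate of `Frob - 1` applied to the generic point of the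
Manin twist), for `s = -1` it is `2l + 2 - #E(F_l)`.
-/
import Mathlib

set_option autoImplicit false

open Polynomial

namespace Fermat.Agent.S52.Tr.ManinCount

section General

variable {K : Type*} [Field K]

/-- A reduced fraction `a / b = Num / Den` with split denominator: the cancelled factor `q`
has degree `∑ min (mult_c Den) (mult_c Num)` over the roots `c` of `Den`. -/
theorem exists_cancel [DecidableEq K] {Num Den a b : K[X]} (hDen : Den ≠ 0) (hNum : Num ≠ 0)
    (hs : Den.Splits) (hab : IsCoprime a b) (h : a * Den = b * Num) :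
    ∃ q : K[X], Den = b * q ∧ Num = a * q ∧
      q.natDegree = ∑ c ∈ Den.roots.toFinset,
        min (rootMultiplicity c Den) (rootMultiplicity c Num) := by
  have hbdvd : b ∣ Den := by
    have h1 : b ∣ a * Den := ⟨Num, h⟩
    exact hab.symm.dvd_of_dvd_mul_left h1
  obtain ⟨q, hq⟩ := hbdvd
  have hb0 : b ≠ 0 := by
    rintro rfl
    exact hDen (by simpa using hq)
  have hq0 : q ≠ 0 := by
    rintro rfl
    exact hDen (by simpa using hq)
  have hNumq : Num = a * q := by
    have h2 : b * Num = b * (a * q) := by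
      rw [← h, hq]; ring
    exact mul_left_cancel₀ hb0 h2
  have ha0 : a ≠ 0 := by
    rintro rfl
    exact hNum (by simpa using hNumq)
  refine ⟨q, hq, hNumq, ?_⟩
  have hqs : q.Splits := hs.of_dvd hDen ⟨b, by rw [hq]; ring⟩
  have hsub : q.roots.toFinset ⊆ Den.roots.toFinset := by
    intro c hc
    rw [Multiset.mem_toFinset] at hc ⊢
    rw [mem_roots hDen]
    have := (mem_roots hq0).1 hc
    rw [hq]
    exact (root_mul.2 (Or.inr this))
  rw [hqs.natDegree_eq_card_roots, ← Multiset.toFinset_sum_count_eq]
  rw [Finset.sum_subset hsub (fun c _ hc => by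
    rw [Multiset.mem_toFinset] at hc
    exact Multiset.count_eq_zero_of_notMem hc)]
  refine Finset.sum_congr rfl (fun c _ => ?_)
  rw [count_roots]
  have e1 : rootMultiplicity c Den = rootMultiplicity c b + rootMultiplicity c q := by
    rw [hq]; exact rootMultiplicity_mul (mul_ne_zero hb0 hq0)
  have e2 : rootMultiplicity c Num = rootMultiplicity c a + rootMultiplicity c q := by
    rw [hNumq]; exact rootMultiplicity_mul (mul_ne_zero ha0 hq0)
  have e3 : rootMultiplicity c a = 0 ∨ rootMultiplicity c b = 0 := by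
    by_contra hcon
    rw [not_or] at hcon
    have ra : eval c a = 0 := (rootMultiplicity_pos ha0).1 (Nat.pos_of_ne_zero hcon.1)
    have rb : eval c b = 0 := (rootMultiplicity_pos hb0).1 (Nat.pos_of_ne_zero hcon.2)
    obtain ⟨u, v, huv⟩ := hab
    have := congrArg (eval c) huv
    simp only [eval_add, eval_mul, eval_one, ra, rb, mul_zero, add_zero] at this
    exact zero_ne_one this
  rw [e1, e2]
  rcases e3 with e | e <;> rw [e] <;> simp

end General

section Manin

variable (l : ℕ) [Fact l.Prime]

/-- The cubic `X^3 + A X + B`. -/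
noncomputable def cubic (A B : ZMod l) : (ZMod l)[X] := X ^ 3 + C A * X + C B

/-- Numerator of the `x`-coordinate of `Frob ∓ 1` on the generic point of the Manin twist
(`s = 1` for `Frob - 1`, `s = -1` for `Frob + 1`). -/
noncomputable def num (A B s : ZMod l) : (ZMod l)[X] :=
  cubic l A B * (cubic l A B ^ (l / 2) + C s) ^ 2 - (X ^ l + X) * (X ^ l - X) ^ 2

/-- Denominator `(X^l - X)^2`. -/
noncomputable def den : (ZMod l)[X] := (X ^ l - X) ^ 2

theorem eval_cubic (A B c : ZMod l) : (cubic l A B).eval c = c ^ 3 + A * c + B := by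
  simp [cubic]

theorem cubic_natDegree (A B : ZMod l) : (cubic l A B).natDegree = 3 := by
  unfold cubic
  compute_degree!

theorem cubic_monic (A B : ZMod l) : (cubic l A B).Monic := by
  unfold cubic
  monicity!


/-! ### The denominator -/

theorem frob_ne_zero : (X ^ l - X : (ZMod l)[X]) ≠ 0 :=
  FiniteField.X_pow_card_sub_X_ne_zero (ZMod l) (Fact.out : l.Prime).one_lt

theorem frob_natDegree : (X ^ l - X : (ZMod l)[X]).natDegree = l :=
  FiniteField.X_pow_card_sub_X_natDegree_eq (ZMod l) (Fact.out : l.Prime).one_lt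

theorem frob_roots : (X ^ l - X : (ZMod l)[X]).roots = Finset.univ.val := by
  have h := FiniteField.roots_X_pow_card_sub_X (ZMod l)
  rwa [ZMod.card] at h

theorem frob_splits : (X ^ l - X : (ZMod l)[X]).Splits := by
  rw [splits_iff_card_roots, frob_roots, frob_natDegree]
  simp [ZMod.card]

theorem frob_eval (c : ZMod l) : (X ^ l - X : (ZMod l)[X]).eval c = 0 := by
  simp [ZMod.pow_card]

theorem frob_rootMultiplicity (c : ZMod l) :
    rootMultiplicity c (X ^ l - X : (ZMod l)[X]) = 1 := by
  classical
  rw [← count_roots, frob_roots, Multiset.count_univ]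

theorem den_ne_zero : den l ≠ 0 := pow_ne_zero 2 (frob_ne_zero l)

theorem den_natDegree : (den l).natDegree = 2 * l := by
  unfold den
  rw [natDegree_pow' (by
    have := frob_ne_zero l
    exact pow_ne_zero 2 (leadingCoeff_ne_zero.2 this)), frob_natDegree]

theorem den_splits : (den l).Splits := (frob_splits l).pow 2

theorem den_rootMultiplicity (c : ZMod l) : rootMultiplicity c (den l) = 2 := by
  unfold den
  rw [pow_two, rootMultiplicity_mul (mul_ne_zero (frob_ne_zero l) (frob_ne_zero l)),
    frob_rootMultiplicity]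

theorem den_roots_toFinset [DecidableEq (ZMod l)] : (den l).roots.toFinset = Finset.univ := by
  ext c
  simp only [Multiset.mem_toFinset, Finset.mem_univ, iff_true]
  rw [mem_roots (den_ne_zero l)]
  simp [den, IsRoot.def, ZMod.pow_card]


/-! ### The numerator: degree -/

theorem cubic_pow_card (A B : ZMod l) :
    cubic l A B ^ l = X ^ (3 * l) + C A * X ^ l + C B := by
  rw [← ZMod.expand_card]
  simp only [cubic, map_add, map_mul, map_pow, expand_X, expand_C]
  ring

/-- Remainder of the numerator after removing the leading term `X^(2l+1)`. -/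
noncomputable def numRem (A B s : ZMod l) : (ZMod l)[X] :=
  X ^ (l + 2) - X ^ 3 + C A * X ^ l + C B + C (2 * s) * cubic l A B ^ (l / 2 + 1)
    + C (s ^ 2) * cubic l A B

theorem two_mul_half_add_one (hl : l ≠ 2) : 2 * (l / 2) + 1 = l := by
  have hodd : Odd l := (Fact.out : l.Prime).odd_of_ne_two hl
  obtain ⟨k, hk⟩ := hodd
  omega

theorem half_pos (hl : l ≠ 2) : 0 < l / 2 := by
  have := two_mul_half_add_one l hl
  have h2 := (Fact.out : l.Prime).two_le
  omega

theorem num_eq (hl : l ≠ 2) (A B s : ZMod l) :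
    num l A B s = X ^ (2 * l + 1) + numRem l A B s := by
  have h1 : cubic l A B * (cubic l A B ^ (l / 2) + C s) ^ 2
      = cubic l A B ^ l + C (2 * s) * cubic l A B ^ (l / 2 + 1) + C (s ^ 2) * cubic l A B := by
    have e : cubic l A B ^ l = cubic l A B ^ (2 * (l / 2) + 1) := by
      rw [two_mul_half_add_one l hl]
    rw [e]
    simp only [map_mul, map_pow, C_ofNat]
    ring
  unfold num numRem
  rw [h1, cubic_pow_card]
  ring

theorem numRem_natDegree_lt (hl : l ≠ 2) (A B s : ZMod l) :
    (numRem l A B s).natDegree < 2 * l + 1 := by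
  have hh := two_mul_half_add_one l hl
  have hp := half_pos l hl
  have b1 : (X ^ (l + 2) : (ZMod l)[X]).natDegree ≤ 2 * l := by
    rw [natDegree_X_pow]; omega
  have b2 : (X ^ 3 : (ZMod l)[X]).natDegree ≤ 2 * l := by
    rw [natDegree_X_pow]; omega
  have b3 : (C A * X ^ l : (ZMod l)[X]).natDegree ≤ 2 * l := by
    refine (natDegree_C_mul_le _ _).trans ?_
    rw [natDegree_X_pow]; omega
  have b4 : (C B : (ZMod l)[X]).natDegree ≤ 2 * l := by
    rw [natDegree_C]; omega
  have b5 : (C (2 * s) * cubic l A B ^ (l / 2 + 1) : (ZMod l)[X]).natDegree ≤ 2 * l := by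
    refine (natDegree_C_mul_le _ _).trans ?_
    refine (natDegree_pow_le).trans ?_
    rw [cubic_natDegree]; omega
  have b6 : (C (s ^ 2) * cubic l A B : (ZMod l)[X]).natDegree ≤ 2 * l := by
    refine (natDegree_C_mul_le _ _).trans ?_
    rw [cubic_natDegree]; omega
  have : (numRem l A B s).natDegree ≤ 2 * l := by
    unfold numRem
    refine (natDegree_add_le _ _).trans (max_le ?_ b6)
    refine (natDegree_add_le _ _).trans (max_le ?_ b5)
    refine (natDegree_add_le _ _).trans (max_le ?_ b4)
    refine (natDegree_add_le _ _).trans (max_le ?_ b3)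
    exact (natDegree_sub_le _ _).trans (max_le b1 b2)
  omega

theorem num_natDegree (hl : l ≠ 2) (A B s : ZMod l) :
    (num l A B s).natDegree = 2 * l + 1 := by
  rw [num_eq l hl, natDegree_add_eq_left_of_natDegree_lt]
  · exact natDegree_X_pow _
  · rw [natDegree_X_pow]; exact numRem_natDegree_lt l hl A B s

theorem num_ne_zero (hl : l ≠ 2) (A B s : ZMod l) : num l A B s ≠ 0 := by
  intro h
  have := num_natDegree l hl A B s
  rw [h, natDegree_zero] at this
  omega

theorem num_monic (hl : l ≠ 2) (A B s : ZMod l) : (num l A B s).Monic := by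
  rw [num_eq l hl]
  exact (monic_X_pow _).add_of_left (by
    rw [degree_X_pow]
    exact (degree_le_natDegree).trans_lt (by exact_mod_cast numRem_natDegree_lt l hl A B s))


/-! ### The numerator: root multiplicities at the points of `ZMod l` -/

theorem two_ne_zero' (hl : l ≠ 2) : (2 : ZMod l) ≠ 0 := by
  intro h
  have h2 : ((2 : ℕ) : ZMod l) = 0 := by exact_mod_cast h
  rw [ZMod.natCast_eq_zero_iff] at h2
  have := (Nat.prime_dvd_prime_iff_eq (Fact.out : l.Prime) Nat.prime_two).1 h2
  exact hl this

/-- If `f(c) = 0`, then `c` is a simple root of the numerator. -/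
theorem num_rootMultiplicity_of_root (hl : l ≠ 2) (A B s : ZMod l)
    (hΔ : 4 * A ^ 3 + 27 * B ^ 2 ≠ 0) (hs : s = 1 ∨ s = -1) (c : ZMod l)
    (hc : (cubic l A B).eval c = 0) : rootMultiplicity c (num l A B s) = 1 := by
  have hne := num_ne_zero l hl A B s
  have hp := half_pos l hl
  have hs2 : s ^ 2 = 1 := by rcases hs with rfl | rfl <;> ring
  have hroot : (num l A B s).IsRoot c := by
    simp [num, IsRoot.def, hc, ZMod.pow_card]
  have hc' : c ^ 3 + A * c + B = 0 := by rw [← eval_cubic]; exact hc
  have hder : ¬ (derivative (num l A B s)).IsRoot c := by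
    have e : (derivative (num l A B s)).eval c = (3 * c ^ 2 + A) * s ^ 2 := by
      have hF : c ^ l - c = 0 := by rw [ZMod.pow_card]; ring
      have hd : derivative (cubic l A B) = C 3 * X ^ 2 + C A := by
        simp only [cubic, derivative_add, derivative_X_pow, derivative_mul, derivative_C,
          derivative_X, zero_mul, zero_add, mul_one]
        norm_num
      simp only [num, derivative_sub, derivative_mul, derivative_pow, eval_sub, eval_mul,
        eval_add, eval_pow, eval_X, eval_C, hc, hd, hF]
      simp [hp.ne']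
    rw [IsRoot.def, e, hs2, mul_one]
    intro h0
    apply hΔ
    linear_combination (4 * A ^ 2 + c * (6 * A * c - 9 * B)) * h0 - 3 * (6 * A * c - 9 * B) * hc'
  have h1 : 1 ≤ rootMultiplicity c (num l A B s) := (rootMultiplicity_pos hne).2 hroot
  have h2 : ¬ 1 < rootMultiplicity c (num l A B s) := by
    rw [one_lt_rootMultiplicity_iff_isRoot hne]
    exact fun h => hder h.2
  omega

/-- If `f(c)^h = -s`, then `c` is (at least) a double root of the numerator. -/
theorem num_rootMultiplicity_of_neg (hl : l ≠ 2) (A B s : ZMod l) (c : ZMod l)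
    (hc : (cubic l A B).eval c ^ (l / 2) = -s) : 2 ≤ rootMultiplicity c (num l A B s) := by
  rw [le_rootMultiplicity_iff (num_ne_zero l hl A B s)]
  have d1 : X - C c ∣ cubic l A B ^ (l / 2) + C s := by
    rw [dvd_iff_isRoot]
    simp [IsRoot.def, hc]
  have d2 : X - C c ∣ (X ^ l - X : (ZMod l)[X]) := by
    rw [dvd_iff_isRoot]
    exact frob_eval l c
  unfold num
  exact dvd_sub (Dvd.dvd.mul_left (pow_dvd_pow_of_dvd d1 2) _)
    (Dvd.dvd.mul_left (pow_dvd_pow_of_dvd d2 2) _)

/-- If `f(c)^h = s`, then `c` is not a root of the numerator. -/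
theorem num_rootMultiplicity_of_pos (hl : l ≠ 2) (A B s : ZMod l) (hs : s = 1 ∨ s = -1)
    (c : ZMod l) (hc : (cubic l A B).eval c ^ (l / 2) = s) :
    rootMultiplicity c (num l A B s) = 0 := by
  apply rootMultiplicity_eq_zero
  have hs2 : s ^ 2 = 1 := by rcases hs with rfl | rfl <;> ring
  have hs0 : s ≠ 0 := by
    intro h; rw [h] at hs2; simp at hs2
  have hf0 : (cubic l A B).eval c ≠ 0 := by
    intro h0
    rw [h0, zero_pow (half_pos l hl).ne'] at hc
    exact hs0 hc.symm
  have e : (num l A B s).eval c = 4 * (cubic l A B).eval c := by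
    simp only [num, eval_sub, eval_mul, eval_add, eval_pow, eval_X, eval_C, hc, ZMod.pow_card]
    linear_combination 4 * (cubic l A B).eval c * hs2
  rw [IsRoot.def, e]
  have h4 : (4 : ZMod l) ≠ 0 := by
    have := two_ne_zero' l hl
    have h22 : (4 : ZMod l) = 2 * 2 := by norm_num
    rw [h22]
    exact mul_ne_zero this this
  exact mul_ne_zero h4 hf0


/-! ### The count -/

/-- Number of roots of the cubic in `ZMod l`. -/
noncomputable def n0 (A B : ZMod l) : ℕ :=
  (Finset.univ.filter (fun c : ZMod l => (cubic l A B).eval c = 0)).card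

/-- Number of `c : ZMod l` with `f(c)^(l/2) = s`. -/
noncomputable def nS (A B s : ZMod l) : ℕ :=
  (Finset.univ.filter (fun c : ZMod l => (cubic l A B).eval c ^ (l / 2) = s)).card

theorem one_ne_neg_one (hl : l ≠ 2) : (1 : ZMod l) ≠ -1 := by
  intro h
  have : (2 : ZMod l) = 0 := by linear_combination h
  exact two_ne_zero' l hl this

theorem trichotomy (hl : l ≠ 2) (A B s : ZMod l) (hs : s = 1 ∨ s = -1) (c : ZMod l) :
    ((if (cubic l A B).eval c = 0 then 1 else 0)
      + (if (cubic l A B).eval c ^ (l / 2) = s then 1 else 0)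
      + (if (cubic l A B).eval c ^ (l / 2) = -s then 1 else 0) : ℕ) = 1 := by
  have hp := half_pos l hl
  have h11 := one_ne_neg_one l hl
  by_cases h0 : (cubic l A B).eval c = 0
  · have hs0 : s ≠ 0 := by rcases hs with rfl | rfl <;> simp
    simp [h0, zero_pow hp.ne', hs0, Ne.symm hs0]
  · rcases ZMod.pow_div_two_eq_neg_one_or_one l h0 with h | h <;>
      rcases hs with rfl | rfl <;> simp [h0, h, h11, Ne.symm h11]

theorem card_partition (hl : l ≠ 2) (A B s : ZMod l) (hs : s = 1 ∨ s = -1) :
    n0 l A B + nS l A B s + nS l A B (-s) = l := by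
  classical
  have h := Finset.sum_congr (rfl : (Finset.univ : Finset (ZMod l)) = Finset.univ)
    (fun c _ => trichotomy l hl A B s hs c)
  rw [Finset.sum_add_distrib, Finset.sum_add_distrib] at h
  simp only [Finset.sum_boole, Nat.cast_id, Finset.sum_const, smul_eq_mul, mul_one,
    Finset.card_univ, ZMod.card] at h
  unfold n0 nS
  convert h using 3

theorem sum_min (hl : l ≠ 2) (A B s : ZMod l) (hΔ : 4 * A ^ 3 + 27 * B ^ 2 ≠ 0)
    (hs : s = 1 ∨ s = -1) :
    ∑ c : ZMod l, min (rootMultiplicity c (den l)) (rootMultiplicity c (num l A B s))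
      = n0 l A B + 2 * nS l A B (-s) := by
  classical
  have hp := half_pos l hl
  have h11 := one_ne_neg_one l hl
  have key : ∀ c : ZMod l,
      min (rootMultiplicity c (den l)) (rootMultiplicity c (num l A B s))
        = (if (cubic l A B).eval c = 0 then 1 else 0)
          + 2 * (if (cubic l A B).eval c ^ (l / 2) = -s then 1 else 0) := by
    intro c
    rw [den_rootMultiplicity]
    have hs0 : s ≠ 0 := by rcases hs with rfl | rfl <;> simp
    by_cases h0 : (cubic l A B).eval c = 0
    · rw [num_rootMultiplicity_of_root l hl A B s hΔ hs c h0]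
      simp [h0, zero_pow hp.ne', hs0]
    · by_cases h1 : (cubic l A B).eval c ^ (l / 2) = -s
      · have := num_rootMultiplicity_of_neg l hl A B s c h1
        simp [h0, h1, this]
      · have h2 : (cubic l A B).eval c ^ (l / 2) = s := by
          rcases ZMod.pow_div_two_eq_neg_one_or_one l h0 with h | h <;>
            rcases hs with rfl | rfl <;> simp_all
        rw [num_rootMultiplicity_of_pos l hl A B s hs c h2]
        simp [h0, h1]
  rw [Finset.sum_congr rfl (fun c _ => key c), Finset.sum_add_distrib, ← Finset.mul_sum]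
  simp only [Finset.sum_boole, Nat.cast_id]
  rfl

/-- **Manin count** (polynomial core).  Any reduced fraction `a / b` equal to `num s / den` has
`natDegree a = 1 + n0 + 2 * n_s` and `natDegree b = n0 + 2 * n_s`. -/
theorem natDegree_of_reduced (hl : l ≠ 2) (A B s : ZMod l) (hΔ : 4 * A ^ 3 + 27 * B ^ 2 ≠ 0)
    (hs : s = 1 ∨ s = -1) (a b : (ZMod l)[X]) (hab : IsCoprime a b)
    (h : a * den l = b * num l A B s) :
    a.natDegree = 1 + n0 l A B + 2 * nS l A B s ∧ b.natDegree = n0 l A B + 2 * nS l A B s := by
  classical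
  obtain ⟨q, hq1, hq2, hq3⟩ := exists_cancel (den_ne_zero l) (num_ne_zero l hl A B s)
    (den_splits l) hab h
  rw [den_roots_toFinset, sum_min l hl A B s hΔ hs] at hq3
  have hpart := card_partition l hl A B s hs
  have hq0 : q ≠ 0 := by
    rintro rfl
    exact den_ne_zero l (by simpa using hq1)
  have hb0 : b ≠ 0 := by
    rintro rfl
    exact den_ne_zero l (by simpa using hq1)
  have ha0 : a ≠ 0 := by
    rintro rfl
    exact num_ne_zero l hl A B s (by simpa using hq2)
  have e1 := congrArg natDegree hq1
  have e2 := congrArg natDegree hq2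
  rw [natDegree_mul hb0 hq0, den_natDegree] at e1
  rw [natDegree_mul ha0 hq0, num_natDegree l hl] at e2
  constructor <;> omega

/-- **Manin count**, height form: `max (natDegree a) (natDegree b) = 1 + n0 + 2 * n_s`. -/
theorem height_of_reduced (hl : l ≠ 2) (A B s : ZMod l) (hΔ : 4 * A ^ 3 + 27 * B ^ 2 ≠ 0)
    (hs : s = 1 ∨ s = -1) (a b : (ZMod l)[X]) (hab : IsCoprime a b)
    (h : a * den l = b * num l A B s) :
    max a.natDegree b.natDegree = 1 + n0 l A B + 2 * nS l A B s := by
  obtain ⟨h1, h2⟩ := natDegree_of_reduced l hl A B s hΔ hs a b hab h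
  rw [h1, h2]
  omega

/-- The two heights add up to `2 l + 2`. -/
theorem height_add_height (hl : l ≠ 2) (A B : ZMod l) :
    (1 + n0 l A B + 2 * nS l A B 1) + (1 + n0 l A B + 2 * nS l A B (-1)) = 2 * l + 2 := by
  have := card_partition l hl A B 1 (Or.inl rfl)
  omega


/-! ### `RatFunc` form -/

/-- **Manin count**, `RatFunc` form: a rational function `r` with `r * den = num s` has height
`max r.num.natDegree r.denom.natDegree = 1 + n0 + 2 * n_s`. -/
theorem ratFunc_height (hl : l ≠ 2) (A B s : ZMod l) (hΔ : 4 * A ^ 3 + 27 * B ^ 2 ≠ 0)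
    (hs : s = 1 ∨ s = -1) (r : RatFunc (ZMod l))
    (hr : r * algebraMap (ZMod l)[X] (RatFunc (ZMod l)) (den l)
      = algebraMap (ZMod l)[X] (RatFunc (ZMod l)) (num l A B s)) :
    max r.num.natDegree r.denom.natDegree = 1 + n0 l A B + 2 * nS l A B s := by
  apply height_of_reduced l hl A B s hΔ hs _ _ (RatFunc.isCoprime_num_denom r)
  have hd : algebraMap (ZMod l)[X] (RatFunc (ZMod l)) r.denom ≠ 0 := by
    rw [Ne, map_eq_zero_iff _ (RatFunc.algebraMap_injective (ZMod l))]
    exact RatFunc.denom_ne_zero r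
  have hnd : algebraMap (ZMod l)[X] (RatFunc (ZMod l)) r.num
      = r * algebraMap (ZMod l)[X] (RatFunc (ZMod l)) r.denom :=
    (div_eq_iff hd).1 (RatFunc.num_div_denom r)
  apply RatFunc.algebraMap_injective (ZMod l)
  rw [map_mul, map_mul, ← hr, hnd]
  ring

end Manin

end Fermat.Agent.S52.Tr.ManinCount
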