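/-
S52, brick (Tr), part (d): MANIN COUNT in the frozen interface of `Tr/Defs.lean` (helper58).

For `ℓ` an odd prime, `A B : ZMod ℓ`, `4A^3 + 27B^2 ≠ 0`, with `P1 := frobPt ℓ A B hΔ h2 hℓ 1`,
`Q := Qpt A B hΔ h2`, `N := Nat.card (shortCurve A B).Point`:
  `dpt A B (P1 - Q) = N`,     `dpt A B (P1 + Q) + N = 2 ℓ + 2`.
-/
import Fermat.Agent.S52.Tr.Defs
import Fermat.Agent.S52.Tr.ManinCount
import Fermat.Agent.S52.Tr.PointCount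

set_option autoImplicit false

open Polynomial

namespace Fermat.Agent.S52.Tr.ManinFrozen

open WeierstrassCurve Fermat.Agent.S52.Tr

section

variable (ℓ : ℕ) [Fact ℓ.Prime] (A B : ZMod ℓ)

theorem cubic_eq : ManinCount.cubic ℓ A B = Tr.cubic A B := rfl

theorem frobX_ne_zero : (RatFunc.X ^ ℓ - RatFunc.X : RatFunc (ZMod ℓ)) ≠ 0 := by
  have h : (RatFunc.X ^ ℓ - RatFunc.X : RatFunc (ZMod ℓ))
      = algebraMap (ZMod ℓ)[X] (RatFunc (ZMod ℓ)) (X ^ ℓ - X) := by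
    simp [RatFunc.algebraMap_X]
  rw [h, Ne, map_eq_zero_iff _ (RatFunc.algebraMap_injective (ZMod ℓ))]
  exact ManinCount.frob_ne_zero ℓ

theorem algebraMap_den : algebraMap (ZMod ℓ)[X] (RatFunc (ZMod ℓ)) (ManinCount.den ℓ)
    = (RatFunc.X ^ ℓ - RatFunc.X) ^ 2 := by
  simp [ManinCount.den, RatFunc.algebraMap_X]

theorem algebraMap_num (s : ZMod ℓ) :
    algebraMap (ZMod ℓ)[X] (RatFunc (ZMod ℓ)) (ManinCount.num ℓ A B s)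
      = lam A B * (lam A B ^ (ℓ / 2) + RatFunc.C s) ^ 2
        - (RatFunc.X ^ ℓ + RatFunc.X) * (RatFunc.X ^ ℓ - RatFunc.X) ^ 2 := by
  simp [ManinCount.num, cubic_eq, lam, RatFunc.algebraMap_X, RatFunc.algebraMap_C]

theorem half_eq (hℓ : ℓ ≠ 2) : (ℓ - 1) / 2 = ℓ / 2 := by
  have := ManinCount.two_mul_half_add_one ℓ hℓ
  omega

theorem dpt_some {x y : RatFunc (ZMod ℓ)} (h : (Etw A B).Nonsingular x y) :
    dpt A B (.some x y h) = max (x / lam A B).num.natDegree (x / lam A B).denom.natDegree := rfl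

theorem x_ne : xOf A B (RatFunc.X ^ ℓ ^ 1) ≠ xOf A B RatFunc.X := by
  intro h
  rw [pow_one] at h
  have := mul_left_cancel₀ (lam_ne_zero A B) h
  exact frobX_ne_zero ℓ (sub_eq_zero.2 this)

variable [DecidableEq (RatFunc (ZMod ℓ))]

/-- `x`-coordinate of `P1 - Q`: `(x / lam) * den = num 1`. -/
theorem frob_sub_Q (hΔ : 4 * A ^ 3 + 27 * B ^ 2 ≠ 0) (h2 : (2 : ZMod ℓ) ≠ 0) (hℓ : ℓ ≠ 2) :
    ∃ (x y : RatFunc (ZMod ℓ)) (h : (Etw A B).Nonsingular x y),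
      frobPt ℓ A B hΔ h2 hℓ 1 - Qpt A B hΔ h2 = .some x y h ∧
      x / lam A B * algebraMap (ZMod ℓ)[X] (RatFunc (ZMod ℓ)) (ManinCount.den ℓ)
        = algebraMap (ZMod ℓ)[X] (RatFunc (ZMod ℓ)) (ManinCount.num ℓ A B 1) := by
  have hx := x_ne ℓ A B
  have hlam := lam_ne_zero A B
  have hF := frobX_ne_zero ℓ
  have hsub : xOf A B (RatFunc.X ^ ℓ ^ 1) - xOf A B RatFunc.X ≠ 0 := sub_ne_zero.2 hx
  rw [sub_eq_add_neg]
  unfold frobPt Qpt mkPt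
  rw [Affine.Point.neg_some, Affine.Point.add_of_X_ne hx]
  refine ⟨_, _, _, rfl, ?_⟩
  rw [Affine.slope_of_X_ne hx, algebraMap_den, algebraMap_num]
  simp only [xOf, yOf, pow_one] at hsub ⊢
  rw [half_eq ℓ hℓ]
  simp only [Affine.addX, Affine.negY, Etw, shortCurve, map_one]
  field_simp
  ring

/-- `x`-coordinate of `P1 + Q`: `(x / lam) * den = num (-1)`. -/
theorem frob_add_Q (hΔ : 4 * A ^ 3 + 27 * B ^ 2 ≠ 0) (h2 : (2 : ZMod ℓ) ≠ 0) (hℓ : ℓ ≠ 2) :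
    ∃ (x y : RatFunc (ZMod ℓ)) (h : (Etw A B).Nonsingular x y),
      frobPt ℓ A B hΔ h2 hℓ 1 + Qpt A B hΔ h2 = .some x y h ∧
      x / lam A B * algebraMap (ZMod ℓ)[X] (RatFunc (ZMod ℓ)) (ManinCount.den ℓ)
        = algebraMap (ZMod ℓ)[X] (RatFunc (ZMod ℓ)) (ManinCount.num ℓ A B (-1)) := by
  have hx := x_ne ℓ A B
  have hlam := lam_ne_zero A B
  have hF := frobX_ne_zero ℓ
  have hsub : xOf A B (RatFunc.X ^ ℓ ^ 1) - xOf A B RatFunc.X ≠ 0 := sub_ne_zero.2 hx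
  unfold frobPt Qpt mkPt
  rw [Affine.Point.add_of_X_ne hx]
  refine ⟨_, _, _, rfl, ?_⟩
  rw [Affine.slope_of_X_ne hx, algebraMap_den, algebraMap_num]
  simp only [xOf, yOf, pow_one] at hsub ⊢
  rw [half_eq ℓ hℓ]
  simp only [Affine.addX, Etw, shortCurve, map_neg, map_one]
  field_simp
  ring

/-- **Manin count**, frozen interface: `dpt (P1 - Q) = #E(F_ℓ)`. -/
theorem dpt_frob_sub_Q (hΔ : 4 * A ^ 3 + 27 * B ^ 2 ≠ 0) (h2 : (2 : ZMod ℓ) ≠ 0) (hℓ : ℓ ≠ 2) :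
    dpt A B (frobPt ℓ A B hΔ h2 hℓ 1 - Qpt A B hΔ h2)
      = Nat.card (shortCurve A B : WeierstrassCurve.Affine (ZMod ℓ)).Point := by
  obtain ⟨x, y, h, e, hx⟩ := frob_sub_Q ℓ A B hΔ h2 hℓ
  rw [e, dpt_some, ManinCount.ratFunc_height ℓ hℓ A B 1 hΔ (Or.inl rfl) _ hx]
  exact (ManinCount.card_point ℓ A B hℓ hΔ).symm

/-- **Manin count**, frozen interface: `dpt (P1 + Q) + #E(F_ℓ) = 2 ℓ + 2`. -/
theorem dpt_frob_add_Q (hΔ : 4 * A ^ 3 + 27 * B ^ 2 ≠ 0) (h2 : (2 : ZMod ℓ) ≠ 0) (hℓ : ℓ ≠ 2) :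
    dpt A B (frobPt ℓ A B hΔ h2 hℓ 1 + Qpt A B hΔ h2)
      + Nat.card (shortCurve A B : WeierstrassCurve.Affine (ZMod ℓ)).Point = 2 * ℓ + 2 := by
  obtain ⟨x, y, h, e, hx⟩ := frob_add_Q ℓ A B hΔ h2 hℓ
  rw [e, dpt_some, ManinCount.ratFunc_height ℓ hℓ A B (-1) hΔ (Or.inr rfl) _ hx]
  have h1 := ManinCount.card_point ℓ A B hℓ hΔ
  have h3 := ManinCount.height_add_height ℓ hℓ A B
  have h4 : Nat.card (shortCurve A B : WeierstrassCurve.Affine (ZMod ℓ)).Point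
      = 1 + ManinCount.n0 ℓ A B + 2 * ManinCount.nS ℓ A B 1 := h1
  rw [h4]
  omega

/-- `ℤ`-valued form for `Gram.frob_relation` (`hminus`). -/
theorem dpt_frob_sub_Q_int (hΔ : 4 * A ^ 3 + 27 * B ^ 2 ≠ 0) (h2 : (2 : ZMod ℓ) ≠ 0)
    (hℓ : ℓ ≠ 2) :
    (dpt A B (frobPt ℓ A B hΔ h2 hℓ 1 - Qpt A B hΔ h2) : ℤ)
      = (Nat.card (shortCurve A B : WeierstrassCurve.Affine (ZMod ℓ)).Point : ℤ) := by
  rw [dpt_frob_sub_Q ℓ A B hΔ h2 hℓ]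

/-- `ℤ`-valued form for `Gram.frob_relation` (`hplus`). -/
theorem dpt_frob_add_Q_int (hΔ : 4 * A ^ 3 + 27 * B ^ 2 ≠ 0) (h2 : (2 : ZMod ℓ) ≠ 0)
    (hℓ : ℓ ≠ 2) :
    (dpt A B (frobPt ℓ A B hΔ h2 hℓ 1 + Qpt A B hΔ h2) : ℤ)
      = 2 * (ℓ : ℤ) + 2
        - (Nat.card (shortCurve A B : WeierstrassCurve.Affine (ZMod ℓ)).Point : ℤ) := by
  have h := dpt_frob_add_Q ℓ A B hΔ h2 hℓ
  have h' : ((dpt A B (frobPt ℓ A B hΔ h2 hℓ 1 + Qpt A B hΔ h2)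
      + Nat.card (shortCurve A B : WeierstrassCurve.Affine (ZMod ℓ)).Point : ℕ) : ℤ)
        = ((2 * ℓ + 2 : ℕ) : ℤ) := by rw [h]
  push_cast at h'
  linarith

omit [DecidableEq (RatFunc (ZMod ℓ))] in
/-- `#E(F_ℓ) ≠ 2 ℓ + 2` (`hN'` of `Gram.frob_relation`): in fact `#E(F_ℓ) ≤ 2 ℓ + 1`. -/
theorem card_lt (hΔ : 4 * A ^ 3 + 27 * B ^ 2 ≠ 0) (hℓ : ℓ ≠ 2) :
    Nat.card (shortCurve A B : WeierstrassCurve.Affine (ZMod ℓ)).Point < 2 * ℓ + 2 := by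
  have h1 : Nat.card (shortCurve A B : WeierstrassCurve.Affine (ZMod ℓ)).Point
      = 1 + ManinCount.n0 ℓ A B + 2 * ManinCount.nS ℓ A B 1 := ManinCount.card_point ℓ A B hℓ hΔ
  have h3 := ManinCount.height_add_height ℓ hℓ A B
  omega

omit [DecidableEq (RatFunc (ZMod ℓ))] in
theorem card_ne_int (hΔ : 4 * A ^ 3 + 27 * B ^ 2 ≠ 0) (hℓ : ℓ ≠ 2) :
    (Nat.card (shortCurve A B : WeierstrassCurve.Affine (ZMod ℓ)).Point : ℤ) ≠ 2 * (ℓ : ℤ) + 2 := by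
  have h := card_lt ℓ A B hΔ hℓ
  intro h'
  have : (Nat.card (shortCurve A B : WeierstrassCurve.Affine (ZMod ℓ)).Point : ℤ)
      < ((2 * ℓ + 2 : ℕ) : ℤ) := by exact_mod_cast h
  push_cast at this
  linarith

end

end Fermat.Agent.S52.Tr.ManinFrozen
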