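import Mathlib
import Fermat.Agent.S52.Tr.Defs

set_option autoImplicit false

/-!
# Heights of pairs of polynomials and the parallelogram law (brick (Tr)(a), polynomial core)

Pure `k[X]`-algebra: if `(a₃ : b₃)`, `(a₄ : b₄)` are "sum and difference" of `(a₁ : b₁)`,
`(a₂ : b₂)` in the sense that `(b₃ b₄ : a₃ b₄ + a₄ b₃ : a₃ a₄)` is proportional to the classical
biquadratic forms `(G₀ : G₁ : G₂)` of the curve `y² = x³ + A x + B`, then
`hd a₃ b₃ + hd a₄ b₄ = 2 hd a₁ b₁ + 2 hd a₂ b₂`, where `hd a b = max (deg a) (deg b)` is the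
height of `Fermat.Agent.S52.Tr` (file `Defs.lean`).
-/

namespace Fermat.Agent.S52.Tr.PolyHeight

open Polynomial

section Forms

variable {R : Type*} [CommRing R]

/-- `(x₁ - x₂)²` homogenised. -/
def G0 (a1 b1 a2 b2 : R) : R := (a1 * b2 - a2 * b1) ^ 2

/-- `2 (x₁ x₂ + A)(x₁ + x₂) + 4 B` homogenised. -/
def G1 (A B a1 b1 a2 b2 : R) : R :=
  2 * (a1 * a2 + A * b1 * b2) * (a1 * b2 + a2 * b1) + 4 * B * b1 ^ 2 * b2 ^ 2

/-- `(x₁ x₂ - A)² - 4 B (x₁ + x₂)` homogenised. -/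
def G2 (A B a1 b1 a2 b2 : R) : R :=
  (a1 * a2 - A * b1 * b2) ^ 2 - 4 * B * b1 * b2 * (a1 * b2 + a2 * b1)

/-- Denominator of `x₃ x₄`, `x₃ + x₄`. -/
def H0 (a3 b3 a4 b4 : R) : R := b3 * b4

/-- Numerator of `x₃ + x₄`. -/
def H1 (a3 b3 a4 b4 : R) : R := a3 * b4 + a4 * b3

/-- Numerator of `x₃ x₄`. -/
def H2 (a3 b3 a4 b4 : R) : R := a3 * a4

variable {S : Type*} [CommRing S] (φ : R →+* S)

theorem map_G0 (a1 b1 a2 b2 : R) : φ (G0 a1 b1 a2 b2) = G0 (φ a1) (φ b1) (φ a2) (φ b2) := by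
  simp [G0]

theorem map_G1 (A B a1 b1 a2 b2 : R) :
    φ (G1 A B a1 b1 a2 b2) = G1 (φ A) (φ B) (φ a1) (φ b1) (φ a2) (φ b2) := by
  simp [G1, map_ofNat]

theorem map_G2 (A B a1 b1 a2 b2 : R) :
    φ (G2 A B a1 b1 a2 b2) = G2 (φ A) (φ B) (φ a1) (φ b1) (φ a2) (φ b2) := by
  simp [G2, map_ofNat]

theorem map_H0 (a3 b3 a4 b4 : R) : φ (H0 a3 b3 a4 b4) = H0 (φ a3) (φ b3) (φ a4) (φ b4) := by
  simp [H0]

theorem map_H1 (a3 b3 a4 b4 : R) : φ (H1 a3 b3 a4 b4) = H1 (φ a3) (φ b3) (φ a4) (φ b4) := by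
  simp [H1]

theorem map_H2 (a3 b3 a4 b4 : R) : φ (H2 a3 b3 a4 b4) = H2 (φ a3) (φ b3) (φ a4) (φ b4) := by
  simp [H2]

end Forms

section NoCommonZero

variable {L : Type*} [Field L]

/-- The forms `G₀, G₁, G₂` have no common zero on `ℙ¹ × ℙ¹` when the curve is nonsingular. -/
theorem G_no_common_zero (A B : L) (h2 : (2 : L) ≠ 0) (hdisc : 4 * A ^ 3 + 27 * B ^ 2 ≠ 0)
    (a1 b1 a2 b2 : L) (h1 : ¬ (a1 = 0 ∧ b1 = 0)) (h2' : ¬ (a2 = 0 ∧ b2 = 0)) :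
    ¬ (G0 a1 b1 a2 b2 = 0 ∧ G1 A B a1 b1 a2 b2 = 0 ∧ G2 A B a1 b1 a2 b2 = 0) := by
  rintro ⟨e0, e1, e2⟩
  have e0' : a1 * b2 = a2 * b1 := by
    have : a1 * b2 - a2 * b1 = 0 := by
      simpa [G0] using e0
    linear_combination this
  by_cases hb1 : b1 = 0
  · have ha1 : a1 ≠ 0 := fun h => h1 ⟨h, hb1⟩
    have hb2 : b2 = 0 := by
      rw [hb1, mul_zero] at e0'
      rcases mul_eq_zero.mp e0' with h | h
      · exact absurd h ha1
      · exact h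
    have ha2 : a2 ≠ 0 := fun h => h2' ⟨h, hb2⟩
    rw [G2, hb1, hb2] at e2
    have : (a1 * a2) ^ 2 = 0 := by linear_combination e2
    exact mul_ne_zero ha1 ha2 (pow_eq_zero_iff (two_ne_zero) |>.mp this)
  · have hb2 : b2 ≠ 0 := by
      intro hb2
      rw [hb2, mul_zero] at e0'
      rcases mul_eq_zero.mp e0'.symm with h | h
      · exact h2' ⟨h, hb2⟩
      · exact hb1 h
    set x := a1 / b1 with hx
    have ea1 : a1 = x * b1 := by rw [hx]; field_simp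
    have ea2 : a2 = x * b2 := by
      have : a2 * b1 = x * b1 * b2 := by rw [← ea1]; linear_combination -e0'
      have h3 : (a2 - x * b2) * b1 = 0 := by linear_combination this
      rcases mul_eq_zero.mp h3 with h | h
      · linear_combination h
      · exact absurd h hb1
    have hbb : b1 ^ 2 * b2 ^ 2 ≠ 0 := mul_ne_zero (pow_ne_zero _ hb1) (pow_ne_zero _ hb2)
    have h4 : (4 : L) ≠ 0 := by
      have : (4 : L) = 2 * 2 := by norm_num
      rw [this]; exact mul_ne_zero h2 h2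
    have f0 : x ^ 3 + A * x + B = 0 := by
      have : 4 * (b1 ^ 2 * b2 ^ 2) * (x ^ 3 + A * x + B) = 0 := by
        rw [G1, ea1, ea2] at e1
        linear_combination e1
      rcases mul_eq_zero.mp this with h | h
      · exact absurd h (mul_ne_zero h4 hbb)
      · exact h
    have f1 : (x ^ 2 - A) ^ 2 - 8 * B * x = 0 := by
      have : (b1 ^ 2 * b2 ^ 2) * ((x ^ 2 - A) ^ 2 - 8 * B * x) = 0 := by
        rw [G2, ea1, ea2] at e2
        linear_combination e2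
      rcases mul_eq_zero.mp this with h | h
      · exact absurd h hbb
      · exact h
    have f2 : 3 * x ^ 2 + A = 0 := by
      have : (3 * x ^ 2 + A) ^ 2 = 0 := by linear_combination f1 + 8 * x * f0
      exact pow_eq_zero_iff (two_ne_zero) |>.mp this
    apply hdisc
    linear_combination (27 * (B - x ^ 3 - A * x)) * f0 + (9 * x ^ 4 + 15 * A * x ^ 2 + 4 * A ^ 2) * f2

/-- The forms `H₀, H₁, H₂` have no common zero on `ℙ¹ × ℙ¹`. -/
theorem H_no_common_zero (a3 b3 a4 b4 : L) (h3 : ¬ (a3 = 0 ∧ b3 = 0)) (h4 : ¬ (a4 = 0 ∧ b4 = 0)) :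
    ¬ (H0 a3 b3 a4 b4 = 0 ∧ H1 a3 b3 a4 b4 = 0 ∧ H2 a3 b3 a4 b4 = 0) := by
  rintro ⟨e0, e1, e2⟩
  simp only [H0, H1, H2] at e0 e1 e2
  rcases mul_eq_zero.mp e0 with hb3 | hb4
  · have ha3 : a3 ≠ 0 := fun h => h3 ⟨h, hb3⟩
    have ha4 : a4 = 0 := by
      rcases mul_eq_zero.mp e2 with h | h
      · exact absurd h ha3
      · exact h
    have hb4 : b4 ≠ 0 := fun h => h4 ⟨ha4, h⟩
    rw [hb3, ha4] at e1
    simp only [mul_zero, add_zero, mul_eq_zero] at e1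
    rcases e1 with h | h
    · exact ha3 h
    · exact hb4 h
  · have ha4 : a4 ≠ 0 := fun h => h4 ⟨h, hb4⟩
    have ha3 : a3 = 0 := by
      rcases mul_eq_zero.mp e2 with h | h
      · exact h
      · exact absurd h ha4
    have hb3 : b3 ≠ 0 := fun h => h3 ⟨ha3, h⟩
    rw [hb4, ha3] at e1
    simp only [mul_zero, zero_add, mul_eq_zero] at e1
    rcases e1 with h | h
    · exact ha4 h
    · exact hb3 h

end NoCommonZero

section Top

variable {k : Type*} [Field k]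

/-- `p` has degree at most `n` and `n`-th coefficient `c`. -/
def Top (p : k[X]) (n : ℕ) (c : k) : Prop := p.natDegree ≤ n ∧ p.coeff n = c

theorem Top.mul {p q : k[X]} {n m : ℕ} {c e : k} (hp : Top p n c) (hq : Top q m e) :
    Top (p * q) (n + m) (c * e) := by
  refine ⟨natDegree_mul_le_of_le hp.1 hq.1, ?_⟩
  rw [coeff_mul_add_eq_of_natDegree_le hp.1 hq.1, hp.2, hq.2]

theorem Top.add {p q : k[X]} {n : ℕ} {c e : k} (hp : Top p n c) (hq : Top q n e) :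
    Top (p + q) n (c + e) := by
  refine ⟨natDegree_add_le_of_degree_le hp.1 hq.1, ?_⟩
  rw [coeff_add, hp.2, hq.2]

theorem Top.neg {p : k[X]} {n : ℕ} {c : k} (hp : Top p n c) : Top (-p) n (-c) := by
  refine ⟨by rw [natDegree_neg]; exact hp.1, ?_⟩
  rw [coeff_neg, hp.2]

theorem Top.sub {p q : k[X]} {n : ℕ} {c e : k} (hp : Top p n c) (hq : Top q n e) :
    Top (p - q) n (c - e) := by
  rw [sub_eq_add_neg, sub_eq_add_neg]
  exact hp.add hq.neg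

theorem Top.const_mul {p : k[X]} {n : ℕ} {c : k} (r : k) (hp : Top p n c) :
    Top (C r * p) n (r * c) := by
  refine ⟨(natDegree_C_mul_le r p).trans hp.1, ?_⟩
  rw [coeff_C_mul, hp.2]

theorem Top.congr {p q : k[X]} {n m : ℕ} {c e : k} (hp : Top p n c) (hpq : p = q) (hnm : n = m)
    (hce : c = e) : Top q m e := by
  subst hpq hnm hce
  exact hp

theorem top_left (a b : k[X]) : Top a (hd a b) (a.coeff (hd a b)) :=
  ⟨le_max_left _ _, rfl⟩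

theorem top_right (a b : k[X]) : Top b (hd a b) (b.coeff (hd a b)) :=
  ⟨le_max_right _ _, rfl⟩

theorem lead_ne_zero {a b : k[X]} (h : IsCoprime a b) :
    ¬ (a.coeff (hd a b) = 0 ∧ b.coeff (hd a b) = 0) := by
  rintro ⟨ha, hb⟩
  have hne : ¬ (a = 0 ∧ b = 0) := by
    rintro ⟨rfl, rfl⟩
    exact not_isCoprime_zero_zero h
  unfold hd at ha hb
  rcases le_total a.natDegree b.natDegree with hle | hle
  · rw [max_eq_right hle] at ha hb
    have hb0 : b = 0 := leadingCoeff_eq_zero.mp hb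
    rw [hb0, natDegree_zero] at hle
    have ha' : a.natDegree = 0 := Nat.le_zero.mp hle
    rw [hb0, natDegree_zero, ← ha'] at ha
    exact hne ⟨leadingCoeff_eq_zero.mp ha, hb0⟩
  · rw [max_eq_left hle] at ha hb
    have ha0 : a = 0 := leadingCoeff_eq_zero.mp ha
    rw [ha0, natDegree_zero] at hle
    have hb' : b.natDegree = 0 := Nat.le_zero.mp hle
    rw [ha0, natDegree_zero, ← hb'] at hb
    exact hne ⟨ha0, leadingCoeff_eq_zero.mp hb⟩

variable (A B : k) (a1 b1 a2 b2 : k[X])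

theorem top_G0 : Top (G0 a1 b1 a2 b2) (2 * hd a1 b1 + 2 * hd a2 b2)
    (G0 (a1.coeff (hd a1 b1)) (b1.coeff (hd a1 b1)) (a2.coeff (hd a2 b2))
      (b2.coeff (hd a2 b2))) := by
  have ta1 := top_left a1 b1
  have tb1 := top_right a1 b1
  have ta2 := top_left a2 b2
  have tb2 := top_right a2 b2
  have h1 := (ta1.mul tb2).sub ((ta2.mul tb1).congr rfl (add_comm _ _) rfl)
  exact (h1.mul h1).congr (by rw [G0]; ring) (by ring) (by rw [G0]; ring)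

theorem top_G1 : Top (G1 (C A) (C B) a1 b1 a2 b2) (2 * hd a1 b1 + 2 * hd a2 b2)
    (G1 A B (a1.coeff (hd a1 b1)) (b1.coeff (hd a1 b1)) (a2.coeff (hd a2 b2))
      (b2.coeff (hd a2 b2))) := by
  have ta1 := top_left a1 b1
  have tb1 := top_right a1 b1
  have ta2 := top_left a2 b2
  have tb2 := top_right a2 b2
  have h1 := (ta1.mul ta2).add ((tb1.mul tb2).const_mul A)
  have h2 := (ta1.mul tb2).add ((ta2.mul tb1).congr rfl (add_comm _ _) rfl)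
  have h3 := ((tb1.mul tb1).mul (tb2.mul tb2)).const_mul (4 * B)
  have h4 := ((h1.mul h2).const_mul 2).add
    (h3.congr rfl (by ring : hd a1 b1 + hd a1 b1 + (hd a2 b2 + hd a2 b2)
      = hd a1 b1 + hd a2 b2 + (hd a1 b1 + hd a2 b2)) rfl)
  refine h4.congr ?_ (by ring) (by rw [G1]; ring)
  rw [G1]
  simp only [map_mul, map_ofNat]
  ring

theorem top_G2 : Top (G2 (C A) (C B) a1 b1 a2 b2) (2 * hd a1 b1 + 2 * hd a2 b2)
    (G2 A B (a1.coeff (hd a1 b1)) (b1.coeff (hd a1 b1)) (a2.coeff (hd a2 b2))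
      (b2.coeff (hd a2 b2))) := by
  have ta1 := top_left a1 b1
  have tb1 := top_right a1 b1
  have ta2 := top_left a2 b2
  have tb2 := top_right a2 b2
  have h1 := (ta1.mul ta2).sub ((tb1.mul tb2).const_mul A)
  have h2 := (ta1.mul tb2).add ((ta2.mul tb1).congr rfl (add_comm _ _) rfl)
  have h3 := ((tb1.mul tb2).mul h2).const_mul (4 * B)
  have h4 := (h1.mul h1).sub h3
  refine h4.congr ?_ (by ring) (by rw [G2]; ring)
  rw [G2]
  simp only [map_mul, map_ofNat]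
  ring

variable (a3 b3 a4 b4 : k[X])

theorem top_H0 : Top (H0 a3 b3 a4 b4) (hd a3 b3 + hd a4 b4)
    (H0 (a3.coeff (hd a3 b3)) (b3.coeff (hd a3 b3)) (a4.coeff (hd a4 b4))
      (b4.coeff (hd a4 b4))) :=
  (top_right a3 b3).mul (top_right a4 b4)

theorem top_H1 : Top (H1 a3 b3 a4 b4) (hd a3 b3 + hd a4 b4)
    (H1 (a3.coeff (hd a3 b3)) (b3.coeff (hd a3 b3)) (a4.coeff (hd a4 b4))
      (b4.coeff (hd a4 b4))) :=
  ((top_left a3 b3).mul (top_right a4 b4)).add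
    (((top_left a4 b4).mul (top_right a3 b3)).congr rfl (add_comm _ _) rfl)

theorem top_H2 : Top (H2 a3 b3 a4 b4) (hd a3 b3 + hd a4 b4)
    (H2 (a3.coeff (hd a3 b3)) (b3.coeff (hd a3 b3)) (a4.coeff (hd a4 b4))
      (b4.coeff (hd a4 b4))) :=
  (top_left a3 b3).mul (top_left a4 b4)

/-- Height of a triple. -/
def hd3 (u0 u1 u2 : k[X]) : ℕ := max (max u0.natDegree u1.natDegree) u2.natDegree

theorem hd3_eq_of_top {u0 u1 u2 : k[X]} {n : ℕ} {c0 c1 c2 : k} (h0 : Top u0 n c0)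
    (h1 : Top u1 n c1) (h2 : Top u2 n c2) (hc : ¬ (c0 = 0 ∧ c1 = 0 ∧ c2 = 0)) :
    hd3 u0 u1 u2 = n := by
  apply le_antisymm
  · exact max_le (max_le h0.1 h1.1) h2.1
  · by_contra hlt
    push Not at hlt
    apply hc
    refine ⟨?_, ?_, ?_⟩
    · rw [← h0.2]
      exact coeff_eq_zero_of_natDegree_lt
        (lt_of_le_of_lt ((le_max_left _ _).trans (le_max_left _ _)) hlt)
    · rw [← h1.2]
      exact coeff_eq_zero_of_natDegree_lt
        (lt_of_le_of_lt ((le_max_right _ _).trans (le_max_left _ _)) hlt)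
    · rw [← h2.2]
      exact coeff_eq_zero_of_natDegree_lt (lt_of_le_of_lt (le_max_right _ _) hlt)

theorem hd3_G (h2 : (2 : k) ≠ 0) (hdisc : 4 * A ^ 3 + 27 * B ^ 2 ≠ 0) (c1 : IsCoprime a1 b1)
    (c2 : IsCoprime a2 b2) :
    hd3 (G0 a1 b1 a2 b2) (G1 (C A) (C B) a1 b1 a2 b2) (G2 (C A) (C B) a1 b1 a2 b2)
      = 2 * hd a1 b1 + 2 * hd a2 b2 :=
  hd3_eq_of_top (top_G0 a1 b1 a2 b2) (top_G1 A B a1 b1 a2 b2) (top_G2 A B a1 b1 a2 b2)
    (G_no_common_zero A B h2 hdisc _ _ _ _ (lead_ne_zero c1) (lead_ne_zero c2))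

theorem hd3_H (c3 : IsCoprime a3 b3) (c4 : IsCoprime a4 b4) :
    hd3 (H0 a3 b3 a4 b4) (H1 a3 b3 a4 b4) (H2 a3 b3 a4 b4) = hd a3 b3 + hd a4 b4 :=
  hd3_eq_of_top (top_H0 a3 b3 a4 b4) (top_H1 a3 b3 a4 b4) (top_H2 a3 b3 a4 b4)
    (H_no_common_zero _ _ _ _ (lead_ne_zero c3) (lead_ne_zero c4))

end Top

section Coprime

variable {k : Type*} [Field k]

/-- Three polynomials generate the unit ideal. -/
def Coprime3 (u0 u1 u2 : k[X]) : Prop := ∃ r0 r1 r2 : k[X], r0 * u0 + r1 * u1 + r2 * u2 = 1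

theorem coprime3_of_irreducible {u0 u1 u2 : k[X]}
    (h : ∀ π : k[X], Irreducible π → ¬ (π ∣ u0 ∧ π ∣ u1 ∧ π ∣ u2)) : Coprime3 u0 u1 u2 := by
  by_contra hcon
  have hI : Ideal.span ({u0, u1, u2} : Set k[X]) ≠ ⊤ := by
    intro htop
    apply hcon
    have h1 : (1 : k[X]) ∈ Ideal.span ({u0, u1, u2} : Set k[X]) := by rw [htop]; trivial
    rw [Ideal.mem_span_insert] at h1
    obtain ⟨r0, z, hz, e⟩ := h1
    rw [Ideal.mem_span_pair] at hz
    obtain ⟨r1, r2, rfl⟩ := hz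
    exact ⟨r0, r1, r2, by rw [e]; ring⟩
  obtain ⟨M, hM, hle⟩ := Ideal.exists_le_maximal _ hI
  have hMne : M ≠ ⊥ := Ring.ne_bot_of_isMaximal_of_not_isField hM (Polynomial.not_isField k)
  obtain ⟨π, rfl⟩ : ∃ π, M = Ideal.span {π} := ⟨_, (Ideal.span_singleton_generator M).symm⟩
  have hπ0 : π ≠ 0 := by
    rintro rfl
    apply hMne
    simp
  have hπ : Prime π := (Ideal.span_singleton_prime hπ0).mp hM.isPrime
  apply h π hπ.irreducible
  refine ⟨?_, ?_, ?_⟩ <;>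
  · rw [← Ideal.mem_span_singleton]
    apply hle
    apply Ideal.subset_span
    simp

theorem not_dvd_of_isCoprime {a b π : k[X]} (hπ : Irreducible π) (h : IsCoprime a b) :
    ¬ (π ∣ a ∧ π ∣ b) := by
  rintro ⟨ha, hb⟩
  obtain ⟨u, v, e⟩ := h
  have : π ∣ 1 := by
    rw [← e]
    exact dvd_add (Dvd.dvd.mul_left ha u) (Dvd.dvd.mul_left hb v)
  exact hπ.not_isUnit (isUnit_of_dvd_one this)

theorem coprime3_G (A B : k) (h2 : (2 : k) ≠ 0) (hdisc : 4 * A ^ 3 + 27 * B ^ 2 ≠ 0)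
    {a1 b1 a2 b2 : k[X]} (c1 : IsCoprime a1 b1) (c2 : IsCoprime a2 b2) :
    Coprime3 (G0 a1 b1 a2 b2) (G1 (C A) (C B) a1 b1 a2 b2) (G2 (C A) (C B) a1 b1 a2 b2) := by
  apply coprime3_of_irreducible
  intro π hπ
  haveI : Fact (Irreducible π) := ⟨hπ⟩
  rintro ⟨d0, d1, d2⟩
  rw [← AdjoinRoot.mk_eq_zero] at d0 d1 d2
  rw [map_G0] at d0
  rw [map_G1] at d1
  rw [map_G2] at d2
  have hA : AdjoinRoot.mk π (C A) = AdjoinRoot.of π A := rfl
  have hB : AdjoinRoot.mk π (C B) = AdjoinRoot.of π B := rfl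
  rw [hA, hB] at d1 d2
  refine G_no_common_zero (AdjoinRoot.of π A) (AdjoinRoot.of π B) ?_ ?_ _ _ _ _ ?_ ?_ ⟨d0, d1, d2⟩
  · have : (2 : AdjoinRoot π) = AdjoinRoot.of π 2 := by rw [map_ofNat]
    rw [this]
    exact (_root_.map_ne_zero _).mpr h2
  · have : 4 * (AdjoinRoot.of π A) ^ 3 + 27 * (AdjoinRoot.of π B) ^ 2
        = AdjoinRoot.of π (4 * A ^ 3 + 27 * B ^ 2) := by
      simp only [map_add, map_mul, map_pow, map_ofNat]
    rw [this]
    exact (_root_.map_ne_zero _).mpr hdisc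
  · rw [AdjoinRoot.mk_eq_zero, AdjoinRoot.mk_eq_zero]
    exact not_dvd_of_isCoprime hπ c1
  · rw [AdjoinRoot.mk_eq_zero, AdjoinRoot.mk_eq_zero]
    exact not_dvd_of_isCoprime hπ c2

theorem coprime3_H {a3 b3 a4 b4 : k[X]} (c3 : IsCoprime a3 b3) (c4 : IsCoprime a4 b4) :
    Coprime3 (H0 a3 b3 a4 b4) (H1 a3 b3 a4 b4) (H2 a3 b3 a4 b4) := by
  apply coprime3_of_irreducible
  intro π hπ
  haveI : Fact (Irreducible π) := ⟨hπ⟩
  rintro ⟨d0, d1, d2⟩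
  rw [← AdjoinRoot.mk_eq_zero] at d0 d1 d2
  rw [map_H0] at d0
  rw [map_H1] at d1
  rw [map_H2] at d2
  refine H_no_common_zero _ _ _ _ ?_ ?_ ⟨d0, d1, d2⟩
  · rw [AdjoinRoot.mk_eq_zero, AdjoinRoot.mk_eq_zero]
    exact not_dvd_of_isCoprime hπ c3
  · rw [AdjoinRoot.mk_eq_zero, AdjoinRoot.mk_eq_zero]
    exact not_dvd_of_isCoprime hπ c4

/-- Proportional coprime triples differ by a nonzero constant. -/
theorem exists_const_of_proportional {u0 u1 u2 w0 w1 w2 : k[X]} (hu : Coprime3 u0 u1 u2)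
    (hw : Coprime3 w0 w1 w2) (h01 : u0 * w1 = u1 * w0) (h02 : u0 * w2 = u2 * w0)
    (h12 : u1 * w2 = u2 * w1) :
    ∃ c : k, c ≠ 0 ∧ w0 = C c * u0 ∧ w1 = C c * u1 ∧ w2 = C c * u2 := by
  obtain ⟨r0, r1, r2, hr⟩ := hu
  obtain ⟨s0, s1, s2, hs⟩ := hw
  obtain ⟨c, hc⟩ : ∃ c, c = r0 * w0 + r1 * w1 + r2 * w2 := ⟨_, rfl⟩
  obtain ⟨c', hc'⟩ : ∃ c', c' = s0 * u0 + s1 * u1 + s2 * u2 := ⟨_, rfl⟩
  have e0 : w0 = c * u0 := by
    rw [hc]; linear_combination (-w0) * hr - r1 * h01 - r2 * h02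
  have e1 : w1 = c * u1 := by
    rw [hc]; linear_combination (-w1) * hr + r0 * h01 - r2 * h12
  have e2 : w2 = c * u2 := by
    rw [hc]; linear_combination (-w2) * hr + r0 * h02 + r1 * h12
  have hcc : c * c' = 1 := by
    rw [hc']
    linear_combination s0 * (-e0) + s1 * (-e1) + s2 * (-e2) + hs
  have hunit : IsUnit c := IsUnit.of_mul_eq_one _ hcc
  obtain ⟨c0, hc0, hc0'⟩ := Polynomial.isUnit_iff.mp hunit
  refine ⟨c0, hc0.ne_zero, ?_, ?_, ?_⟩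
  · rw [hc0']; exact e0
  · rw [hc0']; exact e1
  · rw [hc0']; exact e2

theorem hd3_eq_of_proportional {u0 u1 u2 w0 w1 w2 : k[X]} (hu : Coprime3 u0 u1 u2)
    (hw : Coprime3 w0 w1 w2) (h01 : u0 * w1 = u1 * w0) (h02 : u0 * w2 = u2 * w0)
    (h12 : u1 * w2 = u2 * w1) : hd3 w0 w1 w2 = hd3 u0 u1 u2 := by
  obtain ⟨c, hc, rfl, rfl, rfl⟩ := exists_const_of_proportional hu hw h01 h02 h12
  unfold hd3
  rw [natDegree_C_mul hc, natDegree_C_mul hc, natDegree_C_mul hc]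

/-- **Parallelogram law, polynomial core.** -/
theorem hd_add_eq (A B : k) (h2 : (2 : k) ≠ 0) (hdisc : 4 * A ^ 3 + 27 * B ^ 2 ≠ 0)
    {a1 b1 a2 b2 a3 b3 a4 b4 : k[X]} (c1 : IsCoprime a1 b1) (c2 : IsCoprime a2 b2)
    (c3 : IsCoprime a3 b3) (c4 : IsCoprime a4 b4)
    (h01 : G0 a1 b1 a2 b2 * H1 a3 b3 a4 b4 = G1 (C A) (C B) a1 b1 a2 b2 * H0 a3 b3 a4 b4)
    (h02 : G0 a1 b1 a2 b2 * H2 a3 b3 a4 b4 = G2 (C A) (C B) a1 b1 a2 b2 * H0 a3 b3 a4 b4)
    (h12 : G1 (C A) (C B) a1 b1 a2 b2 * H2 a3 b3 a4 b4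
      = G2 (C A) (C B) a1 b1 a2 b2 * H1 a3 b3 a4 b4) :
    hd a3 b3 + hd a4 b4 = 2 * hd a1 b1 + 2 * hd a2 b2 := by
  rw [← hd3_H a3 b3 a4 b4 c3 c4, ← hd3_G A B a1 b1 a2 b2 h2 hdisc c1 c2]
  exact hd3_eq_of_proportional (coprime3_G A B h2 hdisc c1 c2) (coprime3_H c3 c4) h01 h02 h12

end Coprime

end Fermat.Agent.S52.Tr.PolyHeight
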