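import Mathlib

set_option autoImplicit false

/-!
# Parallelogram law ⇒ quadratic form (brick (Tr)(b) of S52)

For an additive commutative group `G` and `d : G → ℤ` satisfying the parallelogram law
`d (R + S) + d (R - S) = 2 * d R + 2 * d S`, the pairing `d (R + S) - d R - d S` is biadditive.
-/

namespace Fermat.Agent.S52.Tr.Quadratic

variable {G : Type*} [AddCommGroup G] (d : G → ℤ)

/-- The parallelogram law. -/
def IsPar : Prop := ∀ R S : G, d (R + S) + d (R - S) = 2 * d R + 2 * d S

/-- The pairing attached to `d`. -/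
def pair (R S : G) : ℤ := d (R + S) - d R - d S

variable {d}

theorem IsPar.map_zero (h : IsPar d) : d 0 = 0 := by
  have := h 0 0
  simp only [add_zero, sub_zero] at this
  linarith

theorem IsPar.map_neg (h : IsPar d) (S : G) : d (-S) = d S := by
  have h1 := h 0 S
  have h0 := h.map_zero
  simp only [zero_add, zero_sub] at h1
  linarith

theorem IsPar.map_sub_comm (h : IsPar d) (R S : G) : d (R - S) = d (S - R) := by
  rw [← h.map_neg (S - R), neg_sub]

theorem IsPar.map_two_nsmul (h : IsPar d) (R : G) : d (R + R) = 4 * d R := by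
  have h1 := h R R
  have h0 := h.map_zero
  simp only [sub_self] at h1
  linarith

theorem pair_comm (R S : G) : pair d R S = pair d S R := by
  unfold pair
  rw [add_comm R S]
  ring

theorem IsPar.pair_self (h : IsPar d) (R : G) : pair d R R = 2 * d R := by
  unfold pair
  rw [h.map_two_nsmul]
  ring

theorem IsPar.cube (h : IsPar d) (P Q R : G) :
    d (P + Q + R) - d (P + Q) - d (P + R) - d (Q + R) + d P + d Q + d R = 0 := by
  have h1 := h (P + R) Q
  have h2 := h P (R - Q)
  have h3 := h (P + Q) R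
  have h4 := h R Q
  have e1 : P + R + Q = P + Q + R := by abel
  have e2 : P + R - Q = P + (R - Q) := by abel
  have e3 : P - (R - Q) = P + Q - R := by abel
  have e4 : R + Q = Q + R := by abel
  rw [e1, e2] at h1
  rw [e3] at h2
  rw [e4] at h4
  linarith

theorem IsPar.pair_add_left (h : IsPar d) (P Q R : G) :
    pair d (P + Q) R = pair d P R + pair d Q R := by
  have := h.cube P Q R
  unfold pair
  linarith

theorem IsPar.pair_add_right (h : IsPar d) (P Q R : G) :
    pair d P (Q + R) = pair d P Q + pair d P R := by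
  rw [pair_comm, h.pair_add_left, pair_comm Q, pair_comm R]

/-- The pairing as a biadditive map. -/
def IsPar.pairHom (h : IsPar d) : G →+ G →+ ℤ :=
  AddMonoidHom.mk' (fun P => AddMonoidHom.mk' (fun Q => pair d P Q) (h.pair_add_right P))
    (fun P Q => by
      ext R
      simp only [AddMonoidHom.mk'_apply, AddMonoidHom.add_apply]
      exact h.pair_add_left P Q R)

@[simp] theorem IsPar.pairHom_apply (h : IsPar d) (P Q : G) : h.pairHom P Q = pair d P Q := rfl

theorem IsPar.pair_zero_left (h : IsPar d) (R : G) : pair d 0 R = 0 := by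
  unfold pair
  rw [zero_add, h.map_zero]
  ring

theorem IsPar.pair_zero_right (h : IsPar d) (R : G) : pair d R 0 = 0 := by
  rw [pair_comm, h.pair_zero_left]

theorem IsPar.pair_neg_left (h : IsPar d) (P R : G) : pair d (-P) R = -pair d P R := by
  have h1 := h.pair_add_left P (-P) R
  rw [add_neg_cancel, h.pair_zero_left] at h1
  linarith

theorem IsPar.pair_neg_right (h : IsPar d) (P R : G) : pair d P (-R) = -pair d P R := by
  rw [pair_comm, h.pair_neg_left, pair_comm]

theorem IsPar.pair_sub_left (h : IsPar d) (P Q R : G) :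
    pair d (P - Q) R = pair d P R - pair d Q R := by
  rw [sub_eq_add_neg, h.pair_add_left, h.pair_neg_left]
  ring

theorem IsPar.pair_sub_right (h : IsPar d) (P Q R : G) :
    pair d P (Q - R) = pair d P Q - pair d P R := by
  rw [sub_eq_add_neg, h.pair_add_right, h.pair_neg_right]
  ring

theorem IsPar.pair_zsmul_left (h : IsPar d) (n : ℤ) (P R : G) :
    pair d (n • P) R = n * pair d P R := by
  have h1 := map_zsmul (h.pairHom.flip R) n P
  simpa only [AddMonoidHom.flip_apply, IsPar.pairHom_apply, smul_eq_mul] using h1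

theorem IsPar.pair_zsmul_right (h : IsPar d) (n : ℤ) (P R : G) :
    pair d P (n • R) = n * pair d P R := by
  rw [pair_comm, h.pair_zsmul_left, pair_comm]

theorem map_add_eq (d : G → ℤ) (P Q : G) : d (P + Q) = d P + d Q + pair d P Q := by
  unfold pair
  ring

theorem IsPar.map_sub_eq (h : IsPar d) (P Q : G) : d (P - Q) = d P + d Q - pair d P Q := by
  rw [sub_eq_add_neg, map_add_eq d, h.map_neg, h.pair_neg_right]
  ring

theorem IsPar.map_zsmul (h : IsPar d) (n : ℤ) (P : G) : d (n • P) = n ^ 2 * d P := by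
  have h1 := h.pair_self (n • P)
  rw [h.pair_zsmul_left, h.pair_zsmul_right, h.pair_self] at h1
  have : 2 * d (n • P) = 2 * (n ^ 2 * d P) := by rw [← h1]; ring
  linarith

theorem IsPar.map_nsmul (h : IsPar d) (n : ℕ) (P : G) : d (n • P) = (n : ℤ) ^ 2 * d P := by
  rw [← natCast_zsmul, h.map_zsmul]

/-- Expansion of `d (P₂ - a • P₁ + l • Q)`. -/
theorem IsPar.map_combo (h : IsPar d) (a l : ℤ) (P₂ P₁ Q : G) :
    d (P₂ - a • P₁ + l • Q) =
      d P₂ + a ^ 2 * d P₁ + l ^ 2 * d Q - a * pair d P₂ P₁ + l * pair d P₂ Q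
        - a * l * pair d P₁ Q := by
  rw [map_add_eq d, h.map_sub_eq, h.map_zsmul, h.map_zsmul, h.pair_sub_left, h.pair_zsmul_right,
    h.pair_zsmul_right, h.pair_zsmul_left, h.pair_zsmul_right]
  ring

/-- Manin's Gram computation: if `d Q = 1`, `d P₁ = l`, `d P₂ = l²`, `⟨P₁,Q⟩ = a`,
`⟨P₂,P₁⟩ = l a`, `⟨P₂,Q⟩ = a² - 2 l`, then `d (P₂ - a P₁ + l Q) = 0`. -/
theorem IsPar.map_combo_eq_zero (h : IsPar d) (a l : ℤ) (P₂ P₁ Q : G)
    (hQ : d Q = 1) (hP₁ : d P₁ = l) (hP₂ : d P₂ = l ^ 2)
    (h1 : pair d P₁ Q = a) (h21 : pair d P₂ P₁ = l * a) (h2 : pair d P₂ Q = a ^ 2 - 2 * l) :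
    d (P₂ - a • P₁ + l • Q) = 0 := by
  rw [h.map_combo, hQ, hP₁, hP₂, h1, h21, h2]
  ring

end Fermat.Agent.S52.Tr.Quadratic
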