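import Mathlib
import Fermat.Agent.S52.Tr.Defs
import Fermat.Agent.S52.Tr.PolyHeight
import Fermat.Agent.S52.Tr.Quadratic
import Fermat.Agent.Lib.KerRedAny

set_option autoImplicit false

/-!
# The parallelogram law for the degree on the twisted curve (brick (Tr)(a) of S52)

`dpt (R + S) + dpt (R - S) = 2 * dpt R + 2 * dpt S` for all points `R`, `S` of `Etw A B`
over `RatFunc k` (`(2 : k) ≠ 0`, `4 A³ + 27 B² ≠ 0`).
-/

namespace Fermat.Agent.S52.Tr.Parallelogram

open Polynomial Fermat.Agent.Lib.KerRedAny Fermat.Agent.S52.Tr.PolyHeight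

variable {k : Type*} [Field k] (A B : k)

local notation "φ" => algebraMap k[X] (RatFunc k)

/-! ### Coefficients of the twisted curve -/

lemma Etw_a₁ : (Etw A B).a₁ = 0 := rfl
lemma Etw_a₂ : (Etw A B).a₂ = 0 := rfl
lemma Etw_a₃ : (Etw A B).a₃ = 0 := rfl
lemma Etw_a₄ : (Etw A B).a₄ = RatFunc.C A * lam A B ^ 2 := rfl
lemma Etw_a₆ : (Etw A B).a₆ = RatFunc.C B * lam A B ^ 3 := rfl

lemma Etw_b₂ : (Etw A B).b₂ = 0 := by
  simp [WeierstrassCurve.b₂, Etw_a₁, Etw_a₂]

lemma Etw_b₄ : (Etw A B).b₄ = 2 * (RatFunc.C A * lam A B ^ 2) := by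
  simp [WeierstrassCurve.b₄, Etw_a₁, Etw_a₃, Etw_a₄]

lemma Etw_b₆ : (Etw A B).b₆ = 4 * (RatFunc.C B * lam A B ^ 3) := by
  simp [WeierstrassCurve.b₆, Etw_a₃, Etw_a₆]

lemma Etw_b₈ : (Etw A B).b₈ = -(RatFunc.C A * lam A B ^ 2) ^ 2 := by
  simp [WeierstrassCurve.b₈, Etw_a₁, Etw_a₂, Etw_a₃, Etw_a₄]

/-! ### Projective `X`-coordinates of points -/

/-- Numerator of the `X`-coordinate (`1` at the origin). -/
noncomputable def xn : (Etw A B).Point → k[X]
  | .zero => 1
  | .some x _ _ => (x / lam A B).num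

/-- Denominator of the `X`-coordinate (`0` at the origin). -/
noncomputable def xd : (Etw A B).Point → k[X]
  | .zero => 0
  | .some x _ _ => (x / lam A B).denom

lemma xn_zero : xn A B (0 : (Etw A B).Point) = 1 := rfl
lemma xd_zero : xd A B (0 : (Etw A B).Point) = 0 := rfl

lemma dpt_eq (P : (Etw A B).Point) : dpt A B P = hd (xn A B P) (xd A B P) := by
  rcases P with _ | ⟨x, y, h⟩
  · simp [dpt, xn, xd, hd]
  · rfl

lemma isCoprime_xn_xd (P : (Etw A B).Point) : IsCoprime (xn A B P) (xd A B P) := by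
  rcases P with _ | ⟨x, y, h⟩
  · exact isCoprime_one_left
  · exact RatFunc.isCoprime_num_denom _

lemma xn_neg (P : (Etw A B).Point) : xn A B (-P) = xn A B P := by
  rcases P with _ | ⟨x, y, h⟩ <;> rfl

lemma xd_neg (P : (Etw A B).Point) : xd A B (-P) = xd A B P := by
  rcases P with _ | ⟨x, y, h⟩ <;> rfl

lemma xn_of_eq_zero {P : (Etw A B).Point} (h : P = 0) : xn A B P = 1 := by
  subst h; rfl

lemma xd_of_eq_zero {P : (Etw A B).Point} (h : P = 0) : xd A B P = 0 := by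
  subst h; rfl

lemma xc_eq {P : (Etw A B).Point} (hP : P ≠ 0) : xc P = lam A B * Xc A B P := by
  rcases P with _ | ⟨x, y, h⟩
  · exact absurd rfl hP
  · have hl := lam_ne_zero A B
    simp only [Xc, xc_some]
    field_simp

lemma map_xn {P : (Etw A B).Point} (hP : P ≠ 0) :
    φ (xn A B P) = Xc A B P * φ (xd A B P) := by
  rcases P with _ | ⟨x, y, h⟩
  · exact absurd rfl hP
  · have h1 := RatFunc.num_div_denom (x / lam A B)
    have h2 : φ (x / lam A B).denom ≠ 0 := by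
      rw [Ne, map_eq_zero_iff _ (RatFunc.algebraMap_injective k)]
      exact RatFunc.denom_ne_zero _
    simp only [xn, xd, Xc]
    rw [div_eq_iff h2] at h1
    exact h1

/-! ### From field identities to polynomial identities -/

section lift

variable {A B}
variable {a1 b1 a2 b2 a3 b3 a4 b4 : k[X]} {X1 X2 X3 X4 : RatFunc k}

lemma cross_of_field (h1 : φ a1 = X1 * φ b1) (h2 : φ a2 = X2 * φ b2) (h3 : φ a3 = X3 * φ b3)
    (h4 : φ a4 = X4 * φ b4)
    (es : (X3 + X4) * (X1 - X2) ^ 2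
      = 2 * (X1 * X2 + RatFunc.C A) * (X1 + X2) + 4 * RatFunc.C B)
    (ep : X3 * X4 * (X1 - X2) ^ 2
      = (X1 * X2 - RatFunc.C A) ^ 2 - 4 * RatFunc.C B * (X1 + X2)) :
    G0 a1 b1 a2 b2 * H1 a3 b3 a4 b4 = G1 (C A) (C B) a1 b1 a2 b2 * H0 a3 b3 a4 b4 ∧
    G0 a1 b1 a2 b2 * H2 a3 b3 a4 b4 = G2 (C A) (C B) a1 b1 a2 b2 * H0 a3 b3 a4 b4 ∧
    G1 (C A) (C B) a1 b1 a2 b2 * H2 a3 b3 a4 b4
      = G2 (C A) (C B) a1 b1 a2 b2 * H1 a3 b3 a4 b4 := by
  refine ⟨?_, ?_, ?_⟩
  · apply RatFunc.algebraMap_injective k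
    rw [map_mul, map_mul, map_G0, map_H1, map_G1, map_H0, RatFunc.algebraMap_C,
      RatFunc.algebraMap_C, h1, h2, h3, h4]
    simp only [G0, G1, H0, H1]
    linear_combination (φ b1 ^ 2 * φ b2 ^ 2 * φ b3 * φ b4) * es
  · apply RatFunc.algebraMap_injective k
    rw [map_mul, map_mul, map_G0, map_H2, map_G2, map_H0, RatFunc.algebraMap_C,
      RatFunc.algebraMap_C, h1, h2, h3, h4]
    simp only [G0, G2, H0, H2]
    linear_combination (φ b1 ^ 2 * φ b2 ^ 2 * φ b3 * φ b4) * ep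
  · apply RatFunc.algebraMap_injective k
    rw [map_mul, map_mul, map_G1, map_H2, map_G2, map_H1, RatFunc.algebraMap_C,
      RatFunc.algebraMap_C, h1, h2, h3, h4]
    simp only [G1, G2, H1, H2]
    linear_combination (-(φ b1 ^ 2 * φ b2 ^ 2 * φ b3 * φ b4) * (X3 * X4)) * es
      + (φ b1 ^ 2 * φ b2 ^ 2 * φ b3 * φ b4 * (X3 + X4)) * ep

lemma dbl_of_field (h1 : φ a1 = X1 * φ b1) (h3 : φ a3 = X3 * φ b3)
    (e : X3 * (4 * (X1 ^ 3 + RatFunc.C A * X1 + RatFunc.C B))
      = (X1 ^ 2 - RatFunc.C A) ^ 2 - 8 * RatFunc.C B * X1) :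
    G1 (C A) (C B) a1 b1 a1 b1 * a3 = G2 (C A) (C B) a1 b1 a1 b1 * b3 := by
  apply RatFunc.algebraMap_injective k
  rw [map_mul, map_mul, map_G1, map_G2, RatFunc.algebraMap_C, RatFunc.algebraMap_C, h1, h3]
  simp only [G1, G2]
  linear_combination (φ b1 ^ 4 * φ b3) * e

lemma dbl_zero_of_field (h1 : φ a1 = X1 * φ b1)
    (e : X1 ^ 3 + RatFunc.C A * X1 + RatFunc.C B = 0) :
    G1 (C A) (C B) a1 b1 a1 b1 = 0 := by
  apply RatFunc.algebraMap_injective k
  rw [map_G1, RatFunc.algebraMap_C, RatFunc.algebraMap_C, h1, map_zero]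
  simp only [G1]
  linear_combination (4 * φ b1 ^ 4) * e

end lift

/-! ### The cross relations -/

variable [DecidableEq (RatFunc k)]

/-- The doubling relation. -/
lemma dbl_rel (h2 : (2 : k) ≠ 0) {R : (Etw A B).Point} (hR : R ≠ 0) :
    G1 (C A) (C B) (xn A B R) (xd A B R) (xn A B R) (xd A B R) * xn A B (R + R)
      = G2 (C A) (C B) (xn A B R) (xd A B R) (xn A B R) (xd A B R) * xd A B (R + R) := by
  have hl := lam_ne_zero A B
  have h2K : (2 : RatFunc k) ≠ 0 := by
    have : (2 : RatFunc k) = RatFunc.C (2 : k) := by rw [map_ofNat]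
    rw [this, Ne, map_eq_zero]
    exact h2
  have h4K : (4 : RatFunc k) ≠ 0 := by
    have : (4 : RatFunc k) = 2 * 2 := by norm_num
    rw [this]
    exact mul_ne_zero h2K h2K
  have hx := xc_eq A B hR
  have hpsi := psi_sq hR
  rw [Etw_a₁, Etw_a₃, Etw_b₂, Etw_b₄, Etw_b₆, hx] at hpsi
  by_cases hy : 2 * yc R + (Etw A B).a₁ * xc R + (Etw A B).a₃ = 0
  · have h0 : R + R = 0 := add_self_eq_zero_of_psi hR hy
    rw [xn_of_eq_zero A B h0, xd_of_eq_zero A B h0, mul_one, mul_zero]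
    apply dbl_zero_of_field (map_xn A B hR)
    rw [Etw_a₁, Etw_a₃] at hy
    have hy' : yc R = 0 := by
      have : 2 * yc R = 0 := by linear_combination hy
      rcases mul_eq_zero.mp this with h | h
      · exact absurd h h2K
      · exact h
    rw [hy'] at hpsi
    have : (4 * lam A B ^ 3) * (Xc A B R ^ 3 + RatFunc.C A * Xc A B R + RatFunc.C B) = 0 := by
      linear_combination -hpsi
    rcases mul_eq_zero.mp this with h | h
    · exact absurd h (mul_ne_zero h4K (pow_ne_zero _ hl))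
    · exact h
  · obtain ⟨hne, hdup⟩ := add_self_of_ne hR hy
    rw [Etw_a₁, Etw_a₃, Etw_b₄, Etw_b₆, Etw_b₈, hx, hpsi, xc_eq A B hne] at hdup
    apply dbl_of_field (map_xn A B hR) (map_xn A B hne)
    have h5 : lam A B ^ 4 ≠ 0 := pow_ne_zero _ hl
    apply mul_left_cancel₀ h5
    linear_combination hdup

/-- The three cross relations between the biquadratic forms of `R`, `S` and the symmetric
functions of the `X`-coordinates of `R + S`, `R - S`. -/
theorem cross (h2 : (2 : k) ≠ 0) (R S : (Etw A B).Point) :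
    G0 (xn A B R) (xd A B R) (xn A B S) (xd A B S)
        * H1 (xn A B (R + S)) (xd A B (R + S)) (xn A B (R - S)) (xd A B (R - S))
      = G1 (C A) (C B) (xn A B R) (xd A B R) (xn A B S) (xd A B S)
        * H0 (xn A B (R + S)) (xd A B (R + S)) (xn A B (R - S)) (xd A B (R - S)) ∧
    G0 (xn A B R) (xd A B R) (xn A B S) (xd A B S)
        * H2 (xn A B (R + S)) (xd A B (R + S)) (xn A B (R - S)) (xd A B (R - S))
      = G2 (C A) (C B) (xn A B R) (xd A B R) (xn A B S) (xd A B S)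
        * H0 (xn A B (R + S)) (xd A B (R + S)) (xn A B (R - S)) (xd A B (R - S)) ∧
    G1 (C A) (C B) (xn A B R) (xd A B R) (xn A B S) (xd A B S)
        * H2 (xn A B (R + S)) (xd A B (R + S)) (xn A B (R - S)) (xd A B (R - S))
      = G2 (C A) (C B) (xn A B R) (xd A B R) (xn A B S) (xd A B S)
        * H1 (xn A B (R + S)) (xd A B (R + S)) (xn A B (R - S)) (xd A B (R - S)) := by
  have hl := lam_ne_zero A B
  by_cases hR : R = 0
  · subst hR
    rw [zero_add, zero_sub, xn_neg, xd_neg, xn_zero, xd_zero]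
    simp only [G0, G1, G2, H0, H1, H2]
    refine ⟨by ring, by ring, by ring⟩
  by_cases hS : S = 0
  · subst hS
    rw [add_zero, sub_zero, xn_zero, xd_zero]
    simp only [G0, G1, G2, H0, H1, H2]
    refine ⟨by ring, by ring, by ring⟩
  by_cases hX : xc R = xc S
  · rcases eq_or_eq_neg_of_xc hR hS hX with h | h
    · subst h
      have hd := dbl_rel A B h2 hR
      rw [sub_self, xn_zero, xd_zero]
      simp only [G0, H0, H1, H2]
      refine ⟨by ring, by ring, ?_⟩
      linear_combination hd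
    · have hd := dbl_rel A B h2 hR
      have e1 : R + S = 0 := by rw [h]; exact neg_add_cancel S
      have e2 : R - S = R + R := by
        rw [sub_eq_add_neg, ← h]
      have e3 : xn A B S = xn A B R := by rw [h, xn_neg]
      have e4 : xd A B S = xd A B R := by rw [h, xd_neg]
      rw [e1, e2, e3, e4, xn_zero, xd_zero]
      simp only [G0, H0, H1, H2]
      refine ⟨by ring, by ring, ?_⟩
      linear_combination hd
  · obtain ⟨hne3, -⟩ := add_of_xc_ne hR hS hX
    obtain ⟨hne4, -⟩ := sub_of_xc_ne hR hS hX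
    have es := xc_add_add_xc_sub hR hS hX
    have ep := xc_add_mul_xc_sub hR hS hX
    rw [Etw_b₂, Etw_b₄, Etw_b₆, xc_eq A B hR, xc_eq A B hS, xc_eq A B hne3, xc_eq A B hne4]
      at es
    rw [Etw_b₄, Etw_b₆, Etw_b₈, xc_eq A B hR, xc_eq A B hS, xc_eq A B hne3, xc_eq A B hne4]
      at ep
    have hXne : Xc A B R - Xc A B S ≠ 0 := by
      intro h0
      apply hX
      rw [xc_eq A B hR, xc_eq A B hS, sub_eq_zero.mp h0]
    have hden : (lam A B * Xc A B R - lam A B * Xc A B S) ^ 2 ≠ 0 := by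
      rw [← mul_sub]
      exact pow_ne_zero _ (mul_ne_zero hl hXne)
    rw [eq_div_iff hden] at es ep
    apply cross_of_field (map_xn A B hR) (map_xn A B hS) (map_xn A B hne3) (map_xn A B hne4)
    · have h3 : lam A B ^ 3 ≠ 0 := pow_ne_zero _ hl
      apply mul_left_cancel₀ h3
      linear_combination es
    · have h4 : lam A B ^ 4 ≠ 0 := pow_ne_zero _ hl
      apply mul_left_cancel₀ h4
      linear_combination ep

/-- **Parallelogram law** for the degree on the twisted curve. -/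
theorem dpt_parallelogram (hΔ : 4 * A ^ 3 + 27 * B ^ 2 ≠ 0) (h2 : (2 : k) ≠ 0)
    (R S : (Etw A B).Point) :
    dpt A B (R + S) + dpt A B (R - S) = 2 * dpt A B R + 2 * dpt A B S := by
  obtain ⟨h01, h02, h12⟩ := cross A B h2 R S
  rw [dpt_eq, dpt_eq, dpt_eq, dpt_eq]
  exact hd_add_eq A B h2 hΔ (isCoprime_xn_xd A B R) (isCoprime_xn_xd A B S)
    (isCoprime_xn_xd A B (R + S)) (isCoprime_xn_xd A B (R - S)) h01 h02 h12

/-- The degree as an integer-valued function satisfies the parallelogram law. -/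
theorem isPar_dpt (hΔ : 4 * A ^ 3 + 27 * B ^ 2 ≠ 0) (h2 : (2 : k) ≠ 0) :
    Quadratic.IsPar (fun P : (Etw A B).Point => (dpt A B P : ℤ)) := by
  intro R S
  have := dpt_parallelogram A B hΔ h2 R S
  show (dpt A B (R + S) : ℤ) + (dpt A B (R - S) : ℤ) = 2 * (dpt A B R : ℤ) + 2 * (dpt A B S : ℤ)
  exact_mod_cast this

end Fermat.Agent.S52.Tr.Parallelogram
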