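import Fermat.Agent.S52.Tr.Gram
import Fermat.Agent.S52.Tr.Parallelogram
import Fermat.Agent.S52.Tr.ManinFrozen
import Fermat.Agent.S52.Tr.RatDeg
import Fermat.Agent.S52.Tr.CompCore
import Fermat.Agent.S52.Tr.Comp

/-!
# S52, brick (Tr): assembly of the generic relation `P2 - a P1 + ℓ Q = 0` (helper166)

`frob_relation_of_comp`: given ANY composition operation `comp` on the points of the twisted
curve with the six formal properties of `Gram.frob_relation`, the Frobenius relation holds with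
`a = ℓ + 1 - #E(F_ℓ)`.
-/

set_option autoImplicit false

namespace Fermat.Agent.S52.Tr.Assembly

open Polynomial WeierstrassCurve
open Fermat.Agent.S52.Tr

variable (ℓ : ℕ) [Fact ℓ.Prime] (A B : ZMod ℓ) [DecidableEq (RatFunc (ZMod ℓ))]

omit [DecidableEq (RatFunc (ZMod ℓ))] in
lemma dpt_Qpt (hΔ : 4 * A ^ 3 + 27 * B ^ 2 ≠ 0) (h2 : (2 : ZMod ℓ) ≠ 0) :
    dpt A B (Qpt A B hΔ h2) = 1 := by
  unfold Qpt
  rw [CompCore.dpt_mkPt, RatDeg.rdeg_X]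

omit [DecidableEq (RatFunc (ZMod ℓ))] in
lemma dpt_frobPt (hΔ : 4 * A ^ 3 + 27 * B ^ 2 ≠ 0) (h2 : (2 : ZMod ℓ) ≠ 0) (hℓ : ℓ ≠ 2) (n : ℕ) :
    dpt A B (frobPt ℓ A B hΔ h2 hℓ n) = ℓ ^ n := by
  unfold frobPt
  rw [CompCore.dpt_mkPt, RatDeg.rdeg_X_pow]

/-- the generic Frobenius relation, for any composition with the formal properties -/
theorem frob_relation_of_comp (hΔ : 4 * A ^ 3 + 27 * B ^ 2 ≠ 0) (h2 : (2 : ZMod ℓ) ≠ 0)
    (hℓ : ℓ ≠ 2)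
    (comp : (Etw A B).Point → (Etw A B).Point →+ (Etw A B).Point)
    (hdeg : ∀ S R, dpt A B S ≠ 0 → dpt A B (comp S R) = dpt A B R * dpt A B S)
    (hassoc : ∀ S T R, dpt A B S ≠ 0 → dpt A B T ≠ 0 →
      comp S (comp T R) = comp (comp S T) R)
    (hQ : ∀ S, dpt A B S ≠ 0 → comp S (Qpt A B hΔ h2) = S)
    (hP1 : ∀ S, dpt A B S ≠ 0 →
      comp S (frobPt ℓ A B hΔ h2 hℓ 1) = comp (frobPt ℓ A B hΔ h2 hℓ 1) S)
    (hconst : ∀ Z S, dpt A B Z = 0 → dpt A B S ≠ 0 → comp S Z = Z)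
    (hFr : comp (frobPt ℓ A B hΔ h2 hℓ 1) (frobPt ℓ A B hΔ h2 hℓ 1)
      = frobPt ℓ A B hΔ h2 hℓ 2) :
    frobPt ℓ A B hΔ h2 hℓ 2
      - ((ℓ : ℤ) + 1 - (Nat.card (shortCurve A B : WeierstrassCurve.Affine (ZMod ℓ)).Point : ℤ))
        • frobPt ℓ A B hΔ h2 hℓ 1
      + (ℓ : ℤ) • Qpt A B hΔ h2 = 0 := by
  have hℓ0 : (ℓ : ℤ) ≠ 0 := by exact_mod_cast (Fact.out : ℓ.Prime).ne_zero
  have hne : ∀ S : (Etw A B).Point, (dpt A B S : ℤ) ≠ 0 → dpt A B S ≠ 0 :=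
    fun S h h0 => h (by rw [h0]; rfl)
  have key := Gram.frob_relation (G := (Etw A B).Point)
    (d := fun P => (dpt A B P : ℤ)) (comp := comp) (Q := Qpt A B hΔ h2)
    (P1 := frobPt ℓ A B hΔ h2 hℓ 1) (l := (ℓ : ℤ))
    (N := (Nat.card (shortCurve A B : WeierstrassCurve.Affine (ZMod ℓ)).Point : ℤ))
    (Parallelogram.isPar_dpt A B hΔ h2)
    (fun S R hS => by
      have := hdeg S R (hne S hS)
      show (dpt A B (comp S R) : ℤ) = (dpt A B R : ℤ) * (dpt A B S : ℤ)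
      exact_mod_cast this)
    (fun S T R hS hT => hassoc S T R (hne S hS) (hne T hT))
    (fun S hS => hQ S (hne S hS))
    (fun S hS => hP1 S (hne S hS))
    (fun Z S hZ hS => hconst Z S (by exact_mod_cast hZ) (hne S hS))
    (by show (dpt A B (Qpt A B hΔ h2) : ℤ) = 1; rw [dpt_Qpt]; rfl)
    (by show (dpt A B (frobPt ℓ A B hΔ h2 hℓ 1) : ℤ) = (ℓ : ℤ); rw [dpt_frobPt, pow_one])
    hℓ0
    (ManinFrozen.dpt_frob_sub_Q_int ℓ A B hΔ h2 hℓ)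
    (ManinFrozen.dpt_frob_add_Q_int ℓ A B hΔ h2 hℓ)
    (ManinFrozen.card_ne_int ℓ A B hΔ hℓ)
  rw [hFr] at key
  exact key

/-- **The generic Frobenius relation** (Manin): on the twisted curve `Etw A B` over
`RatFunc (ZMod ℓ)`, the points `frobPt n = (t^(ℓ^n), lam^((ℓ^n-1)/2))` and `Qpt = (t, 1)` satisfy
`frobPt 2 - a • frobPt 1 + ℓ • Qpt = 0` with `a = ℓ + 1 - #E(F_ℓ)`, `E : y² = x³ + A x + B`. -/
theorem frob_relation (hΔ : 4 * A ^ 3 + 27 * B ^ 2 ≠ 0) (h2 : (2 : ZMod ℓ) ≠ 0)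
    (hℓ : ℓ ≠ 2) :
    frobPt ℓ A B hΔ h2 hℓ 2
      - ((ℓ : ℤ) + 1 - (Nat.card (shortCurve A B : WeierstrassCurve.Affine (ZMod ℓ)).Point : ℤ))
        • frobPt ℓ A B hΔ h2 hℓ 1
      + (ℓ : ℤ) • Qpt A B hΔ h2 = 0 :=
  frob_relation_of_comp ℓ A B hΔ h2 hℓ (Comp.comp A B)
    (fun S R _ => Comp.dpt_comp A B hΔ h2 S R)
    (fun _ _ R hS hT => Comp.comp_assoc' A B hΔ h2 hS hT R)
    (fun _ hS => Comp.comp_Qpt' A B hΔ h2 hS)
    (fun _ hS => Comp.comp_frobPt_one' ℓ A B hΔ h2 hℓ hS)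
    (fun _ _ hZ hS => Comp.comp_of_dpt_eq_zero A B hΔ h2 hZ hS)
    (Comp.comp_frobPt_frobPt ℓ A B hΔ h2 hℓ 1)

end Fermat.Agent.S52.Tr.Assembly
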