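import Fermat.Agent.S52.Tr.Defs

/-!
# S52, brick (Tr): points of degree `0` on the twisted curve (helper177)

A point `Z` of `Etw A B` with `dpt Z = 0` is the origin, or a *constant 2-torsion point*:
`Xc Z = C c` with `c` a root of the cubic, and `Yc Z = 0`.  (Because `lam * Y^2 = f(c)` and
`lam` has odd degree `3`.)  Consequently such a point is fixed by every composition operator and
satisfies `Z + Z = 0`.
-/

set_option autoImplicit false

namespace Fermat.Agent.S52.Tr.ConstPt

open Polynomial Fermat.Agent.S52.Tr

variable {k : Type*} [Field k]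

/-- a rational function of degree `0` is a constant -/
lemma exists_C_of_rdeg_eq_zero (r : RatFunc k) (h : rdeg r = 0) : ∃ c : k, r = RatFunc.C c := by
  unfold rdeg hd at h
  have hn : r.num.natDegree = 0 := by omega
  have hd' : r.denom.natDegree = 0 := by omega
  obtain ⟨a, ha⟩ := Polynomial.natDegree_eq_zero.mp hn
  obtain ⟨b, hb⟩ := Polynomial.natDegree_eq_zero.mp hd'
  refine ⟨a / b, ?_⟩
  have h1 := RatFunc.num_div_denom r
  rw [← ha, ← hb] at h1
  rw [← h1, RatFunc.algebraMap_C, RatFunc.algebraMap_C, ← map_div₀]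

lemma rdeg_C (c : k) : rdeg (RatFunc.C c) = 0 := by
  unfold rdeg hd
  rw [RatFunc.num_C, RatFunc.denom_C]
  simp

variable (A B : k)

lemma intDegree_lam : (lam A B).intDegree = 3 := by
  unfold lam
  rw [RatFunc.intDegree_polynomial, cubic_natDegree]
  rfl

/-- `lam^3 * C e` with `e ≠ 0` is not a square in `RatFunc k` (odd degree `9`) -/
lemma not_sq_lam_cube_mul_C {e : k} (he : e ≠ 0) (y : RatFunc k) :
    y ^ 2 ≠ lam A B ^ 3 * RatFunc.C e := by
  intro h
  have hl := lam_ne_zero A B
  have hC : (RatFunc.C e : RatFunc k) ≠ 0 := by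
    rw [Ne, map_eq_zero]; exact he
  have hy : y ≠ 0 := by
    rintro rfl
    have : lam A B ^ 3 * RatFunc.C e ≠ 0 := mul_ne_zero (pow_ne_zero _ hl) hC
    apply this
    rw [← h]; ring
  have h1 : (y ^ 2).intDegree = 2 * y.intDegree := by
    rw [pow_two, RatFunc.intDegree_mul hy hy]; ring
  have h2 : (lam A B ^ 3 * RatFunc.C e).intDegree = 9 := by
    rw [RatFunc.intDegree_mul (pow_ne_zero _ hl) hC, RatFunc.intDegree_C, pow_succ, pow_two,
      RatFunc.intDegree_mul (mul_ne_zero hl hl) hl, RatFunc.intDegree_mul hl hl, intDegree_lam]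
    norm_num
  rw [h, h2] at h1
  omega

/-- **Degree-zero points are constant 2-torsion points.** -/
theorem const_of_dpt_eq_zero (P : (Etw A B).Point) (h : dpt A B P = 0) :
    P = 0 ∨ ∃ c : k, (cubic A B).eval c = 0 ∧ Xc A B P = RatFunc.C c ∧ Yc A B P = 0 := by
  rcases P with _ | ⟨x, y, hns⟩
  · left; rfl
  · right
    have hl := lam_ne_zero A B
    simp only [dpt] at h
    obtain ⟨c, hc⟩ := exists_C_of_rdeg_eq_zero _ h
    have hx : x = lam A B * RatFunc.C c := by
      rw [← hc]; field_simp
    have heq := hns.1
    rw [WeierstrassCurve.Affine.equation_iff] at heq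
    simp only [Etw, shortCurve] at heq
    have hy2 : y ^ 2 = lam A B ^ 3 * RatFunc.C ((cubic A B).eval c) := by
      have e : (RatFunc.C ((cubic A B).eval c) : RatFunc k)
          = RatFunc.C c ^ 3 + RatFunc.C A * RatFunc.C c + RatFunc.C B := by
        simp [cubic]
      rw [e]
      rw [hx] at heq
      linear_combination heq
    have he : (cubic A B).eval c = 0 := by
      by_contra hne
      exact not_sq_lam_cube_mul_C A B hne y hy2
    refine ⟨c, he, ?_, ?_⟩
    · simp only [Xc]; exact hc
    · simp only [Yc]
      rw [he, map_zero, mul_zero] at hy2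
      have : y = 0 := by simpa using hy2
      rw [this, zero_div]

/-- the `y`-coordinate of an affine point of degree `0` vanishes -/
theorem y_eq_zero_of_dpt_eq_zero {x y : RatFunc k} (hns : (Etw A B).Nonsingular x y)
    (h : dpt A B (.some x y hns) = 0) : y = 0 := by
  rcases const_of_dpt_eq_zero A B (.some x y hns) h with h0 | ⟨c, -, -, hY⟩
  · exact absurd h0 (by simp)
  · simp only [Yc] at hY
    have hl := lam_ne_zero A B
    rcases div_eq_zero_iff.mp hY with h1 | h1
    · exact h1
    · exact absurd h1 (pow_ne_zero _ hl)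

/-- a point of degree `0` is killed by `2` -/
theorem add_self_of_dpt_eq_zero [DecidableEq (RatFunc k)] (P : (Etw A B).Point)
    (h : dpt A B P = 0) : P + P = 0 := by
  rcases P with _ | ⟨x, y, hns⟩
  · exact add_zero _
  · have hy := y_eq_zero_of_dpt_eq_zero A B hns h
    subst hy
    have hneg : -(WeierstrassCurve.Affine.Point.some x 0 hns : (Etw A B).Point)
        = WeierstrassCurve.Affine.Point.some x 0 hns := by
      rw [WeierstrassCurve.Affine.Point.neg_some]
      congr 1
      simp [WeierstrassCurve.Affine.negY, Etw, shortCurve]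
    calc (WeierstrassCurve.Affine.Point.some x 0 hns : (Etw A B).Point)
          + WeierstrassCurve.Affine.Point.some x 0 hns
        = WeierstrassCurve.Affine.Point.some x 0 hns
          + -(WeierstrassCurve.Affine.Point.some x 0 hns : (Etw A B).Point) := by rw [hneg]
      _ = 0 := add_neg_cancel _

end Fermat.Agent.S52.Tr.ConstPt
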