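import Fermat.Agent.S52.Tr.Assembly
import Fermat.Agent.S52.Tr.Consumer

/-!
# S52, brick (Tr): final wiring (helper166)

`SpecStatement ℓ K` is the shape of step (g) (specialisation of the generic Frobenius relation on
the twisted curve over `RatFunc (ZMod ℓ)` to the `K`-points of the short curve).
`trStatement'_of_spec`, `trStatement_of_spec`: (g) + `Assembly.frob_relation` give helper106's
`Consumer.TrStatement' ℓ K` / `Consumer.TrStatement ℓ K`, i.e. `φ² - a φ + ℓ = 0` on `E(K)` with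
`a` the Prelude's `traceOfFrobenius`.
-/

set_option autoImplicit false

namespace Fermat.Agent.S52.Tr.Final

open WeierstrassCurve
open Fermat.Agent.S52.Tr

variable (ℓ : ℕ) [Fact ℓ.Prime] (K : Type*) [Field K] [DecidableEq K] [Algebra (ZMod ℓ) K]

/-- The shape of step (g): a relation `frobPt 2 - a • frobPt 1 + ℓ • Qpt = 0` between the three
points of the twisted curve specialises to `φ² - a φ + ℓ = 0` on all `K`-points of the short
curve. -/
def SpecStatement : Prop :=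
  ∀ [DecidableEq (RatFunc (ZMod ℓ))] (A B : ZMod ℓ) (hΔ : 4 * A ^ 3 + 27 * B ^ 2 ≠ 0)
    (h2 : (2 : ZMod ℓ) ≠ 0) (hℓ : ℓ ≠ 2) (a : ℤ),
    frobPt ℓ A B hΔ h2 hℓ 2 - a • frobPt ℓ A B hΔ h2 hℓ 1 + (ℓ : ℤ) • Qpt A B hΔ h2 = 0 →
    ∀ P : (Consumer.shortBar ℓ K A B).Point,
      Consumer.frobK ℓ K A B (Consumer.frobK ℓ K A B P) - a • Consumer.frobK ℓ K A B P
        + (ℓ : ℤ) • P = 0

omit [DecidableEq K] [Algebra (ZMod ℓ) K] in
lemma two_ne_zero_of_ne_two (hℓ : ℓ ≠ 2) : (2 : ZMod ℓ) ≠ 0 := by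
  intro h
  have h' : ((2 : ℕ) : ZMod ℓ) = 0 := by exact_mod_cast h
  rw [ZMod.natCast_eq_zero_iff] at h'
  exact hℓ ((Nat.prime_dvd_prime_iff_eq (Fact.out : ℓ.Prime) Nat.prime_two).mp h')

omit [DecidableEq K] [Algebra (ZMod ℓ) K] in
lemma traceOfFrobenius_short (A B : ZMod ℓ) :
    (shortCurve A B).traceOfFrobenius
      = (ℓ : ℤ) + 1 - (Nat.card (shortCurve A B : WeierstrassCurve.Affine (ZMod ℓ)).Point : ℤ) := by
  unfold WeierstrassCurve.traceOfFrobenius WeierstrassCurve.card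
  rw [Nat.card_zmod]

theorem trStatement'_of_spec (hℓ : ℓ ≠ 2) (hspec : SpecStatement ℓ K) :
    Consumer.TrStatement' ℓ K := by
  classical
  intro A B hΔ P
  have h2 := two_ne_zero_of_ne_two ℓ hℓ
  rw [traceOfFrobenius_short]
  exact hspec A B hΔ h2 hℓ _ (Assembly.frob_relation ℓ A B hΔ h2 hℓ) P

theorem trStatement_of_spec (hℓ : ℓ ≠ 2) (hspec : SpecStatement ℓ K) :
    Consumer.TrStatement ℓ K :=
  (Consumer.trStatement_iff ℓ K).mpr (trStatement'_of_spec ℓ K hℓ hspec)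

end Fermat.Agent.S52.Tr.Final
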