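import Mathlib

/-!
# S52, brick (Tr), parts (e) + (f): Gram matrix and conclusion (helper177)

Abstract, Mathlib-only form of steps (e), (f) of helper166's `S52_Tr.md` (Manin's proof of
`φ² - a φ + ℓ = 0`).  Nothing here depends on the concrete definitions of the twisted curve.

Setting: an additive commutative group `G` (the points of the twisted curve over `RatFunc k`),
a function `d : G → ℤ` (the degree of the `X`-coordinate) satisfying the parallelogram law,
a composition operation `comp S : G →+ G` (substitution `t ↦ X_S` followed by the twist by `Y_S`)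
which is multiplicative for `d`, the generic point `Q` (`comp S Q = S`) and the Frobenius point
`P1` (`comp S P1 = comp P1 S`, i.e. `comp P1` is the Frobenius).  `P2 := comp P1 P1`.

Main results:
* `d_frob_relation` : `d (comp P1 P1 - (l + 1 - N) • P1 + l • Q) = 0`;
* `frob_relation`   : `comp P1 P1 - (l + 1 - N) • P1 + l • Q = 0`.
-/

set_option autoImplicit false

namespace Fermat.Agent.S52.Tr.Gram

section Quadratic

variable {G : Type*} [AddCommGroup G] (d : G → ℤ)

/-- the polar form `d (x + y) - d (x - y)` (twice the usual pairing) -/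
def polar (x y : G) : ℤ := d (x + y) - d (x - y)

variable {d}

lemma d_zero (hpar : ∀ R S : G, d (R + S) + d (R - S) = 2 * d R + 2 * d S) : d 0 = 0 := by
  have h := hpar 0 0
  simp only [add_zero, sub_zero] at h
  linarith

lemma d_neg (hpar : ∀ R S : G, d (R + S) + d (R - S) = 2 * d R + 2 * d S) (x : G) :
    d (-x) = d x := by
  have h := hpar 0 x
  have h0 := d_zero hpar
  simp only [zero_add, zero_sub] at h
  linarith

lemma d_sub_comm (hpar : ∀ R S : G, d (R + S) + d (R - S) = 2 * d R + 2 * d S) (x y : G) :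
    d (x - y) = d (y - x) := by
  rw [← d_neg hpar (x - y), neg_sub]

lemma polar_neg_left (hpar : ∀ R S : G, d (R + S) + d (R - S) = 2 * d R + 2 * d S) (x y : G) :
    polar d (-x) y = - polar d x y := by
  unfold polar
  have h1 : d (-x + y) = d (x - y) := by
    rw [← d_neg hpar (-x + y)]; congr 1; abel
  have h2 : d (-x - y) = d (x + y) := by
    rw [← d_neg hpar (-x - y)]; congr 1; abel
  rw [h1, h2]; ring

lemma polar_add_left (hpar : ∀ R S : G, d (R + S) + d (R - S) = 2 * d R + 2 * d S) (x x' y : G) :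
    polar d (x + x') y = polar d x y + polar d x' y := by
  -- `B(x+x',y) + B(x-x',y) = 2 B(x,y)` and the same with `x, x'` swapped
  have key : ∀ u v : G, polar d (u + v) y + polar d (u - v) y = 2 * polar d u y := by
    intro u v
    unfold polar
    have h1 := hpar (u + y) v
    have h2 := hpar (u - y) v
    have e1 : u + y + v = u + v + y := by abel
    have e2 : u + y - v = u - v + y := by abel
    have e3 : u - y + v = u + v - y := by abel
    have e4 : u - y - v = u - v - y := by abel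
    rw [e1, e2] at h1
    rw [e3, e4] at h2
    linarith
  have k1 := key x x'
  have k2 := key x' x
  have e : x' - x = -(x - x') := by abel
  rw [add_comm x' x, e, polar_neg_left hpar] at k2
  linarith

lemma polar_comm (hpar : ∀ R S : G, d (R + S) + d (R - S) = 2 * d R + 2 * d S) (x y : G) :
    polar d x y = polar d y x := by
  unfold polar
  rw [add_comm x y, d_sub_comm hpar x y]

lemma polar_add_right (hpar : ∀ R S : G, d (R + S) + d (R - S) = 2 * d R + 2 * d S) (x y y' : G) :
    polar d x (y + y') = polar d x y + polar d x y' := by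
  rw [polar_comm hpar x (y + y'), polar_add_left hpar, polar_comm hpar y x, polar_comm hpar y' x]

/-- the polar form as a biadditive map -/
def polarHom (hpar : ∀ R S : G, d (R + S) + d (R - S) = 2 * d R + 2 * d S) : G →+ G →+ ℤ :=
  AddMonoidHom.mk' (fun x => AddMonoidHom.mk' (fun y => polar d x y) (polar_add_right hpar x))
    (fun x x' => by
      ext y
      simp only [AddMonoidHom.mk'_apply, AddMonoidHom.add_apply]
      exact polar_add_left hpar x x' y)

lemma polarHom_apply (hpar : ∀ R S : G, d (R + S) + d (R - S) = 2 * d R + 2 * d S) (x y : G) :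
    polarHom hpar x y = polar d x y := rfl

lemma polar_zsmul_left (hpar : ∀ R S : G, d (R + S) + d (R - S) = 2 * d R + 2 * d S) (n : ℤ)
    (x y : G) : polar d (n • x) y = n * polar d x y := by
  have h : polarHom hpar (n • x) y = n • polarHom hpar x y := by
    rw [map_zsmul]; rfl
  rw [polarHom_apply, polarHom_apply, smul_eq_mul] at h
  exact h

lemma polar_zsmul_right (hpar : ∀ R S : G, d (R + S) + d (R - S) = 2 * d R + 2 * d S) (n : ℤ)
    (x y : G) : polar d x (n • y) = n * polar d x y := by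
  rw [polar_comm hpar, polar_zsmul_left hpar, polar_comm hpar]

lemma polar_self (hpar : ∀ R S : G, d (R + S) + d (R - S) = 2 * d R + 2 * d S) (x : G) :
    polar d x x = 4 * d x := by
  unfold polar
  have h := hpar x x
  have h0 := d_zero hpar
  rw [sub_self] at h ⊢
  linarith

/-- `2 d (x + y) = 2 d x + 2 d y + B (x, y)` -/
lemma two_d_add (hpar : ∀ R S : G, d (R + S) + d (R - S) = 2 * d R + 2 * d S) (x y : G) :
    2 * d (x + y) = 2 * d x + 2 * d y + polar d x y := by
  unfold polar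
  have h := hpar x y
  linarith

lemma d_zsmul (hpar : ∀ R S : G, d (R + S) + d (R - S) = 2 * d R + 2 * d S) (n : ℤ) (x : G) :
    d (n • x) = n ^ 2 * d x := by
  have h1 := polar_self hpar (n • x)
  rw [polar_zsmul_left hpar, polar_zsmul_right hpar, polar_self hpar] at h1
  linarith

/-- expansion of `d (x - a • y + l • z)` in terms of the polar form -/
lemma two_d_combo (hpar : ∀ R S : G, d (R + S) + d (R - S) = 2 * d R + 2 * d S) (a l : ℤ)
    (x y z : G) :
    2 * d (x - a • y + l • z) =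
      2 * d x + 2 * a ^ 2 * d y + 2 * l ^ 2 * d z - a * polar d x y + l * polar d x z
        - a * l * polar d y z := by
  have e : x - a • y + l • z = x + ((-a) • y + l • z) := by
    rw [neg_smul]; abel
  rw [e, two_d_add hpar, polar_add_right hpar, polar_zsmul_right hpar, polar_zsmul_right hpar]
  have h2 := two_d_add hpar ((-a) • y) (l • z)
  rw [polar_zsmul_left hpar, polar_zsmul_right hpar, d_zsmul hpar, d_zsmul hpar] at h2
  linear_combination h2

end Quadratic

section Main

variable {G : Type*} [AddCommGroup G] {d : G → ℤ} {comp : G → G →+ G} {Q P1 : G} {l N : ℤ}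

/-- `Fr (P1 + Q) = P2 + P1`. -/
lemma comp_P1_add (hQ : ∀ S, d S ≠ 0 → comp S Q = S) (dP1 : d P1 = l) (hl : l ≠ 0) :
    comp P1 (P1 + Q) = comp P1 P1 + P1 := by
  rw [map_add, hQ P1 (by rw [dP1]; exact hl)]

/-- `P2 - Q = comp (P1 + Q) (P1 - Q)`. -/
lemma comp_add_sub (hQ : ∀ S, d S ≠ 0 → comp S Q = S)
    (hP1 : ∀ S, d S ≠ 0 → comp S P1 = comp P1 S) (dP1 : d P1 = l) (hl : l ≠ 0)
    (hplus : d (P1 + Q) ≠ 0) :
    comp (P1 + Q) (P1 - Q) = comp P1 P1 - Q := by
  rw [map_sub, hP1 _ hplus, hQ _ hplus, comp_P1_add hQ dP1 hl]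
  abel

/-- **Step (e)**: the point `Z = P2 - a P1 + l Q`, `a = l + 1 - N`, has degree `0`. -/
theorem d_frob_relation
    (hpar : ∀ R S : G, d (R + S) + d (R - S) = 2 * d R + 2 * d S)
    (hdeg : ∀ S R, d S ≠ 0 → d (comp S R) = d R * d S)
    (hQ : ∀ S, d S ≠ 0 → comp S Q = S)
    (hP1 : ∀ S, d S ≠ 0 → comp S P1 = comp P1 S)
    (dQ : d Q = 1) (dP1 : d P1 = l) (hl : l ≠ 0)
    (hminus : d (P1 - Q) = N) (hplus : d (P1 + Q) = 2 * l + 2 - N) (hN' : N ≠ 2 * l + 2) :
    d (comp P1 P1 - (l + 1 - N) • P1 + l • Q) = 0 := by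
  have hP1ne : d P1 ≠ 0 := by rw [dP1]; exact hl
  have hplusne : d (P1 + Q) ≠ 0 := by
    rw [hplus]; intro h; apply hN'; linarith
  -- degrees
  have dP2 : d (comp P1 P1) = l ^ 2 := by
    rw [hdeg P1 P1 hP1ne, dP1]; ring
  have dP2P1 : d (comp P1 P1 + P1) = (2 * l + 2 - N) * l := by
    rw [← comp_P1_add hQ dP1 hl, hdeg P1 _ hP1ne, hplus, dP1]
  have dP2Q : d (comp P1 P1 - Q) = N * (2 * l + 2 - N) := by
    rw [← comp_add_sub hQ hP1 dP1 hl hplusne, hdeg _ _ hplusne, hminus, hplus]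
  -- polar forms
  have B1 : polar d P1 Q = 2 * (l + 1 - N) := by
    unfold polar; rw [hplus, hminus]; ring
  have B2 : polar d (comp P1 P1) P1 = 2 * l * (l + 1 - N) := by
    have h := two_d_add hpar (comp P1 P1) P1
    rw [dP2P1, dP2, dP1] at h
    linear_combination (-1 : ℤ) * h
  have B3 : polar d (comp P1 P1) Q = 2 * ((l + 1 - N) ^ 2 - 2 * l) := by
    have h := hpar (comp P1 P1) Q
    rw [dP2Q, dP2, dQ] at h
    unfold polar
    rw [dP2Q]
    linear_combination h
  have h := two_d_combo hpar (l + 1 - N) l (comp P1 P1) P1 Q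
  rw [dP2, dP1, dQ, B1, B2, B3] at h
  have h2 : 2 * d (comp P1 P1 - (l + 1 - N) • P1 + l • Q) = 0 := by
    rw [h]; ring
  linarith

/-- **Steps (e) + (f)**: `P2 - a P1 + l Q = 0`, where `a = l + 1 - N`.

Instances of the hypotheses actually used: `hdeg` at `(P1, P1)`, `(P1, P1 + Q)`,
`(P1 + Q, P1 - Q)`; `hQ` at `P1`, `P1 + Q`, `2 • Q`; `hP1` at `P1 + Q`, `2 • Q`, `2 • P1`;
`hassoc` at `(2 • Q, P1, P1)`; `hconst` at `(Z, 2 • Q)`. -/
theorem frob_relation
    (hpar : ∀ R S : G, d (R + S) + d (R - S) = 2 * d R + 2 * d S)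
    (hdeg : ∀ S R, d S ≠ 0 → d (comp S R) = d R * d S)
    (hassoc : ∀ S T R, d S ≠ 0 → d T ≠ 0 → comp S (comp T R) = comp (comp S T) R)
    (hQ : ∀ S, d S ≠ 0 → comp S Q = S)
    (hP1 : ∀ S, d S ≠ 0 → comp S P1 = comp P1 S)
    (hconst : ∀ Z S, d Z = 0 → d S ≠ 0 → comp S Z = Z)
    (dQ : d Q = 1) (dP1 : d P1 = l) (hl : l ≠ 0)
    (hminus : d (P1 - Q) = N) (hplus : d (P1 + Q) = 2 * l + 2 - N) (hN' : N ≠ 2 * l + 2) :
    comp P1 P1 - (l + 1 - N) • P1 + l • Q = 0 := by
  have hZ := d_frob_relation hpar hdeg hQ hP1 dQ dP1 hl hminus hplus hN'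
  have hP1ne : d P1 ≠ 0 := by rw [dP1]; exact hl
  have d2Q : d ((2 : ℤ) • Q) ≠ 0 := by
    rw [d_zsmul hpar, dQ]; norm_num
  have d2P1 : d ((2 : ℤ) • P1) ≠ 0 := by
    rw [d_zsmul hpar, dP1]
    exact mul_ne_zero (by norm_num) hl
  -- `comp (2Q)` of the three points
  have c1 : comp ((2 : ℤ) • Q) Q = (2 : ℤ) • Q := hQ _ d2Q
  have c2 : comp ((2 : ℤ) • Q) P1 = (2 : ℤ) • P1 := by
    rw [hP1 _ d2Q, map_zsmul, hQ P1 hP1ne]
  have c3 : comp ((2 : ℤ) • Q) (comp P1 P1) = (2 : ℤ) • comp P1 P1 := by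
    rw [hassoc _ _ _ d2Q hP1ne, c2, hP1 _ d2P1, map_zsmul]
  have h := hconst _ ((2 : ℤ) • Q) hZ d2Q
  rw [map_add, map_sub, map_zsmul, map_zsmul, c1, c2, c3] at h
  -- `2 Z = Z`
  have h2 : (2 : ℤ) • (comp P1 P1 - (l + 1 - N) • P1 + l • Q)
      = comp P1 P1 - (l + 1 - N) • P1 + l • Q := by
    calc (2 : ℤ) • (comp P1 P1 - (l + 1 - N) • P1 + l • Q)
        = (2 : ℤ) • comp P1 P1 - (l + 1 - N) • (2 : ℤ) • P1 + l • (2 : ℤ) • Q := by
          rw [smul_add, smul_sub, smul_comm (2 : ℤ) (l + 1 - N) P1, smul_comm (2 : ℤ) l Q]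
      _ = comp P1 P1 - (l + 1 - N) • P1 + l • Q := h
  have h3 : (2 : ℤ) • (comp P1 P1 - (l + 1 - N) • P1 + l • Q)
      = (comp P1 P1 - (l + 1 - N) • P1 + l • Q) + (comp P1 P1 - (l + 1 - N) • P1 + l • Q) :=
    two_zsmul _
  rw [h3] at h2
  exact add_eq_right.mp h2

end Main

end Fermat.Agent.S52.Tr.Gram
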