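import Fermat.Agent.S52.Tr.ManinMain
import Fermat.Agent.S52.Tr.Defs

/-!
# S52, brick (Tr): adapter from helper58's `ManinCount` objects to the frozen `Tr/Defs` ones
(helper166)
-/

set_option autoImplicit false

namespace Fermat.Agent.S52.Tr.ManinAdapter

open Polynomial WeierstrassCurve
open Fermat.Agent.S52.Tr

/-- transport of points along an equality of curves -/
theorem transfer {F : Type*} [Field F] [DecidableEq F] {W W' : WeierstrassCurve.Affine F}
    (h : W = W') :
    ∃ e : W.Point ≃+ W'.Point, ∀ x y (hns : W.Nonsingular x y),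
      e (.some x y hns) = .some x y (h ▸ hns) := by
  subst h
  exact ⟨AddEquiv.refl _, fun _ _ _ => rfl⟩

variable (l : ℕ) [Fact l.Prime] (A B : ZMod l)

lemma lam_eq' : ManinCount.lam l A B = lam A B := by
  rw [ManinCount.lam_eq]; rfl

lemma Etw_eq : (ManinCount.Etw l A B : WeierstrassCurve.Affine (RatFunc (ZMod l))) = Etw A B := by
  unfold ManinCount.Etw Etw shortCurve
  rw [lam_eq']

lemma shortCurve_eq :
    (ManinCount.shortCurve l A B : WeierstrassCurve.Affine (ZMod l)) = shortCurve A B := rfl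

variable [DecidableEq (RatFunc (ZMod l))]

/-- **Manin count**, in the frozen interface: `dpt (P1 - Q) = #E(F_l)`. -/
theorem dpt_frob_sub_Q (hΔ : 4 * A ^ 3 + 27 * B ^ 2 ≠ 0) (h2 : (2 : ZMod l) ≠ 0) (hl : l ≠ 2) :
    dpt A B (frobPt l A B hΔ h2 hl 1 - Qpt A B hΔ h2) = Nat.card (shortCurve A B).Point ∧
    dpt A B (frobPt l A B hΔ h2 hl 1 + Qpt A B hΔ h2) + Nat.card (shortCurve A B).Point
      = 2 * l + 2 := by
  obtain ⟨e, he⟩ := transfer (Etw_eq l A B)
  have hlam := lam_eq' l A B
  have hQ : e (ManinCount.Q l A B hl hΔ) = Qpt A B hΔ h2 := by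
    unfold ManinCount.Q Qpt mkPt
    rw [he]
    congr 1
    · rw [hlam]; rfl
    · rw [hlam]; simp [yOf]
  have hP : e (ManinCount.P1 l A B hl hΔ) = frobPt l A B hΔ h2 hl 1 := by
    unfold ManinCount.P1 frobPt mkPt
    rw [he]
    have hodd : Odd l := (Fact.out : l.Prime).odd_of_ne_two hl
    obtain ⟨m, hm⟩ := hodd
    have e1 : (l ^ 1 - 1) / 2 = l / 2 := by rw [pow_one]; omega
    congr 1
    · rw [hlam]; simp [xOf]
    · rw [hlam, e1]; rfl
  have hd : ∀ P, ManinCount.dX l A B P = dpt A B (e P) := by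
    intro P
    rcases P with _ | ⟨x, y, hns⟩
    · have : e (0 : (ManinCount.Etw l A B).toAffine.Point) = 0 := map_zero e
      change (0 : ℕ) = dpt A B (e 0)
      rw [this]; rfl
    · rw [he]
      change ManinCount.hX l (x / ManinCount.lam l A B) = rdeg (x / lam A B)
      rw [hlam]; rfl
  constructor
  · rw [← hQ, ← hP, ← map_sub, ← hd, ManinCount.dX_P1_sub_Q_eq_card]; rfl
  · rw [← hQ, ← hP, ← map_add, ← hd]
    exact ManinCount.dX_P1_add_Q_add_card l A B hl hΔ

end Fermat.Agent.S52.Tr.ManinAdapter
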