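/-
S52, brick (Tr), part (d): MANIN COUNT on the twisted curve (helper58).

`k = ZMod l`, `K = RatFunc k`, `lam = t^3 + A t + B`, twisted curve
`Etw : y^2 = x^3 + A lam^2 x + B lam^3` over `K`, points `Q = (lam t, lam^2)`,
`P1 = (lam t^l, lam^2 lam^(l/2))` (Frobenius of `Q`).  With `X := x / lam` and
`dX (x, y) := max (num X).natDegree (denom X).natDegree`, `dX O := 0`:
  `dX (P1 - Q) = 1 + n0 + 2 n_+`   and   `dX (P1 + Q) = 1 + n0 + 2 n_-`,
hence `dX (P1 - Q) + dX (P1 + Q) = 2 l + 2`.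
-/
import Fermat.Agent.S52.Tr.ManinCount

set_option autoImplicit false

open Polynomial

namespace Fermat.Agent.S52.Tr.ManinCount

open WeierstrassCurve

section Twist

variable (l : ℕ) [Fact l.Prime] (A B : ZMod l)

/-- `lam = t^3 + A t + B` in `RatFunc (ZMod l)`. -/
noncomputable def lam : RatFunc (ZMod l) :=
  RatFunc.X ^ 3 + RatFunc.C A * RatFunc.X + RatFunc.C B

theorem lam_eq : lam l A B = algebraMap (ZMod l)[X] (RatFunc (ZMod l)) (cubic l A B) := by
  simp [lam, cubic, RatFunc.algebraMap_X, RatFunc.algebraMap_C]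

theorem lam_ne_zero : lam l A B ≠ 0 := by
  rw [lam_eq, Ne, map_eq_zero_iff _ (RatFunc.algebraMap_injective (ZMod l))]
  exact (cubic_monic l A B).ne_zero

/-- Frobenius on `lam`: `lam^l = t^(3l) + A t^l + B`. -/
theorem lam_pow_card :
    lam l A B ^ l = RatFunc.X ^ (3 * l) + RatFunc.C A * RatFunc.X ^ l + RatFunc.C B := by
  rw [lam_eq, ← map_pow, cubic_pow_card]
  simp [RatFunc.algebraMap_X, RatFunc.algebraMap_C]

theorem frobX_ne_zero : (RatFunc.X ^ l - RatFunc.X : RatFunc (ZMod l)) ≠ 0 := by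
  have h : (RatFunc.X ^ l - RatFunc.X : RatFunc (ZMod l))
      = algebraMap (ZMod l)[X] (RatFunc (ZMod l)) (X ^ l - X) := by
    simp [RatFunc.algebraMap_X]
  rw [h, Ne, map_eq_zero_iff _ (RatFunc.algebraMap_injective (ZMod l))]
  exact frob_ne_zero l

theorem algebraMap_den : algebraMap (ZMod l)[X] (RatFunc (ZMod l)) (den l)
    = (RatFunc.X ^ l - RatFunc.X) ^ 2 := by
  simp [den, RatFunc.algebraMap_X]

theorem algebraMap_num (s : ZMod l) : algebraMap (ZMod l)[X] (RatFunc (ZMod l)) (num l A B s)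
    = lam l A B * (lam l A B ^ (l / 2) + RatFunc.C s) ^ 2
      - (RatFunc.X ^ l + RatFunc.X) * (RatFunc.X ^ l - RatFunc.X) ^ 2 := by
  rw [lam_eq]
  simp [num, RatFunc.algebraMap_X, RatFunc.algebraMap_C]

/-- The Manin twist `y^2 = x^3 + A lam^2 x + B lam^3` over `RatFunc (ZMod l)`. -/
noncomputable def Etw : WeierstrassCurve (RatFunc (ZMod l)) :=
  { a₁ := 0, a₂ := 0, a₃ := 0, a₄ := RatFunc.C A * lam l A B ^ 2, a₆ := RatFunc.C B * lam l A B ^ 3 }

theorem Etw_Δ : (Etw l A B).Δ = -16 * lam l A B ^ 6 * RatFunc.C (4 * A ^ 3 + 27 * B ^ 2) := by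
  simp only [WeierstrassCurve.Δ, WeierstrassCurve.b₂, WeierstrassCurve.b₄, WeierstrassCurve.b₆,
    WeierstrassCurve.b₈, Etw, map_add, map_mul, map_pow, map_ofNat]
  ring

theorem Etw_Δ_ne_zero (hl : l ≠ 2) (hΔ : 4 * A ^ 3 + 27 * B ^ 2 ≠ 0) : (Etw l A B).Δ ≠ 0 := by
  rw [Etw_Δ]
  have h2 : (2 : RatFunc (ZMod l)) ≠ 0 := by
    have : (2 : RatFunc (ZMod l)) = RatFunc.C (2 : ZMod l) := (map_ofNat RatFunc.C 2).symm
    rw [this, Ne, map_eq_zero_iff _ (RatFunc.C_injective)]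
    exact two_ne_zero' l hl
  have h16 : (-16 : RatFunc (ZMod l)) ≠ 0 := by
    have : (-16 : RatFunc (ZMod l)) = -(2 ^ 4) := by norm_num
    rw [this]
    exact neg_ne_zero.2 (pow_ne_zero 4 h2)
  refine mul_ne_zero (mul_ne_zero h16 (pow_ne_zero 6 (lam_ne_zero l A B))) ?_
  rw [Ne, map_eq_zero_iff _ (RatFunc.C_injective)]
  exact hΔ

theorem equation_Q :
    (Etw l A B).toAffine.Equation (lam l A B * RatFunc.X) (lam l A B ^ 2) := by
  rw [Affine.equation_iff]
  simp only [Etw]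
  have : lam l A B = RatFunc.X ^ 3 + RatFunc.C A * RatFunc.X + RatFunc.C B := rfl
  linear_combination (lam l A B) ^ 3 * this

theorem equation_P1 (hl : l ≠ 2) :
    (Etw l A B).toAffine.Equation (lam l A B * RatFunc.X ^ l)
      (lam l A B ^ 2 * lam l A B ^ (l / 2)) := by
  rw [Affine.equation_iff]
  simp only [Etw]
  have h := lam_pow_card l A B
  have e : lam l A B ^ l = lam l A B ^ (2 * (l / 2) + 1) := by
    rw [two_mul_half_add_one l hl]
  rw [e] at h
  linear_combination (lam l A B) ^ 3 * h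

/-- The point `Q = (lam t, lam^2)` (the generic point). -/
noncomputable def Q (hl : l ≠ 2) (hΔ : 4 * A ^ 3 + 27 * B ^ 2 ≠ 0) : (Etw l A B).toAffine.Point :=
  .some _ _ ((Affine.equation_iff_nonsingular_of_Δ_ne_zero (Etw_Δ_ne_zero l A B hl hΔ)).1
    (equation_Q l A B))

/-- The point `P1 = (lam t^l, lam^2 lam^(l/2))` (Frobenius of the generic point). -/
noncomputable def P1 (hl : l ≠ 2) (hΔ : 4 * A ^ 3 + 27 * B ^ 2 ≠ 0) : (Etw l A B).toAffine.Point :=
  .some _ _ ((Affine.equation_iff_nonsingular_of_Δ_ne_zero (Etw_Δ_ne_zero l A B hl hΔ)).1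
    (equation_P1 l A B hl))


/-- Height of a rational function: `max (natDegree num) (natDegree denom)`. -/
noncomputable def hX (r : RatFunc (ZMod l)) : ℕ := max r.num.natDegree r.denom.natDegree

/-- Degree of the `X`-coordinate (`X = x / lam`) of a point of the twist; `0` at infinity. -/
noncomputable def dX : (Etw l A B).toAffine.Point → ℕ
  | .zero => 0
  | .some x _ _ => hX l (x / lam l A B)

theorem dX_zero : dX l A B (0 : (Etw l A B).toAffine.Point) = 0 := rfl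

theorem dX_some {x y : RatFunc (ZMod l)} (h : (Etw l A B).toAffine.Nonsingular x y) :
    dX l A B (.some x y h) = hX l (x / lam l A B) := rfl

theorem x_ne : lam l A B * RatFunc.X ^ l ≠ lam l A B * RatFunc.X := by
  intro h
  have := mul_left_cancel₀ (lam_ne_zero l A B) h
  exact frobX_ne_zero l (sub_eq_zero.2 this)

variable [DecidableEq (RatFunc (ZMod l))]

/-- `x`-coordinate of `P1 - Q`: `(x / lam) * den = num 1`. -/
theorem P1_sub_Q (hl : l ≠ 2) (hΔ : 4 * A ^ 3 + 27 * B ^ 2 ≠ 0) :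
    ∃ (x y : RatFunc (ZMod l)) (h : (Etw l A B).toAffine.Nonsingular x y),
      P1 l A B hl hΔ - Q l A B hl hΔ = .some x y h ∧
      x / lam l A B * algebraMap (ZMod l)[X] (RatFunc (ZMod l)) (den l)
        = algebraMap (ZMod l)[X] (RatFunc (ZMod l)) (num l A B 1) := by
  have hx := x_ne l A B
  have hlam := lam_ne_zero l A B
  have hF := frobX_ne_zero l
  have hsub : lam l A B * RatFunc.X ^ l - lam l A B * RatFunc.X ≠ 0 := sub_ne_zero.2 hx
  rw [sub_eq_add_neg]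
  unfold P1 Q
  rw [Affine.Point.neg_some, Affine.Point.add_of_X_ne hx]
  refine ⟨_, _, _, rfl, ?_⟩
  rw [Affine.slope_of_X_ne hx, algebraMap_den, algebraMap_num]
  simp only [Affine.addX, Affine.negY, Etw, map_one]
  field_simp
  ring

/-- `x`-coordinate of `P1 + Q`: `(x / lam) * den = num (-1)`. -/
theorem P1_add_Q (hl : l ≠ 2) (hΔ : 4 * A ^ 3 + 27 * B ^ 2 ≠ 0) :
    ∃ (x y : RatFunc (ZMod l)) (h : (Etw l A B).toAffine.Nonsingular x y),
      P1 l A B hl hΔ + Q l A B hl hΔ = .some x y h ∧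
      x / lam l A B * algebraMap (ZMod l)[X] (RatFunc (ZMod l)) (den l)
        = algebraMap (ZMod l)[X] (RatFunc (ZMod l)) (num l A B (-1)) := by
  have hx := x_ne l A B
  have hlam := lam_ne_zero l A B
  have hF := frobX_ne_zero l
  have hsub : lam l A B * RatFunc.X ^ l - lam l A B * RatFunc.X ≠ 0 := sub_ne_zero.2 hx
  unfold P1 Q
  rw [Affine.Point.add_of_X_ne hx]
  refine ⟨_, _, _, rfl, ?_⟩
  rw [Affine.slope_of_X_ne hx, algebraMap_den, algebraMap_num]
  simp only [Affine.addX, Etw, map_neg, map_one]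
  field_simp
  ring

/-- **Manin count**: `dX (P1 - Q) = 1 + n0 + 2 n_+`. -/
theorem dX_P1_sub_Q (hl : l ≠ 2) (hΔ : 4 * A ^ 3 + 27 * B ^ 2 ≠ 0) :
    dX l A B (P1 l A B hl hΔ - Q l A B hl hΔ) = 1 + n0 l A B + 2 * nS l A B 1 := by
  obtain ⟨x, y, h, e, hx⟩ := P1_sub_Q l A B hl hΔ
  rw [e, dX_some]
  exact ratFunc_height l hl A B 1 hΔ (Or.inl rfl) _ hx

/-- **Manin count**: `dX (P1 + Q) = 1 + n0 + 2 n_-`. -/
theorem dX_P1_add_Q (hl : l ≠ 2) (hΔ : 4 * A ^ 3 + 27 * B ^ 2 ≠ 0) :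
    dX l A B (P1 l A B hl hΔ + Q l A B hl hΔ) = 1 + n0 l A B + 2 * nS l A B (-1) := by
  obtain ⟨x, y, h, e, hx⟩ := P1_add_Q l A B hl hΔ
  rw [e, dX_some]
  exact ratFunc_height l hl A B (-1) hΔ (Or.inr rfl) _ hx

/-- The two Manin counts add up to `2 l + 2`. -/
theorem dX_sub_add_dX_add (hl : l ≠ 2) (hΔ : 4 * A ^ 3 + 27 * B ^ 2 ≠ 0) :
    dX l A B (P1 l A B hl hΔ - Q l A B hl hΔ) + dX l A B (P1 l A B hl hΔ + Q l A B hl hΔ)
      = 2 * l + 2 := by
  rw [dX_P1_sub_Q, dX_P1_add_Q]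
  exact height_add_height l hl A B

end Twist

end Fermat.Agent.S52.Tr.ManinCount
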