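/-
S52, brick (Tr), part (d-count): the number of points of `y^2 = x^3 + A x + B` over `ZMod l`
(Mathlib's affine `Point` type, including the point at infinity) is `1 + n0 + 2 n_+`, with
`n0 = #{c | f(c) = 0}`, `n_+ = #{c | f(c)^(l/2) = 1}` as in `ManinCount` (helper58).
-/
import Fermat.Agent.S52.Tr.ManinCount

set_option autoImplicit false

open Polynomial

namespace Fermat.Agent.S52.Tr.ManinCount

open WeierstrassCurve

section PointCount

variable (l : ℕ) [Fact l.Prime] (A B : ZMod l)

/-- The short Weierstrass curve `y^2 = x^3 + A x + B` over `ZMod l`. -/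
def shortCurve : WeierstrassCurve (ZMod l) := { a₁ := 0, a₂ := 0, a₃ := 0, a₄ := A, a₆ := B }

theorem shortCurve_Δ : (shortCurve l A B).Δ = -16 * (4 * A ^ 3 + 27 * B ^ 2) := by
  simp only [WeierstrassCurve.Δ, WeierstrassCurve.b₂, WeierstrassCurve.b₄, WeierstrassCurve.b₆,
    WeierstrassCurve.b₈, shortCurve]
  ring

theorem shortCurve_Δ_ne_zero (hl : l ≠ 2) (hΔ : 4 * A ^ 3 + 27 * B ^ 2 ≠ 0) :
    (shortCurve l A B).Δ ≠ 0 := by
  rw [shortCurve_Δ]
  have h2 := two_ne_zero' l hl
  have h16 : (-16 : ZMod l) ≠ 0 := by
    have : (-16 : ZMod l) = -(2 ^ 4) := by norm_num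
    rw [this]
    exact neg_ne_zero.2 (pow_ne_zero 4 h2)
  exact mul_ne_zero h16 hΔ

theorem shortCurve_equation_iff (x y : ZMod l) :
    (shortCurve l A B).toAffine.Equation x y ↔ y ^ 2 = (cubic l A B).eval x := by
  rw [Affine.equation_iff, eval_cubic]
  simp [shortCurve]

theorem shortCurve_nonsingular_iff (hl : l ≠ 2) (hΔ : 4 * A ^ 3 + 27 * B ^ 2 ≠ 0) (x y : ZMod l) :
    (shortCurve l A B).toAffine.Nonsingular x y ↔ y ^ 2 = (cubic l A B).eval x := by
  rw [← Affine.equation_iff_nonsingular_of_Δ_ne_zero (shortCurve_Δ_ne_zero l A B hl hΔ),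
    shortCurve_equation_iff]

/-- Points of the short curve as `Option` of the affine solutions. -/
noncomputable def pointEquiv (hl : l ≠ 2) (hΔ : 4 * A ^ 3 + 27 * B ^ 2 ≠ 0) :
    (shortCurve l A B).toAffine.Point ≃
      Option {p : ZMod l × ZMod l // p.2 ^ 2 = (cubic l A B).eval p.1} where
  toFun
    | .zero => none
    | .some x y h => some ⟨(x, y), (shortCurve_nonsingular_iff l A B hl hΔ x y).1 h⟩
  invFun
    | none => .zero
    | some p => .some p.1.1 p.1.2 ((shortCurve_nonsingular_iff l A B hl hΔ _ _).2 p.2)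
  left_inv := by rintro (_ | _) <;> rfl
  right_inv := by rintro (_ | _) <;> rfl

/-- Number of square roots of `u` in `ZMod l`. -/
theorem card_sqrt (hl : l ≠ 2) (u : ZMod l) :
    (Finset.univ.filter (fun y : ZMod l => y ^ 2 = u)).card
      = (if u = 0 then 1 else 0) + 2 * (if u ^ (l / 2) = 1 then 1 else 0) := by
  classical
  have hp := half_pos l hl
  by_cases h0 : u = 0
  · subst h0
    have : (Finset.univ.filter (fun y : ZMod l => y ^ 2 = 0)) = {0} := by
      ext y; simp
    rw [this]
    simp [zero_pow hp.ne']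
  · by_cases h1 : u ^ (l / 2) = 1
    · obtain ⟨z, hz⟩ := (ZMod.euler_criterion l h0).2 h1
      have hz0 : z ≠ 0 := by
        rintro rfl
        exact h0 (by simpa using hz)
      have hzz : z ≠ -z := by
        intro h
        have h2 : (2 : ZMod l) * z = 0 := by linear_combination h
        rcases mul_eq_zero.1 h2 with h3 | h3
        · exact two_ne_zero' l hl h3
        · exact hz0 h3
      have : (Finset.univ.filter (fun y : ZMod l => y ^ 2 = u)) = {z, -z} := by
        ext y
        simp only [Finset.mem_filter, Finset.mem_univ, true_and, Finset.mem_insert,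
          Finset.mem_singleton]
        constructor
        · intro hy
          have : (y - z) * (y + z) = 0 := by rw [hz] at hy; linear_combination hy
          rcases mul_eq_zero.1 this with h | h
          · left; exact sub_eq_zero.1 h
          · right; exact eq_neg_of_add_eq_zero_left h
        · rintro (rfl | rfl) <;> rw [hz] <;> ring
      rw [this, Finset.card_pair hzz]
      simp [h0, h1]
    · have : (Finset.univ.filter (fun y : ZMod l => y ^ 2 = u)) = ∅ := by
        ext y
        simp only [Finset.mem_filter, Finset.mem_univ, true_and, Finset.notMem_empty, iff_false]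
        intro hy
        exact h1 ((ZMod.euler_criterion l h0).1 ⟨y, by rw [← hy]; ring⟩)
      rw [this]
      simp [h0, h1]

/-- **Point count**: `#E(F_l) = 1 + n0 + 2 n_+` for `E : y^2 = x^3 + A x + B` over `ZMod l`. -/
theorem card_point (hl : l ≠ 2) (hΔ : 4 * A ^ 3 + 27 * B ^ 2 ≠ 0) :
    Nat.card (shortCurve l A B).toAffine.Point = 1 + n0 l A B + 2 * nS l A B 1 := by
  classical
  rw [Nat.card_congr (pointEquiv l A B hl hΔ), Nat.card_eq_fintype_card, Fintype.card_option,
    Fintype.card_subtype]
  have key : (Finset.univ.filter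
      (fun p : ZMod l × ZMod l => p.2 ^ 2 = (cubic l A B).eval p.1)).card
        = n0 l A B + 2 * nS l A B 1 := by
    rw [Finset.card_filter, Fintype.sum_prod_type]
    have : ∀ x : ZMod l, (∑ y : ZMod l, if y ^ 2 = (cubic l A B).eval x then 1 else 0)
        = (if (cubic l A B).eval x = 0 then 1 else 0)
          + 2 * (if (cubic l A B).eval x ^ (l / 2) = 1 then 1 else 0) := by
      intro x
      rw [← Finset.card_filter]
      exact card_sqrt l hl _
    rw [Finset.sum_congr rfl (fun x _ => this x), Finset.sum_add_distrib, ← Finset.mul_sum]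
    simp only [Finset.sum_boole, Nat.cast_id]
    rfl
  rw [key]
  ring

end PointCount

end Fermat.Agent.S52.Tr.ManinCount
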