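/-
S52, brick (Tr), part (d): MANIN COUNT, final form (helper58).

With `N := Nat.card E(F_l)` for `E : y^2 = x^3 + A x + B` over `ZMod l` (Mathlib affine points,
including infinity) and the Manin twist `Etw` over `RatFunc (ZMod l)`:
  `dX (P1 - Q) = N`,   `dX (P1 + Q) + N = 2 l + 2`.
-/
import Fermat.Agent.S52.Tr.ManinTwist
import Fermat.Agent.S52.Tr.PointCount

set_option autoImplicit false

namespace Fermat.Agent.S52.Tr.ManinCount

open WeierstrassCurve

variable (l : ℕ) [Fact l.Prime] (A B : ZMod l) [DecidableEq (RatFunc (ZMod l))]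

/-- **Manin count**: the degree of the `X`-coordinate of `Frob - 1` on the generic point is the
number of points of `E` over `F_l`. -/
theorem dX_P1_sub_Q_eq_card (hl : l ≠ 2) (hΔ : 4 * A ^ 3 + 27 * B ^ 2 ≠ 0) :
    dX l A B (P1 l A B hl hΔ - Q l A B hl hΔ) = Nat.card (shortCurve l A B).toAffine.Point := by
  rw [dX_P1_sub_Q, card_point l A B hl hΔ]

/-- **Manin count** for `Frob + 1`: `dX (P1 + Q) + #E(F_l) = 2 l + 2`. -/
theorem dX_P1_add_Q_add_card (hl : l ≠ 2) (hΔ : 4 * A ^ 3 + 27 * B ^ 2 ≠ 0) :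
    dX l A B (P1 l A B hl hΔ + Q l A B hl hΔ) + Nat.card (shortCurve l A B).toAffine.Point
      = 2 * l + 2 := by
  rw [← dX_P1_sub_Q_eq_card l A B hl hΔ, add_comm]
  exact dX_sub_add_dX_add l A B hl hΔ

end Fermat.Agent.S52.Tr.ManinCount
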