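import Mathlib

/-!
# S52, brick (Tr), step (g): field-theoretic lemmas for the translation argument (helper166)

`exists_algHom_tΩ`: for `x` transcendental over `K` in `Ω = AlgebraicClosure (RatFunc K)` there is
a `K`-algebra endomorphism of `Ω` sending `t` to `x`.
-/

set_option autoImplicit false

namespace Fermat.Agent.S52.Tr.TransField

open Polynomial

/-- any ring hom from a field to an algebraically closed field extends to an algebraic
extension -/
theorem exists_ringHom_extension {F E M : Type*} [Field F] [Field E] [Field M] [Algebra F E]
    [Algebra.IsAlgebraic F E] [IsAlgClosed M] (f : F →+* M) :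
    ∃ g : E →+* M, ∀ x, g (algebraMap F E x) = f x := by
  let _ := f.toAlgebra
  exact ⟨((IsAlgClosed.lift : E →ₐ[F] M) : E →+* M),
    fun x => AlgHom.commutes (IsAlgClosed.lift : E →ₐ[F] M) x⟩

/-- elements algebraic over an algebraically closed field lie in it -/
theorem exists_eq_algebraMap_of_isAlgebraic {K L : Type*} [Field K] [IsAlgClosed K] [Field L]
    [Algebra K L] (x : L) (hx : IsAlgebraic K x) : ∃ c : K, algebraMap K L c = x := by
  have hint : IsIntegral K x := hx.isIntegral
  have h : (minpoly K x).degree = 1 :=
    IsAlgClosed.degree_eq_one_of_irreducible K (minpoly.irreducible hint)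
  exact minpoly.mem_range_of_degree_eq_one K x h

variable {K : Type*} [Field K]

/-- the variable `t` in the algebraic closure of `K(t)` -/
noncomputable def tΩ (K : Type*) [Field K] : AlgebraicClosure (RatFunc K) :=
  algebraMap (RatFunc K) (AlgebraicClosure (RatFunc K)) RatFunc.X

theorem transcendental_tΩ : Transcendental K (tΩ K) := by
  unfold tΩ
  intro h
  have h' : IsAlgebraic K (RatFunc.X : RatFunc K) :=
    (isAlgebraic_algebraMap_iff (FaithfulSMul.algebraMap_injective (RatFunc K)
      (AlgebraicClosure (RatFunc K)))).mp h
  exact RatFunc.transcendental_X h'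

/-- a `K`-algebra endomorphism of the algebraic closure of `K(t)` sending `t` to a given
transcendental element -/
theorem exists_algHom_tΩ (x : AlgebraicClosure (RatFunc K)) (hx : Transcendental K x) :
    ∃ σ : AlgebraicClosure (RatFunc K) →ₐ[K] AlgebraicClosure (RatFunc K), σ (tΩ K) = x := by
  have hinj : Function.Injective (Polynomial.aeval (R := K) x) :=
    transcendental_iff_injective.mp hx
  let f : RatFunc K →ₐ[K] AlgebraicClosure (RatFunc K) :=
    RatFunc.liftAlgHom (Polynomial.aeval x)
      (nonZeroDivisors_le_comap_nonZeroDivisors_of_injective _ hinj)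
  have hfX : f RatFunc.X = x := by
    have := RatFunc.liftAlgHom_apply_div (Polynomial.aeval x)
      (nonZeroDivisors_le_comap_nonZeroDivisors_of_injective _ hinj) (X : K[X]) 1
    simp only [map_one, div_one, RatFunc.algebraMap_X, aeval_X] at this
    exact this
  obtain ⟨g, hg⟩ := exists_ringHom_extension (E := AlgebraicClosure (RatFunc K))
    (f : RatFunc K →+* AlgebraicClosure (RatFunc K))
  refine ⟨{ g with commutes' := fun c => ?_ }, ?_⟩
  · show g (algebraMap K (AlgebraicClosure (RatFunc K)) c) = algebraMap K _ c
    rw [IsScalarTower.algebraMap_apply K (RatFunc K) (AlgebraicClosure (RatFunc K)), hg]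
    exact f.commutes c
  · show g (tΩ K) = x
    unfold tΩ
    rw [hg]
    exact hfX

end Fermat.Agent.S52.Tr.TransField
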