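import Fermat.Agent.S52.Tr.CompCore
import Fermat.Agent.S52.Tr.Consumer
import Fermat.Agent.S52.Tr.TransField
import Fermat.Agent.S52.Tr.Final

/-!
# S52, brick (Tr), step (g) by translation (helper166)

From the relation `frobPt 2 - a • frobPt 1 + ℓ • Qpt = 0` on the twisted curve over
`RatFunc (ZMod ℓ)` to `φ² - a φ + ℓ = 0` on all `K`-points of `y² = x³ + A x + B`, `K`
algebraically closed.

Method (no specialisation): in `Ω = AlgebraicClosure (RatFunc K)` take `η = (t, s)`,
`s² = t³ + A t + B`.  The twisted points map to `E(Ω)` by `(X, Y) ↦ (X(t), s * Y(t))`, a group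
hom sending `Qpt ↦ η`, `frobPt n ↦ φⁿ η`; so `Z η = 0` for `Z = φ² - a φ + ℓ`.  For `P₀ ∈ E(K)` the
`x`-coordinate `X'` of `η + P₀` is transcendental over `K`, so there is a `K`-endomorphism `σ` of
`Ω` with `σ t = X'`; then `σ η = ± (η + P₀)`, and `0 = σ (Z η) = Z (σ η) = ± Z P₀`.
-/

set_option autoImplicit false

namespace Fermat.Agent.S52.Tr.TransPt

open Polynomial WeierstrassCurve
open Fermat.Agent.S52.Tr

noncomputable section

/-! ### Part 0: points of short curves along ring homs -/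

section MapShort

variable {F L : Type*} [Field F] [Field L] [DecidableEq F] [DecidableEq L]

/-- points of `y² = x³ + a x + b` along a ring hom `f` with `f a = a'`, `f b = b'` -/
def mapShort (f : F →+* L) (a b : F) (a' b' : L) (ha : f a = a') (hb : f b = b') :
    (shortCurve a b).Point →+ (shortCurve a' b').Point :=
  (Consumer.pointCast (W := ((shortCurve a b).map f).toAffine) (W' := shortCurve a' b')
    (by rw [ShortForm.shortCurve_map, ha, hb])).toAddMonoidHom.comp
    (CompCore.mapHom (shortCurve a b) f)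

lemma mapShort_zero (f : F →+* L) (a b : F) (a' b' : L) (ha : f a = a') (hb : f b = b') :
    mapShort f a b a' b' ha hb 0 = 0 := map_zero _

lemma mapShort_some (f : F →+* L) (a b : F) (a' b' : L) (ha : f a = a') (hb : f b = b')
    {x y : F} (h : (shortCurve a b).Nonsingular x y)
    (h' : (shortCurve a' b').Nonsingular (f x) (f y)) :
    mapShort f a b a' b' ha hb (.some x y h) = .some (f x) (f y) h' := by
  subst ha hb
  simp only [mapShort, AddMonoidHom.comp_apply, CompCore.mapHom_some, AddEquiv.coe_toAddMonoidHom]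
  rw [Consumer.pointCast_some]

omit [DecidableEq F] [DecidableEq L] in
lemma nonsingular_mapShort (f : F →+* L) (a b : F) (a' b' : L) (ha : f a = a') (hb : f b = b')
    {x y : F} : (shortCurve a' b').Nonsingular (f x) (f y) ↔ (shortCurve a b).Nonsingular x y := by
  subst ha hb
  rw [← ShortForm.shortCurve_map]
  exact (shortCurve a b).map_nonsingular f.injective x y

lemma mapShort_injective (f : F →+* L) (a b : F) (a' b' : L) (ha : f a = a') (hb : f b = b') :
    Function.Injective (mapShort f a b a' b' ha hb) := by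
  have e0 : mapShort f a b a' b' ha hb Affine.Point.zero = 0 := map_zero _
  rintro (_ | ⟨x₁, y₁, h₁⟩) (_ | ⟨x₂, y₂, h₂⟩) h
  · rfl
  · rw [e0,
      mapShort_some f a b a' b' ha hb h₂ ((nonsingular_mapShort f a b a' b' ha hb).mpr h₂)] at h
    exact absurd h.symm (Affine.Point.some_ne_zero _)
  · rw [e0,
      mapShort_some f a b a' b' ha hb h₁ ((nonsingular_mapShort f a b a' b' ha hb).mpr h₁)] at h
    exact absurd h (Affine.Point.some_ne_zero _)
  · rw [mapShort_some f a b a' b' ha hb h₁ ((nonsingular_mapShort f a b a' b' ha hb).mpr h₁),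
      mapShort_some f a b a' b' ha hb h₂ ((nonsingular_mapShort f a b a' b' ha hb).mpr h₂),
      Affine.Point.some.injEq] at h
    exact CompCore.some_congr _ _ (f.injective h.1) (f.injective h.2)

end MapShort

/-! ### Part 0': compatibility with the Frobenius `frobK` -/

section FrobMap

variable (ℓ : ℕ) [Fact ℓ.Prime]
variable {F L : Type*} [Field F] [Field L] [DecidableEq F] [DecidableEq L]
  [Algebra (ZMod ℓ) F] [Algebra (ZMod ℓ) L]

omit [DecidableEq F] [DecidableEq L] in
lemma map_algebraMap_zmod (f : F →+* L) (c : ZMod ℓ) :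
    f (algebraMap (ZMod ℓ) F c) = algebraMap (ZMod ℓ) L c := by
  have : f.comp (algebraMap (ZMod ℓ) F) = algebraMap (ZMod ℓ) L := Subsingleton.elim _ _
  exact congrFun (congrArg DFunLike.coe this) c

/-- the map on points of `shortBar` induced by a ring hom -/
def mapBar (f : F →+* L) (A B : ZMod ℓ) :
    (Consumer.shortBar ℓ F A B).Point →+ (Consumer.shortBar ℓ L A B).Point :=
  mapShort f _ _ _ _ (map_algebraMap_zmod ℓ f A) (map_algebraMap_zmod ℓ f B)

lemma mapBar_zero (f : F →+* L) (A B : ZMod ℓ) : mapBar ℓ f A B 0 = 0 := map_zero _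

lemma mapBar_some (f : F →+* L) (A B : ZMod ℓ) {x y : F}
    (h : (Consumer.shortBar ℓ F A B).Nonsingular x y)
    (h' : (Consumer.shortBar ℓ L A B).Nonsingular (f x) (f y)) :
    mapBar ℓ f A B (.some x y h) = .some (f x) (f y) h' :=
  mapShort_some f _ _ _ _ _ _ h h'

omit [DecidableEq F] [DecidableEq L] in
lemma nonsingular_mapBar (f : F →+* L) (A B : ZMod ℓ) {x y : F} :
    (Consumer.shortBar ℓ L A B).Nonsingular (f x) (f y) ↔
      (Consumer.shortBar ℓ F A B).Nonsingular x y :=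
  nonsingular_mapShort f _ _ _ _ (map_algebraMap_zmod ℓ f A) (map_algebraMap_zmod ℓ f B)

lemma mapBar_injective (f : F →+* L) (A B : ZMod ℓ) : Function.Injective (mapBar ℓ f A B) :=
  mapShort_injective f _ _ _ _ _ _

lemma mapBar_frobK (f : F →+* L) (A B : ZMod ℓ) (P : (Consumer.shortBar ℓ F A B).Point) :
    mapBar ℓ f A B (Consumer.frobK ℓ F A B P) = Consumer.frobK ℓ L A B (mapBar ℓ f A B P) := by
  rcases P with _ | ⟨x, y, h⟩
  · show mapBar ℓ f A B (Consumer.frobK ℓ F A B 0) = Consumer.frobK ℓ L A B (mapBar ℓ f A B 0)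
    rw [Consumer.frobK_zero, mapBar_zero, Consumer.frobK_zero]
  · have h' := (nonsingular_mapBar ℓ f A B).mpr h
    rw [Consumer.frobK_some, mapBar_some ℓ f A B h h', Consumer.frobK_some,
      mapBar_some ℓ f A B _ ((nonsingular_mapBar ℓ f A B).mpr
        (Consumer.shortBar_nonsingular_pow ℓ F h))]
    exact CompCore.some_congr _ _ (map_pow f x ℓ) (map_pow f y ℓ)

end FrobMap

/-! ### Part 1: from the twisted curve over `RatFunc (ZMod ℓ)` to `E(L)` -/

section Iota

variable (ℓ : ℕ) [Fact ℓ.Prime] (A B : ZMod ℓ)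
variable {L : Type*} [Field L] [Algebra (ZMod ℓ) L]

lemma shortBar_equation_iff (x y : L) :
    (Consumer.shortBar ℓ L A B).Equation x y ↔
      y ^ 2 = x ^ 3 + algebraMap (ZMod ℓ) L A * x + algebraMap (ZMod ℓ) L B :=
  ShortForm.shortCurve_equation_iff _ _ x y

lemma shortBar_nonsingular_iff (hΔ : 4 * A ^ 3 + 27 * B ^ 2 ≠ 0) (h2 : (2 : ZMod ℓ) ≠ 0)
    (x y : L) :
    (Consumer.shortBar ℓ L A B).Nonsingular x y ↔
      y ^ 2 = x ^ 3 + algebraMap (ZMod ℓ) L A * x + algebraMap (ZMod ℓ) L B := by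
  rw [← shortBar_equation_iff]
  have hinj := (algebraMap (ZMod ℓ) L).injective
  have h2' : (2 : L) ≠ 0 := by
    have : (2 : L) = algebraMap (ZMod ℓ) L 2 := (map_ofNat _ 2).symm
    rw [this]
    exact (map_ne_zero_iff _ hinj).mpr h2
  have hΔ' : 4 * (algebraMap (ZMod ℓ) L A) ^ 3 + 27 * (algebraMap (ZMod ℓ) L B) ^ 2 ≠ 0 := by
    have : 4 * (algebraMap (ZMod ℓ) L A) ^ 3 + 27 * (algebraMap (ZMod ℓ) L B) ^ 2
        = algebraMap (ZMod ℓ) L (4 * A ^ 3 + 27 * B ^ 2) := by
      simp only [map_add, map_mul, map_pow, map_ofNat]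
    rw [this]
    exact (map_ne_zero_iff _ hinj).mpr hΔ
  exact (Affine.equation_iff_nonsingular_of_Δ_ne_zero
    (ShortForm.shortCurve_Δ_ne_zero h2' hΔ')).symm

variable {ℓ}

/-- the hom `RatFunc (ZMod ℓ) → L`, `X ↦ t`, for `t` transcendental -/
def iHom {t : L} (ht : Transcendental (ZMod ℓ) t) : RatFunc (ZMod ℓ) →ₐ[ZMod ℓ] L :=
  RatFunc.liftAlgHom (Polynomial.aeval t)
    (nonZeroDivisors_le_comap_nonZeroDivisors_of_injective _
      (transcendental_iff_injective.mp ht))

lemma iHom_X {t : L} (ht : Transcendental (ZMod ℓ) t) : iHom ht RatFunc.X = t := by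
  have := RatFunc.liftAlgHom_apply_div (Polynomial.aeval t)
    (nonZeroDivisors_le_comap_nonZeroDivisors_of_injective _
      (transcendental_iff_injective.mp ht)) (X : (ZMod ℓ)[X]) 1
  simp only [map_one, div_one, RatFunc.algebraMap_X, aeval_X] at this
  exact this

lemma iHom_C {t : L} (ht : Transcendental (ZMod ℓ) t) (c : ZMod ℓ) :
    iHom ht (RatFunc.C c) = algebraMap (ZMod ℓ) L c := by
  have := (iHom ht).commutes c
  rwa [RatFunc.algebraMap_eq_C] at this

lemma iHom_lam {t : L} (ht : Transcendental (ZMod ℓ) t) :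
    iHom ht (lam A B) = t ^ 3 + algebraMap (ZMod ℓ) L A * t + algebraMap (ZMod ℓ) L B := by
  rw [lam_eq]
  simp only [map_add, map_mul, map_pow, iHom_X, iHom_C]

lemma s_ne_zero {t s : L} (ht : Transcendental (ZMod ℓ) t)
    (hs : s ^ 2 = t ^ 3 + algebraMap (ZMod ℓ) L A * t + algebraMap (ZMod ℓ) L B) : s ≠ 0 := by
  rintro rfl
  apply ht
  refine ⟨cubic A B, cubic_ne_zero A B, ?_⟩
  simp only [cubic, map_add, map_mul, map_pow, Polynomial.aeval_X, Polynomial.aeval_C]
  rw [← hs]; ring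

open Fermat.Agent.S05.VarChange in
lemma rel_iota {t s : L} (ht : Transcendental (ZMod ℓ) t)
    (hs : s ^ 2 = t ^ 3 + algebraMap (ZMod ℓ) L A * t + algebraMap (ZMod ℓ) L B) :
    Rel (Consumer.shortBar ℓ L A B)
      ((Etw A B).map (iHom ht : RatFunc (ZMod ℓ) →+* L)).toAffine s⁻¹ 0 0 0 := by
  have hs0 := s_ne_zero A B ht hs
  have hl : iHom ht (lam A B) = s ^ 2 := by rw [iHom_lam, hs]
  refine ⟨inv_ne_zero hs0, ?_, ?_, ?_, ?_, ?_⟩
  · simp [Etw, shortCurve, Consumer.shortBar, WeierstrassCurve.map]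
  · simp [Etw, shortCurve, Consumer.shortBar, WeierstrassCurve.map]
  · simp [Etw, shortCurve, Consumer.shortBar, WeierstrassCurve.map]
  · simp only [Etw, shortCurve, Consumer.shortBar, WeierstrassCurve.map, RingHom.coe_coe, map_mul,
      map_pow, iHom_C, hl]
    field_simp
    ring
  · simp only [Etw, shortCurve, Consumer.shortBar, WeierstrassCurve.map, RingHom.coe_coe, map_mul,
      map_pow, iHom_C, hl]
    field_simp
    ring

variable [DecidableEq L] [DecidableEq (RatFunc (ZMod ℓ))]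

/-- `(X, Y) ↦ (X(t), s * Y(t))` from the twisted curve to `E(L)` -/
def iota {t s : L} (ht : Transcendental (ZMod ℓ) t)
    (hs : s ^ 2 = t ^ 3 + algebraMap (ZMod ℓ) L A * t + algebraMap (ZMod ℓ) L B) :
    (Etw A B).Point →+ (Consumer.shortBar ℓ L A B).Point :=
  (rel_iota A B ht hs).pointHom.comp
    (CompCore.mapHom (Etw A B) (iHom ht : RatFunc (ZMod ℓ) →+* L))

lemma iota_mkPt (hΔ : 4 * A ^ 3 + 27 * B ^ 2 ≠ 0) (h2 : (2 : ZMod ℓ) ≠ 0) {t s : L}
    (ht : Transcendental (ZMod ℓ) t)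
    (hs : s ^ 2 = t ^ 3 + algebraMap (ZMod ℓ) L A * t + algebraMap (ZMod ℓ) L B)
    {X Y : RatFunc (ZMod ℓ)} (h : TwEq A B X Y)
    (h' : (Consumer.shortBar ℓ L A B).Nonsingular (iHom ht X) (s * iHom ht Y)) :
    iota A B ht hs (mkPt A B hΔ h2 X Y h) = .some (iHom ht X) (s * iHom ht Y) h' := by
  have hs0 := s_ne_zero A B ht hs
  have hl : iHom ht (lam A B) = s ^ 2 := by rw [iHom_lam, hs]
  have e : ∀ P, (rel_iota A B ht hs).pointHom P = (rel_iota A B ht hs).pointMap P :=
    fun _ => rfl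
  simp only [iota, AddMonoidHom.comp_apply, mkPt, CompCore.mapHom_some]
  rw [e, Fermat.Agent.S05.VarChange.Rel.pointMap_some]
  apply CompCore.some_congr
  · simp only [xOf, RingHom.coe_coe, map_mul, hl]
    field_simp
    ring
  · simp only [yOf, RingHom.coe_coe, map_mul, map_pow, hl]
    field_simp
    ring

end Iota

/-! ### Part 1': the relation at the generic point `η = (t, s)` of `E(L)` -/

section GenRel

variable (ℓ : ℕ) [Fact ℓ.Prime] (A B : ZMod ℓ)
variable {L : Type*} [Field L] [Algebra (ZMod ℓ) L] [DecidableEq L]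
  [DecidableEq (RatFunc (ZMod ℓ))]
variable (hΔ : 4 * A ^ 3 + 27 * B ^ 2 ≠ 0) (h2 : (2 : ZMod ℓ) ≠ 0) (hℓ : ℓ ≠ 2)

lemma iota_Qpt {t s : L} (ht : Transcendental (ZMod ℓ) t)
    (hs : s ^ 2 = t ^ 3 + algebraMap (ZMod ℓ) L A * t + algebraMap (ZMod ℓ) L B)
    (h' : (Consumer.shortBar ℓ L A B).Nonsingular t s) :
    iota A B ht hs (Qpt A B hΔ h2) = .some t s h' := by
  unfold Qpt
  rw [iota_mkPt A B hΔ h2 ht hs _ (by rw [iHom_X, map_one, mul_one]; exact h')]
  exact CompCore.some_congr _ _ (iHom_X ht) (by rw [map_one, mul_one])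

lemma iota_frobPt {t s : L} (ht : Transcendental (ZMod ℓ) t)
    (hs : s ^ 2 = t ^ 3 + algebraMap (ZMod ℓ) L A * t + algebraMap (ZMod ℓ) L B) (n : ℕ)
    (h' : (Consumer.shortBar ℓ L A B).Nonsingular (t ^ (ℓ ^ n)) (s ^ (ℓ ^ n))) :
    iota A B ht hs (frobPt ℓ A B hΔ h2 hℓ n) = .some (t ^ (ℓ ^ n)) (s ^ (ℓ ^ n)) h' := by
  have hl : iHom ht (lam A B) = s ^ 2 := by rw [iHom_lam, hs]
  have hY : s * iHom ht (lam A B ^ ((ℓ ^ n - 1) / 2)) = s ^ (ℓ ^ n) := by
    obtain ⟨m, hm⟩ := ((Fact.out : ℓ.Prime).odd_of_ne_two hℓ).pow (n := n)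
    have e : (ℓ ^ n - 1) / 2 = m := by omega
    rw [e, map_pow, hl, hm, ← pow_mul, pow_succ]
    ring
  have hX : iHom ht (RatFunc.X ^ (ℓ ^ n)) = t ^ (ℓ ^ n) := by rw [map_pow, iHom_X]
  unfold frobPt
  rw [iota_mkPt A B hΔ h2 ht hs _ (by rw [hX, hY]; exact h')]
  exact CompCore.some_congr _ _ hX hY

/-- the relation on the twisted curve gives `φ² η - a φ η + ℓ η = 0` at `η = (t, s)` -/
theorem generic_relation {t s : L} (ht : Transcendental (ZMod ℓ) t)
    (hs : s ^ 2 = t ^ 3 + algebraMap (ZMod ℓ) L A * t + algebraMap (ZMod ℓ) L B) (a : ℤ)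
    (hrel : frobPt ℓ A B hΔ h2 hℓ 2 - a • frobPt ℓ A B hΔ h2 hℓ 1 + (ℓ : ℤ) • Qpt A B hΔ h2 = 0)
    (hη : (Consumer.shortBar ℓ L A B).Nonsingular t s) :
    Consumer.frobK ℓ L A B (Consumer.frobK ℓ L A B (.some t s hη))
      - a • Consumer.frobK ℓ L A B (.some t s hη)
      + (ℓ : ℤ) • (Affine.Point.some t s hη : (Consumer.shortBar ℓ L A B).Point) = 0 := by
  have h := congrArg (iota A B ht hs) hrel
  rw [map_add, map_sub, map_zsmul, map_zsmul, map_zero] at h
  have h1 := Consumer.shortBar_nonsingular_pow ℓ L hη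
  have h2' := Consumer.shortBar_nonsingular_pow ℓ L h1
  have e0 := iota_Qpt ℓ A B hΔ h2 ht hs hη
  have e1 : iota A B ht hs (frobPt ℓ A B hΔ h2 hℓ 1)
      = Consumer.frobK ℓ L A B (.some t s hη) := by
    rw [Consumer.frobK_some, iota_frobPt ℓ A B hΔ h2 hℓ ht hs 1 (by rw [pow_one]; exact h1)]
    exact CompCore.some_congr _ _ (by rw [pow_one]) (by rw [pow_one])
  have e2 : iota A B ht hs (frobPt ℓ A B hΔ h2 hℓ 2)
      = Consumer.frobK ℓ L A B (Consumer.frobK ℓ L A B (.some t s hη)) := by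
    rw [Consumer.frobK_some, Consumer.frobK_some,
      iota_frobPt ℓ A B hΔ h2 hℓ ht hs 2 (by rw [pow_two, pow_mul, pow_mul]; exact h2')]
    exact CompCore.some_congr _ _ (by rw [pow_two, pow_mul]) (by rw [pow_two, pow_mul])
  rw [e0, e1, e2] at h
  exact h

end GenRel

/-! ### Part 2: the abstract translation argument -/

section Abstract

theorem rel_of_translate {G : Type*} [AddCommGroup G] (F : G →+ G) (a l : ℤ) (η P₀ : G)
    (hη : F (F η) - a • F η + l • η = 0)
    (τ : G →+ G) (hτF : ∀ P, τ (F P) = F (τ P))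
    (hτ : τ η = η + P₀ ∨ τ η = -(η + P₀)) :
    F (F P₀) - a • F P₀ + l • P₀ = 0 := by
  have h1 : F (F (τ η)) - a • F (τ η) + l • τ η = 0 := by
    have := congrArg τ hη
    rw [map_add, map_sub, map_zsmul, map_zsmul, map_zero, hτF, hτF] at this
    exact this
  have hadd : ∀ P Q : G, F (F (P + Q)) - a • F (P + Q) + l • (P + Q)
      = (F (F P) - a • F P + l • P) + (F (F Q) - a • F Q + l • Q) := by
    intro P Q
    simp only [map_add, smul_add]
    abel
  have hneg : ∀ P : G, F (F (-P)) - a • F (-P) + l • (-P) = -(F (F P) - a • F P + l • P) := by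
    intro P
    simp only [map_neg, smul_neg]
    abel
  rcases hτ with h | h
  · rw [h, hadd, hη, zero_add] at h1
    exact h1
  · rw [h, hneg, hadd, hη, zero_add, neg_eq_zero] at h1
    exact h1

end Abstract

/-! ### Part 3: the translation argument on the curve -/

section Main

variable (ℓ : ℕ) [Fact ℓ.Prime] (A B : ZMod ℓ)
variable {K L : Type*} [Field K] [Field L] [DecidableEq K] [DecidableEq L]
  [Algebra (ZMod ℓ) K] [Algebra (ZMod ℓ) L] [Algebra K L] [IsScalarTower (ZMod ℓ) K L]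

omit [DecidableEq K] [DecidableEq L] in
lemma algebraMap_bar (c : ZMod ℓ) :
    algebraMap K L (algebraMap (ZMod ℓ) K c) = algebraMap (ZMod ℓ) L c :=
  (IsScalarTower.algebraMap_apply (ZMod ℓ) K L c).symm

/-- a point of `E(L)` with `x`-coordinate algebraic over the algebraically closed field `K`
comes from `E(K)` -/
lemma mem_range_of_isAlgebraic [IsAlgClosed K] {x y : L}
    (h : (Consumer.shortBar ℓ L A B).Nonsingular x y) (hx : IsAlgebraic K x) :
    ∃ P : (Consumer.shortBar ℓ K A B).Point,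
      mapBar ℓ (algebraMap K L) A B P = .some x y h := by
  obtain ⟨x0, rfl⟩ := TransField.exists_eq_algebraMap_of_isAlgebraic x hx
  have heq := (shortBar_equation_iff ℓ A B _ _).mp h.1
  have hy : IsAlgebraic K y := by
    refine ⟨X ^ 2 - C (x0 ^ 3 + algebraMap (ZMod ℓ) K A * x0 + algebraMap (ZMod ℓ) K B), ?_, ?_⟩
    · exact (monic_X_pow_sub_C _ two_ne_zero).ne_zero
    · simp only [map_sub, map_pow, aeval_X, aeval_C, map_add, map_mul, algebraMap_bar]
      rw [heq]; ring
  obtain ⟨y0, rfl⟩ := TransField.exists_eq_algebraMap_of_isAlgebraic y hy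
  have h0 := (nonsingular_mapBar ℓ (algebraMap K L) A B).mp h
  exact ⟨.some x0 y0 h0, mapBar_some ℓ _ A B h0 h⟩

omit [IsScalarTower (ZMod ℓ) K L] in
/-- the generic point is not defined over `K` -/
lemma mapBar_ne_generic {t s : L} (htK : Transcendental K t)
    (hη : (Consumer.shortBar ℓ L A B).Nonsingular t s) (P : (Consumer.shortBar ℓ K A B).Point) :
    mapBar ℓ (algebraMap K L) A B P ≠ .some t s hη := by
  rcases P with _ | ⟨x0, y0, h0⟩
  · intro h
    have e0 : mapBar ℓ (algebraMap K L) A B Affine.Point.zero = 0 := map_zero _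
    rw [e0] at h
    exact Affine.Point.some_ne_zero _ h.symm
  · intro h
    rw [mapBar_some ℓ _ A B h0 ((nonsingular_mapBar ℓ (algebraMap K L) A B).mpr h0),
      Affine.Point.some.injEq] at h
    exact htK (h.1 ▸ isAlgebraic_algebraMap x0)

/-- for `P ∈ E(K)` there is a `K`-endomorphism `σ` of `L` with `σ η = ± (η + P)` -/
theorem exists_sigma_translate [IsAlgClosed K] {t s : L} (htK : Transcendental K t)
    (hs : s ^ 2 = t ^ 3 + algebraMap (ZMod ℓ) L A * t + algebraMap (ZMod ℓ) L B)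
    (hη : (Consumer.shortBar ℓ L A B).Nonsingular t s)
    (hH : ∀ x : L, Transcendental K x → ∃ σ : L →ₐ[K] L, σ t = x)
    (P : (Consumer.shortBar ℓ K A B).Point) :
    ∃ σ : L →ₐ[K] L,
      mapBar ℓ (σ : L →+* L) A B (.some t s hη)
        = .some t s hη + mapBar ℓ (algebraMap K L) A B P ∨
      mapBar ℓ (σ : L →+* L) A B (.some t s hη)
        = -(.some t s hη + mapBar ℓ (algebraMap K L) A B P) := by
  rcases hR : (Affine.Point.some t s hη + mapBar ℓ (algebraMap K L) A B P :
      (Consumer.shortBar ℓ L A B).Point) with _ | ⟨X', Y', hR'⟩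
  · exfalso
    have e : mapBar ℓ (algebraMap K L) A B (-P) = .some t s hη := by
      rw [map_neg]
      exact (eq_neg_of_add_eq_zero_left hR).symm
    exact mapBar_ne_generic ℓ A B htK hη (-P) e
  · have hX' : Transcendental K X' := by
      intro halg
      obtain ⟨P1, hP1⟩ := mem_range_of_isAlgebraic ℓ A B hR' halg
      have e : mapBar ℓ (algebraMap K L) A B (P1 - P) = .some t s hη := by
        rw [map_sub, hP1, ← hR]
        abel
      exact mapBar_ne_generic ℓ A B htK hη (P1 - P) e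
    obtain ⟨σ, hσ⟩ := hH X' hX'
    have heqR := (shortBar_equation_iff ℓ A B _ _).mp hR'.1
    have hσc : ∀ c : ZMod ℓ, σ (algebraMap (ZMod ℓ) L c) = algebraMap (ZMod ℓ) L c :=
      fun c => map_algebraMap_zmod ℓ (σ : L →+* L) c
    have hσs : (σ s) ^ 2 = Y' ^ 2 := by
      rw [← map_pow, hs, map_add, map_add, map_mul, map_pow, hσ, hσc, hσc, heqR]
    have hn : (Consumer.shortBar ℓ L A B).Nonsingular ((σ : L →+* L) t) ((σ : L →+* L) s) :=
      (nonsingular_mapBar ℓ (σ : L →+* L) A B).mpr hη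
    refine ⟨σ, ?_⟩
    rw [mapBar_some ℓ (σ : L →+* L) A B hη hn]
    rcases sq_eq_sq_iff_eq_or_eq_neg.mp hσs with h | h
    · left
      exact CompCore.some_congr _ _ hσ h
    · right
      rw [Affine.Point.neg_some]
      refine CompCore.some_congr _ _ hσ ?_
      show σ s = (Consumer.shortBar ℓ L A B).negY X' Y'
      rw [h]
      simp [Affine.negY, Consumer.shortBar, shortCurve]

variable (hΔ : 4 * A ^ 3 + 27 * B ^ 2 ≠ 0) (h2 : (2 : ZMod ℓ) ≠ 0) (hℓ : ℓ ≠ 2)

/-- step (g), for any extension `L` of `K` containing a "homogeneous" transcendental `t` and a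
square root `s` of `t³ + A t + B` -/
theorem spec_of_generic [IsAlgClosed K] [DecidableEq (RatFunc (ZMod ℓ))] {t s : L}
    (htK : Transcendental K t)
    (hs : s ^ 2 = t ^ 3 + algebraMap (ZMod ℓ) L A * t + algebraMap (ZMod ℓ) L B)
    (hH : ∀ x : L, Transcendental K x → ∃ σ : L →ₐ[K] L, σ t = x) (a : ℤ)
    (hrel : frobPt ℓ A B hΔ h2 hℓ 2 - a • frobPt ℓ A B hΔ h2 hℓ 1 + (ℓ : ℤ) • Qpt A B hΔ h2 = 0)
    (P : (Consumer.shortBar ℓ K A B).Point) :
    Consumer.frobK ℓ K A B (Consumer.frobK ℓ K A B P) - a • Consumer.frobK ℓ K A B P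
      + (ℓ : ℤ) • P = 0 := by
  have ht : Transcendental (ZMod ℓ) t :=
    htK.restrictScalars (algebraMap (ZMod ℓ) K).injective
  have hη := (shortBar_nonsingular_iff ℓ A B hΔ h2 t s).mpr hs
  have hgen := generic_relation ℓ A B hΔ h2 hℓ ht hs a hrel hη
  obtain ⟨σ, hσ⟩ := exists_sigma_translate ℓ A B htK hs hη hH P
  have hZ := rel_of_translate (Consumer.frobK ℓ L A B) a ℓ _ _ hgen
    (mapBar ℓ (σ : L →+* L) A B) (fun Q => mapBar_frobK ℓ _ A B Q) hσ
  apply mapBar_injective ℓ (algebraMap K L) A B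
  rw [map_add, map_sub, map_zsmul, map_zsmul, map_zero, mapBar_frobK, mapBar_frobK]
  exact hZ

end Main

/-! ### Part 4: step (g) and the final statement of brick (Tr) -/

section Spec

variable (ℓ : ℕ) [Fact ℓ.Prime] (K : Type*) [Field K] [DecidableEq K] [Algebra (ZMod ℓ) K]
  [IsAlgClosed K]

/-- **Step (g)**: the relation on the twisted curve specialises to all `K`-points. -/
theorem spec : Final.SpecStatement ℓ K := by
  intro inst A B hΔ h2 hℓ a hrel P
  classical
  obtain ⟨s, hs⟩ := IsAlgClosed.exists_pow_nat_eq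
    (TransField.tΩ K ^ 3 + algebraMap (ZMod ℓ) (AlgebraicClosure (RatFunc K)) A * TransField.tΩ K
      + algebraMap (ZMod ℓ) (AlgebraicClosure (RatFunc K)) B) (n := 2) (by norm_num)
  exact spec_of_generic ℓ A B hΔ h2 hℓ (L := AlgebraicClosure (RatFunc K))
    TransField.transcendental_tΩ hs (fun x hx => TransField.exists_algHom_tΩ x hx) a hrel P

/-- **Brick (Tr)**: `φ² - a φ + ℓ = 0` on `E(K)`, `K` algebraically closed of characteristic
`ℓ ≠ 2`, for every short curve `E` over `ZMod ℓ` with nonzero discriminant;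
`a = E.traceOfFrobenius`. -/
theorem trStatement' (hℓ : ℓ ≠ 2) : Consumer.TrStatement' ℓ K :=
  Final.trStatement'_of_spec ℓ K hℓ (spec ℓ K)

theorem trStatement (hℓ : ℓ ≠ 2) : Consumer.TrStatement ℓ K :=
  Final.trStatement_of_spec ℓ K hℓ (spec ℓ K)

end Spec

end

end Fermat.Agent.S52.Tr.TransPt
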